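import Fermat.Agent.Density.Twist
import Mathlib.NumberTheory.PrimesCongruentOne

/-!
# The Chebotarev density theorem over `ℚ`

For a homomorphism from the absolute Galois group of `ℚ` onto a finite group, factoring through
a number field, the primes whose Frobenius lands in a given conjugacy class have Dirichlet density
`(size of the class) / (order of the group)`.
-/

set_option autoImplicit false

noncomputable section

open Filter Topology
open scoped Classical

namespace FLTAgent.Density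

section Fiber

variable {G : Type} [Group G] [Finite G] {π : GalQ →* G} {m : ℕ} [NeZero m]

/-- Prime sums attached to a fiber of the cyclotomic character on a subgroup. -/
theorem hasLogDensity_fiber (hπ : GaloisFactorsThroughFiniteLevel π)
    (hs : Function.Surjective π) (D : Subgroup G) (ε : G →* (ZMod m)ˣ)
    (hε : ∀ᶠ q : Nat.Primes in cofinite,
      (ε (π (frob q)) : ZMod m) = ((q : ℕ) : ZMod m) ^ 2)
    (t : (ZMod m)ˣ) :
    HasLogDensity (fun q : Nat.Primes =>
        if ε (π (frob q)) = t then (fixCount D (π (frob q)) : ℂ) else 0)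
      (Nat.card {d : D // ε d = t} : ℂ) := by
  have hm : (m.totient : ℂ) ≠ 0 :=
    Nat.cast_ne_zero.mpr (Nat.totient_pos.mpr (NeZero.pos m)).ne'
  have : Fintype D := Fintype.ofFinite D
  have key : ∀ g : G, ∑ ψ : DirichletCharacter ℂ m, ψ ((t : ZMod m)⁻¹) * charAt ψ ε g =
      if ε g = t then (m.totient : ℂ) else 0 := by
    intro g
    simp only [charAt]
    rw [DirichletCharacter.sum_char_inv_mul_char_eq ℂ t.isUnit]
    exact if_congr (Units.val_inj.trans eq_comm) rfl rfl
  have h := (HasLogDensity.sum Finset.univ fun (ψ : DirichletCharacter ℂ m) _ =>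
    (hasLogDensity_charAt_mul_fixCount hπ hs D ε hε ψ).const_mul
      (ψ ((t : ZMod m)⁻¹))).const_mul (m.totient : ℂ)⁻¹
  refine (h.congr (Eventually.of_forall fun q => ?_)).congr_density ?_
  · have hfac : ∀ F : ℂ, ∑ ψ : DirichletCharacter ℂ m,
        ψ ((t : ZMod m)⁻¹) * (charAt ψ ε (π (frob q)) * F) =
        (if ε (π (frob q)) = t then (m.totient : ℂ) else 0) * F := by
      intro F
      rw [← key, Finset.sum_mul]
      exact Finset.sum_congr rfl fun ψ _ => (mul_assoc _ _ _).symm
    simp only [hfac]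
    split_ifs
    · rw [inv_mul_cancel_left₀ hm]
    · simp
  · have hsum : ∀ ψ : DirichletCharacter ℂ m,
        (if ∀ d ∈ D, charAt ψ ε d = 1 then (Nat.card D : ℂ) else 0) = ∑ d : D, charAt ψ ε d := by
      intro ψ
      split_ifs with h
      · rw [Finset.sum_congr rfl fun (d : D) _ => h d d.2]
        simp [Nat.card_eq_fintype_card]
      · exact (sum_hom_units_eq_zero (charHom ψ ε D)
          fun h1 => h fun d hd => DFunLike.congr_fun h1 ⟨d, hd⟩).symm
    simp only [hsum, Finset.mul_sum]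
    rw [Finset.sum_comm]
    simp only [← Finset.mul_sum, key, ← Finset.sum_filter, Finset.sum_const, nsmul_eq_mul]
    rw [Nat.card_eq_fintype_card, Fintype.card_subtype]
    field_simp

end Fiber

section Count

variable {G : Type} [Group G]

/-- The number of conjugations taking `g` to `σ`. -/
def conjCount (σ g : G) : ℕ := Nat.card {y : G // y⁻¹ * g * y = σ}

theorem conjCount_eq_zero {σ g : G} (h : ¬ IsConj σ g) : conjCount σ g = 0 := by
  have : IsEmpty {y : G // y⁻¹ * g * y = σ} := ⟨fun ⟨y, hy⟩ => h (isConj_iff.mpr ⟨y, by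
    subst hy; group⟩)⟩
  exact Nat.card_of_isEmpty

theorem conjCount_congr {σ σ' g : G} (h : IsConj σ σ') : conjCount σ g = conjCount σ' g := by
  obtain ⟨c, rfl⟩ := isConj_iff.mp h
  refine Nat.card_congr ((Equiv.mulRight c⁻¹).subtypeEquiv fun y => ?_)
  simp only [Equiv.coe_mulRight, mul_inv_rev, inv_inv]
  constructor
  · rintro rfl; group
  · intro h'
    have := congrArg (fun z => c⁻¹ * z * c) h'
    simpa [mul_assoc] using this

theorem sum_conjCount [Fintype G] (g : G) : ∑ σ : G, conjCount σ g = Fintype.card G := by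
  simp only [conjCount, Nat.card_eq_fintype_card, Fintype.card_subtype]
  rw [← Finset.card_univ (α := G)]
  exact (Finset.card_eq_sum_card_fiberwise fun y _ => Finset.mem_univ (y⁻¹ * g * y)).symm

theorem conjCount_eq [Finite G] {σ g : G} (h : IsConj σ g) :
    (conjCount σ g : ℝ) = (Nat.card G : ℝ) / Nat.card {τ : G // IsConj σ τ} := by
  have : Fintype G := Fintype.ofFinite G
  have hsum := sum_conjCount g
  have heq : ∀ τ, conjCount τ g = if IsConj σ τ then conjCount σ g else 0 := by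
    intro τ
    split_ifs with hτ
    · exact (conjCount_congr hτ).symm
    · exact conjCount_eq_zero fun h' => hτ (h.trans h'.symm)
  rw [Finset.sum_congr rfl fun τ _ => heq τ, ← Finset.sum_filter, Finset.sum_const,
    smul_eq_mul] at hsum
  rw [eq_div_iff, Nat.card_eq_fintype_card, Nat.card_eq_fintype_card, Fintype.card_subtype,
    ← hsum, Nat.cast_mul, mul_comm]
  have : Nonempty {τ : G // IsConj σ τ} := ⟨⟨σ, IsConj.refl σ⟩⟩
  exact Nat.cast_ne_zero.mpr Nat.card_pos.ne'

theorem card_subtype_comp {G' : Type} [Group G'] (f : G' →* G) (hf : Function.Surjective f)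
    (P : G → Prop) :
    Nat.card {x : G' // P (f x)} = Nat.card f.ker * Nat.card {y : G // P y} := by
  choose s hs using hf
  rw [← Nat.card_prod]
  refine Nat.card_congr
    ⟨fun x => (⟨x.1 * (s (f x.1))⁻¹, by simp [MonoidHom.mem_ker, hs]⟩, ⟨f x.1, x.2⟩),
      fun z => ⟨z.1.1 * s z.2.1, by
        rw [map_mul, MonoidHom.mem_ker.mp z.1.2, one_mul, hs]; exact z.2.2⟩,
      fun x => by simp, ?_⟩
  rintro ⟨⟨k, hk⟩, ⟨y, hy⟩⟩
  have hfy : f (k * s y) = y := by rw [map_mul, MonoidHom.mem_ker.mp hk, one_mul, hs]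
  simp [hfy]

end Count

section Density

variable {G : Type} [Group G] [Finite G] {π : GalQ →* G}

theorem isBoundedOnPrimes_conjCount (σ : G) :
    IsBoundedOnPrimes fun q : Nat.Primes => (conjCount σ (π (frob q)) : ℂ) :=
  ⟨Nat.card G, fun q => by
    rw [Complex.norm_natCast]
    exact_mod_cast Nat.card_le_card_of_injective Subtype.val Subtype.val_injective⟩

/-- The crossing argument: lower bound for every class. -/
theorem exists_re_conjCount_ge (hπ : GaloisFactorsThroughFiniteLevel π)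
    (hs : Function.Surjective π) (σ : G) {e : ℝ} (he : 0 < e) :
    ∃ C : ℝ, ∀ᶠ s in 𝓝[>] (1 : ℝ), (1 - e) * Real.log (1 / (s - 1)) - C ≤
      (primeSeries (fun q => (conjCount σ (π (frob q)) : ℂ)) s).re := by
  set n := Nat.card G with hn_def
  have hn : 0 < n := Nat.card_pos
  -- choose the auxiliary prime
  obtain ⟨j, hj⟩ := pow_unbounded_of_one_lt (2 * (n : ℝ) * n / e) one_lt_two
  obtain ⟨ℓ, hℓ, hℓ2, hℓ1⟩ := Nat.exists_prime_gt_modEq_one 2
    (pow_ne_zero (j + 1) hn.ne' : n ^ (j + 1) ≠ 0)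
  have : Fact ℓ.Prime := ⟨hℓ⟩
  have hdvd : n ^ (j + 1) ∣ ℓ - 1 := (Nat.modEq_iff_dvd' hℓ.one_le).mp hℓ1.symm
  -- the crossed group
  let Φ : GalQ →* G × (ZMod ℓ)ˣ := π.prod (sqCyclo ℓ)
  let π' : GalQ →* Φ.range := Φ.rangeRestrict
  have hs' : Function.Surjective π' := Φ.rangeRestrict_surjective
  have hπ' : GaloisFactorsThroughFiniteLevel π' := by
    obtain ⟨L₁, hL₁, h₁⟩ := hπ
    obtain ⟨L₂, hL₂, h₂⟩ := sqCyclo_factorsThroughFiniteLevel ℓ
    have := hL₁
    have := hL₂
    refine ⟨L₁ ⊔ L₂, IntermediateField.finiteDimensional_sup L₁ L₂, fun τ hτ => Subtype.ext ?_⟩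
    exact Prod.ext (h₁ τ fun x hx => hτ x (SetLike.le_def.mp le_sup_left hx))
      (h₂ τ fun x hx => hτ x (SetLike.le_def.mp le_sup_right hx))
  let p₁ : Φ.range →* G := (MonoidHom.fst _ _).comp Φ.range.subtype
  let p₂ : Φ.range →* (ZMod ℓ)ˣ := (MonoidHom.snd _ _).comp Φ.range.subtype
  have hp₁ : Function.Surjective p₁ := fun y => by
    obtain ⟨γ, rfl⟩ := hs y
    exact ⟨π' γ, rfl⟩
  have hε : ∀ᶠ q : Nat.Primes in cofinite,
      (p₂ (π' (frob q)) : ZMod ℓ) = ((q : ℕ) : ZMod ℓ) ^ 2 := eventually_sqCyclo_frob ℓ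
  have : Fintype Φ.range := Fintype.ofFinite _
  -- good elements of the fiber over `σ`
  let fiber : Finset Φ.range := Finset.univ.filter fun g => p₁ g = σ
  let good : Finset Φ.range := fiber.filter fun g => n ∣ orderOf (p₂ g)
  have hsingle : ∀ g ∈ good, HasLogDensity
      (fun q : Nat.Primes => (conjCount g (π' (frob q)) : ℂ)) 1 := by
    intro g hg
    obtain ⟨hgσ, hgn⟩ := Finset.mem_filter.mp hg
    have hgσ' : p₁ g = σ := (Finset.mem_filter.mp hgσ).2
    have huniq : ∀ d ∈ Subgroup.zpowers g, p₂ d = p₂ g → d = g := by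
      intro d hd hdt
      obtain ⟨i, rfl⟩ := Subgroup.mem_zpowers_iff.mp hd
      have h1 : (p₂ g) ^ (i - 1) = 1 := by
        rw [zpow_sub, zpow_one, ← map_zpow, hdt, mul_inv_cancel]
      have h2 : σ ^ (i - 1) = 1 := by
        rw [← orderOf_dvd_iff_zpow_eq_one] at h1 ⊢
        refine dvd_trans ?_ h1
        exact_mod_cast (orderOf_dvd_natCard σ).trans hgn
      have h3 : g ^ (i - 1) = 1 := Subtype.ext (Prod.ext
        (show p₁ (g ^ (i - 1)) = 1 by rw [map_zpow, hgσ', h2])
        (show p₂ (g ^ (i - 1)) = 1 by rw [map_zpow, h1]))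
      rwa [zpow_sub, zpow_one, mul_inv_eq_one] at h3
    refine ((hasLogDensity_fiber hπ' hs' (Subgroup.zpowers g) p₂ hε (p₂ g)).congr
      (Eventually.of_forall fun q => ?_)).congr_density ?_
    · split_ifs with h
      · refine congrArg Nat.cast (Nat.card_congr (Equiv.subtypeEquivRight fun x => ?_))
        refine ⟨fun hx => huniq _ hx ?_, fun hx => hx ▸ Subgroup.mem_zpowers g⟩
        rw [map_conj_eq, h]
      · rw [conjCount_eq_zero, Nat.cast_zero]
        intro hc
        obtain ⟨c, hc'⟩ := isConj_iff.mp hc.symm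
        refine h ?_
        rw [← hc', map_mul, map_mul, map_inv, mul_comm, inv_mul_cancel_left]
    · have : Unique {d : Subgroup.zpowers g // p₂ d = p₂ g} :=
        { default := ⟨⟨g, Subgroup.mem_zpowers g⟩, rfl⟩
          uniq := fun d => Subtype.ext (Subtype.ext (huniq d.1 d.1.2 d.2)) }
      rw [Nat.card_unique, Nat.cast_one]
  have hgood : HasLogDensity (fun q : Nat.Primes => ∑ g ∈ good, (conjCount g (π' (frob q)) : ℂ))
      ((good.card : ℝ) : ℂ) :=
    (HasLogDensity.sum good hsingle).congr_density (by simp)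
  -- pointwise comparison
  set k := Nat.card p₁.ker with hk_def
  have hk : (0 : ℝ) < k := Nat.cast_pos.mpr Nat.card_pos
  have hpt : ∀ q : Nat.Primes, (∑ g ∈ good, (conjCount g (π' (frob q)) : ℝ)) ≤
      (k : ℝ) * (conjCount σ (π (frob q)) : ℝ) := by
    intro q
    set φ := π' (frob q)
    have hu : Nat.card {x : Φ.range // p₁ (x⁻¹ * φ * x) = σ} = k * conjCount σ (π (frob q)) := by
      rw [conjCount, hk_def, ← card_subtype_comp p₁ hp₁]
      refine Nat.card_congr (Equiv.subtypeEquivRight fun x => ?_)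
      rw [map_mul, map_mul, map_inv]
      rfl
    rw [← Nat.cast_mul, ← hu, ← Nat.cast_sum, Nat.cast_le]
    simp only [conjCount, Nat.card_eq_fintype_card, Fintype.card_subtype]
    refine le_trans (le_of_eq ?_) (Finset.card_le_card (s := Finset.univ.filter
      fun x : Φ.range => x⁻¹ * φ * x ∈ good) fun x hx => ?_)
    · rw [Finset.card_eq_sum_card_fiberwise (f := fun x : Φ.range => x⁻¹ * φ * x) (t := good)
        (s := Finset.univ.filter fun x : Φ.range => x⁻¹ * φ * x ∈ good)
        fun x hx => (Finset.mem_filter.mp hx).2]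
      refine Finset.sum_congr rfl fun g hg => congrArg Finset.card (Finset.ext fun x => ?_)
      simp only [Finset.mem_filter, Finset.mem_univ, true_and]
      exact ⟨fun h => ⟨h.symm ▸ hg, h⟩, fun h => h.2⟩
    · obtain ⟨hxf, -⟩ := Finset.mem_filter.mp (Finset.mem_filter.mp hx).2
      exact Finset.mem_filter.mpr ⟨Finset.mem_univ x, (Finset.mem_filter.mp hxf).2⟩
  -- counting
  have hcountR : (1 - e) * (k : ℝ) ≤ (good.card : ℝ) := by
    have hfib : fiber.card = k := by
      have := card_subtype_comp p₁ hp₁ fun y => y = σ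
      rw [(Nat.card_unique : Nat.card {y : G // y = σ} = 1), mul_one, Nat.card_eq_fintype_card,
        Fintype.card_subtype] at this
      rw [hk_def, ← this]
    let H := Finset.univ.filter fun t : (ZMod ℓ)ˣ => ¬ n ∣ orderOf t
    have hbad : (fiber.filter fun g => ¬ n ∣ orderOf (p₂ g)).card ≤ H.card := by
      refine Finset.card_le_card_of_injOn p₂ (fun g hg => ?_) fun g hg g' hg' h => ?_
      · exact Finset.mem_filter.mpr ⟨Finset.mem_univ _, (Finset.mem_filter.mp hg).2⟩
      · have h1 := (Finset.mem_filter.mp (Finset.mem_filter.mp (Finset.mem_coe.mp hg)).1).2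
        have h2 := (Finset.mem_filter.mp (Finset.mem_filter.mp (Finset.mem_coe.mp hg')).1).2
        exact Subtype.ext (Prod.ext (show p₁ g = p₁ g' by rw [h1, h2]) h)
    have hsplit : good.card + (fiber.filter fun g => ¬ n ∣ orderOf (p₂ g)).card = k := by
      rw [← hfib]
      exact Finset.card_filter_add_card_filter_not _
    have hM : Fintype.card (ZMod ℓ)ˣ = ℓ - 1 := ZMod.card_units ℓ
    have hcyc := card_not_dvd_orderOf_mul_le (H := (ZMod ℓ)ˣ) hn.ne' (Nat.succ_ne_zero j)
      (hM.symm ▸ hdvd)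
    rw [hM, Nat.succ_sub_one] at hcyc
    have hlarge : ℓ - 1 ≤ 2 * (n * k) := by
      refine (le_two_mul_card_range_sqCyclo ℓ).trans (Nat.mul_le_mul_left 2 ?_)
      have h1 := card_subtype_comp p₁ hp₁ fun _ => True
      rw [Nat.card_congr (Equiv.subtypeUnivEquiv fun _ => trivial),
        Nat.card_congr (Equiv.subtypeUnivEquiv fun _ => trivial), mul_comm] at h1
      rw [hn_def, hk_def, ← h1]
      exact Nat.card_le_card_of_surjective (fun g : Φ.range =>
        (⟨p₂ g, by obtain ⟨γ, hγ⟩ := g.2; exact ⟨γ, congrArg Prod.snd hγ⟩⟩ : (sqCyclo ℓ).range))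
        fun ⟨t, γ, hγ⟩ => ⟨π' γ, Subtype.ext hγ⟩
    have hb : (H.card : ℝ) * 2 ^ j ≤ (n : ℝ) * (2 * (n * k)) := by
      calc (H.card : ℝ) * 2 ^ j = ((H.card * 2 ^ j : ℕ) : ℝ) := by push_cast; ring
        _ ≤ ((n * (2 * (n * k)) : ℕ) : ℝ) :=
          Nat.cast_le.mpr (hcyc.trans (Nat.mul_le_mul_left n hlarge))
        _ = _ := by push_cast; ring
    have h2j : (0 : ℝ) < 2 ^ j := by positivity
    have hH : (H.card : ℝ) ≤ e * k := by
      rw [div_lt_iff₀ he] at hj
      nlinarith [mul_le_mul_of_nonneg_right hj.le hk.le]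
    have h5 : (k : ℝ) ≤ (good.card : ℝ) + H.card := by
      exact_mod_cast hsplit.symm.le.trans (Nat.add_le_add_left hbad _)
    nlinarith
  obtain ⟨C₁, hC₁⟩ := exists_re_primeSeries_le hgood.1
    ((isBoundedOnPrimes_conjCount (π := π) σ).const_mul (k : ℂ))
    (Eventually.of_forall fun q => by
      simp only [← Complex.ofReal_natCast, ← Complex.ofReal_sum, ← Complex.ofReal_mul,
        Complex.ofReal_re]
      exact hpt q)
  obtain ⟨C₂, hC₂⟩ := hgood.exists_re_le
  refine ⟨(C₁ + C₂) / k, ?_⟩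
  filter_upwards [hC₁, hC₂, tendsto_log_one_div_sub_one.eventually_ge_atTop 0] with s h1 h2 h3
  have hmul : (primeSeries (fun q => (k : ℂ) * (conjCount σ (π (frob q)) : ℂ)) s).re =
      (k : ℝ) * (primeSeries (fun q => (conjCount σ (π (frob q)) : ℂ)) s).re := by
    simp only [primeSeries, mul_assoc, tsum_mul_left]
    rw [← Complex.ofReal_natCast, Complex.re_ofReal_mul]
  rw [hmul] at h1
  set R := (primeSeries (fun q => (conjCount σ (π (frob q)) : ℂ)) s).re
  have h4 : (1 - e) * k * Real.log (1 / (s - 1)) ≤ (good.card : ℝ) * Real.log (1 / (s - 1)) :=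
    mul_le_mul_of_nonneg_right hcountR h3
  refine le_of_mul_le_mul_left ?_ hk
  rw [mul_sub, mul_div_cancel₀ _ hk.ne']
  nlinarith [(abs_le.mp h2).1]

theorem tendsto_re_conjCount (hπ : GaloisFactorsThroughFiniteLevel π)
    (hs : Function.Surjective π) (σ : G) :
    Tendsto (fun s : ℝ => (primeSeries (fun q => (conjCount σ (π (frob q)) : ℂ)) s).re /
      Real.log (1 / (s - 1))) (𝓝[>] 1) (𝓝 1) := by
  have : Fintype G := Fintype.ofFinite G
  have hconst : HasLogDensity (fun q : Nat.Primes => ∑ τ : G, (conjCount τ (π (frob q)) : ℂ))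
      ((Fintype.card G : ℝ) : ℂ) := by
    refine ((hasLogDensity_fixCount hπ hs ⊤).congr (Eventually.of_forall fun q => ?_)).congr_density
      (by simp [Nat.card_eq_fintype_card])
    rw [← Nat.cast_sum, sum_conjCount, fixCount]
    simp [Nat.card_eq_fintype_card]
  obtain ⟨C₀, hC₀⟩ := hconst.exists_re_le
  have hlog := tendsto_log_one_div_sub_one
  have hbounds : ∀ e : ℝ, 0 < e → ∃ C : ℝ, ∀ᶠ s in 𝓝[>] (1 : ℝ),
      (1 - e) * Real.log (1 / (s - 1)) - C ≤
        (primeSeries (fun q => (conjCount σ (π (frob q)) : ℂ)) s).re ∧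
      (primeSeries (fun q => (conjCount σ (π (frob q)) : ℂ)) s).re ≤
        (1 + Fintype.card G * e) * Real.log (1 / (s - 1)) + C := by
    intro e he
    choose C hC using fun τ : G => exists_re_conjCount_ge hπ hs τ he
    refine ⟨|C σ| + |C₀ + ∑ τ ∈ Finset.univ.erase σ, C τ|, ?_⟩
    filter_upwards [hC₀, eventually_all.mpr hC, self_mem_nhdsWithin,
      hlog.eventually_ge_atTop 0] with s h0 h1 hs' hpos
    set l := Real.log (1 / (s - 1))
    rw [primeSeries_finsetSum Finset.univ (fun τ _ => isBoundedOnPrimes_conjCount τ) hs',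
      Complex.re_sum, ← Finset.add_sum_erase _ _ (Finset.mem_univ σ)] at h0
    have h2 := Finset.sum_le_sum (s := Finset.univ.erase σ) fun τ _ => h1 τ
    rw [Finset.sum_sub_distrib, Finset.sum_const, nsmul_eq_mul,
      Finset.card_erase_of_mem (Finset.mem_univ σ), Finset.card_univ,
      Nat.cast_sub Fintype.card_pos, Nat.cast_one] at h2
    have := le_abs_self (C σ)
    have := le_abs_self (C₀ + ∑ τ ∈ Finset.univ.erase σ, C τ)
    have := abs_nonneg (C σ)
    have := abs_nonneg (C₀ + ∑ τ ∈ Finset.univ.erase σ, C τ)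
    exact ⟨by linarith [h1 σ], by nlinarith [(abs_le.mp h0).2, mul_nonneg he.le hpos]⟩
  rw [tendsto_order]
  constructor
  · intro a ha
    obtain ⟨C, hC⟩ := hbounds ((1 - a) / 2) (by linarith)
    filter_upwards [hC, hlog.eventually_gt_atTop (max 0 (2 * C / (1 - a)))] with s h1 h2
    obtain ⟨h2a, h2b⟩ := max_lt_iff.mp h2
    rw [div_lt_iff₀ (by linarith)] at h2b
    rw [lt_div_iff₀ h2a]
    linarith [h1.1]
  · intro b hb
    have hG : (0 : ℝ) < Fintype.card G := Nat.cast_pos.mpr Fintype.card_pos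
    obtain ⟨C, hC⟩ := hbounds ((b - 1) / 2 / Fintype.card G) (by positivity)
    filter_upwards [hC, hlog.eventually_gt_atTop (max 0 (2 * C / (b - 1)))] with s h1 h2
    obtain ⟨h2a, h2b⟩ := max_lt_iff.mp h2
    rw [div_lt_iff₀ (by linarith)] at h2b
    have h3 := h1.2
    rw [mul_div_cancel₀ _ hG.ne'] at h3
    rw [div_lt_iff₀ h2a]
    linarith

/-- `σ` is the image of a Frobenius element at an unramified place above `q`. -/
def HasFrobeniusImage {M : Type} [Group M] (π : GalQ →* M) (σ : M) (q : ℕ) : Prop :=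
  ∃ A : ValuationSubring Qbar, A.LiesOverPrime q ∧ (∀ τ ∈ A.inertiaSubgroupIn ℚ, π τ = 1) ∧
    ∃ φ : GalQ, A.IsFrobeniusAt φ q ∧ π φ = σ

omit [Finite G] in
theorem eventually_hasFrobeniusImage_iff (hπ : GaloisFactorsThroughFiniteLevel π)
    (hs : Function.Surjective π) (σ : G) :
    ∀ᶠ q : Nat.Primes in cofinite, (HasFrobeniusImage π σ q ↔ IsConj σ (π (frob q))) := by
  obtain ⟨S, hS⟩ := exists_finset_unramified hπ
  rw [eventually_cofinite]
  refine (S.finite_toSet.preimage Subtype.val_injective.injOn).subset fun q hq => ?_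
  by_contra hqS
  have hur := hS q q.2 hqS
  refine hq ⟨?_, ?_⟩
  · rintro ⟨A, hA, -, φ, hφ, rfl⟩
    exact isConj_map_of_isFrobeniusAt q.2 hur hA (frobPlace_liesOverPrime q) hφ
      (isFrobeniusAt_frob q)
  · intro h
    obtain ⟨c, hc⟩ := isConj_iff.mp h.symm
    obtain ⟨τ, rfl⟩ := hs c
    have hA := smul_liesOverPrime τ (frobPlace_liesOverPrime q)
    exact ⟨_, hA, hur _ hA, _, isFrobeniusAt_smul (isFrobeniusAt_frob q) τ, by
      rw [map_mul, map_mul, map_inv, hc]⟩

/-- **Chebotarev density theorem** over `ℚ`. -/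
theorem chebotarev_density (hπ : GaloisFactorsThroughFiniteLevel π)
    (hs : Function.Surjective π) (σ : G) :
    Tendsto (fun s : ℝ =>
      (∑' q : Nat.Primes, if HasFrobeniusImage π σ q then ((q : ℕ) : ℝ) ^ (-s) else 0) /
        Real.log (1 / (s - 1))) (𝓝[>] 1)
      (𝓝 ((Nat.card {τ : G // IsConj σ τ} : ℝ) / Nat.card G)) := by
  set c := (Nat.card G : ℝ) / Nat.card {τ : G // IsConj σ τ} with hc_def
  have hcl : (0 : ℝ) < Nat.card {τ : G // IsConj σ τ} := by
    have : Nonempty {τ : G // IsConj σ τ} := ⟨⟨σ, IsConj.refl σ⟩⟩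
    exact Nat.cast_pos.mpr Nat.card_pos
  have hG : (0 : ℝ) < Nat.card G := Nat.cast_pos.mpr Nat.card_pos
  have hc : 0 < c := div_pos hG hcl
  let f : Nat.Primes → ℂ := fun q => (conjCount σ (π (frob q)) : ℂ)
  let g : Nat.Primes → ℂ := fun q => if HasFrobeniusImage π σ q then (c : ℂ) else 0
  have hb : IsBoundedOnPrimes g := ⟨c, fun q => by
    simp only [g]
    split_ifs <;> simp [abs_of_pos hc, hc.le]⟩
  have hev : ∀ᶠ q in cofinite, f q = g q := by
    filter_upwards [eventually_hasFrobeniusImage_iff hπ hs σ] with q hq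
    simp only [f, g, hq]
    split_ifs with h
    · rw [hc_def, ← conjCount_eq h, Complex.ofReal_natCast]
    · rw [conjCount_eq_zero h, Nat.cast_zero]
  obtain ⟨C₁, hC₁⟩ := exists_re_primeSeries_le (isBoundedOnPrimes_conjCount σ) hb
    (hev.mono fun q hq => le_of_eq (congrArg Complex.re hq))
  obtain ⟨C₂, hC₂⟩ := exists_re_primeSeries_le hb (isBoundedOnPrimes_conjCount σ)
    (hev.mono fun q hq => le_of_eq (congrArg Complex.re hq.symm))
  have hgT : Tendsto (fun s => (primeSeries g s).re / Real.log (1 / (s - 1))) (𝓝[>] 1) (𝓝 1) := by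
    have h := tendsto_re_conjCount hπ hs σ
    have hlo : Tendsto (fun s => (primeSeries f s).re / Real.log (1 / (s - 1)) -
        C₁ / Real.log (1 / (s - 1))) (𝓝[>] 1) (𝓝 1) := by
      simpa using h.sub (tendsto_log_one_div_sub_one.const_div_atTop C₁)
    have hhi : Tendsto (fun s => (primeSeries f s).re / Real.log (1 / (s - 1)) +
        C₂ / Real.log (1 / (s - 1))) (𝓝[>] 1) (𝓝 1) := by
      simpa using h.add (tendsto_log_one_div_sub_one.const_div_atTop C₂)
    refine tendsto_of_tendsto_of_tendsto_of_le_of_le' hlo hhi ?_ ?_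
    · filter_upwards [hC₁, tendsto_log_one_div_sub_one.eventually_gt_atTop 0] with s h1 h2
      rw [← sub_div]
      gcongr
      linarith
    · filter_upwards [hC₂, tendsto_log_one_div_sub_one.eventually_gt_atTop 0] with s h1 h2
      rw [← add_div]
      gcongr
  have hfin := hgT.div_const c
  rw [show (Nat.card {τ : G // IsConj σ τ} : ℝ) / Nat.card G = 1 / c by
    rw [hc_def, one_div_div]]
  refine hfin.congr' ?_
  filter_upwards [self_mem_nhdsWithin] with s hs'
  have hre : (primeSeries g s).re =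
      c * ∑' q : Nat.Primes, if HasFrobeniusImage π σ q then ((q : ℕ) : ℝ) ^ (-s) else 0 := by
    rw [primeSeries, Complex.re_tsum (hb.summable hs'), ← tsum_mul_left]
    refine tsum_congr fun q => ?_
    simp only [g]
    split_ifs <;> simp
  rw [hre, mul_div_assoc, mul_div_cancel_left₀ _ hc.ne']

theorem infinite_setOf_hasFrobeniusImage_of_surjective (hπ : GaloisFactorsThroughFiniteLevel π)
    (hs : Function.Surjective π) (σ : G) :
    {q : Nat.Primes | HasFrobeniusImage π σ q}.Infinite := by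
  intro hfin
  have h := chebotarev_density hπ hs σ
  have hpos : (0 : ℝ) < (Nat.card {τ : G // IsConj σ τ} : ℝ) / Nat.card G := by
    have : Nonempty {τ : G // IsConj σ τ} := ⟨⟨σ, IsConj.refl σ⟩⟩
    exact div_pos (Nat.cast_pos.mpr Nat.card_pos) (Nat.cast_pos.mpr Nat.card_pos)
  have h0 : Tendsto (fun s : ℝ =>
      (∑' q : Nat.Primes, if HasFrobeniusImage π σ q then ((q : ℕ) : ℝ) ^ (-s) else 0) /
        Real.log (1 / (s - 1))) (𝓝[>] 1) (𝓝 0) := by
    refine squeeze_zero_norm' ?_ (tendsto_log_one_div_sub_one.const_div_atTop hfin.toFinset.card)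
    filter_upwards [self_mem_nhdsWithin,
      tendsto_log_one_div_sub_one.eventually_gt_atTop 0] with s hs' hl
    rw [Real.norm_eq_abs, abs_div, abs_of_pos hl]
    gcongr
    refine (le_of_eq (congrArg abs (tsum_eq_sum (s := hfin.toFinset)
      fun q hq => if_neg fun h' => hq (hfin.mem_toFinset.mpr h')))).trans ?_
    refine (Finset.abs_sum_le_sum_abs _ _).trans ?_
    refine (Finset.sum_le_card_nsmul _ _ 1 fun q _ => ?_).trans (by simp)
    split_ifs
    · rw [abs_of_nonneg (Real.rpow_nonneg (Nat.cast_nonneg _) _)]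
      exact Real.rpow_le_one_of_one_le_of_nonpos (by exact_mod_cast q.2.one_le)
        (by simp only [Set.mem_Ioi] at hs'; linarith)
    · simp
  exact hpos.ne' (tendsto_nhds_unique h h0)

end Density

theorem finite_range_of_factorsThroughFiniteLevel {M : Type} [Group M] {π : GalQ →* M}
    (hπ : GaloisFactorsThroughFiniteLevel π) : Finite π.range := by
  obtain ⟨L, hL, hL1⟩ := hπ
  have := hL
  have hopen : IsOpen ((π.ker : Subgroup GalQ) : Set GalQ) :=
    Subgroup.isOpen_mono (fun τ hτ => hL1 τ ((IntermediateField.mem_fixingSubgroup_iff _ _).mp hτ))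
      L.fixingSubgroup_isOpen
  have := Subgroup.quotient_finite_of_isOpen π.ker hopen
  exact Finite.of_equiv _ (QuotientGroup.quotientKerEquivRange π).toEquiv

/-- **Chebotarev**, qualitative form: outside any finite set there are infinitely many primes
with a Frobenius element having the same image as `γ` in a finite-level quotient. -/
theorem chebotarev {M : Type} [Group M] (π : GalQ →* M)
    (hπ : GaloisFactorsThroughFiniteLevel π) (γ : GalQ) (S : Finset ℕ) :
    {q : ℕ | q.Prime ∧ q ∉ S ∧ HasFrobeniusImage π (π γ) q}.Infinite := by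
  have := finite_range_of_factorsThroughFiniteLevel hπ
  have hπ' : GaloisFactorsThroughFiniteLevel π.rangeRestrict := by
    obtain ⟨L, hL, h⟩ := hπ
    exact ⟨L, hL, fun τ hτ => Subtype.ext (h τ hτ)⟩
  have hinf := infinite_setOf_hasFrobeniusImage_of_surjective hπ'
    π.rangeRestrict_surjective (π.rangeRestrict γ)
  refine ((hinf.image Subtype.val_injective.injOn).sdiff S.finite_toSet).mono ?_
  rintro _ ⟨⟨q, ⟨A, hA, hI, φ, hφ, he⟩, rfl⟩, hqS⟩
  exact ⟨q.2, hqS, A, hA, fun τ hτ => congrArg Subtype.val (hI τ hτ), φ, hφ,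
    congrArg Subtype.val he⟩

/-- Chebotarev for a finite Galois extension of `ℚ`, elementwise form. -/
theorem exists_frobenius_agree (L : IntermediateField ℚ Qbar) [FiniteDimensional ℚ L]
    [IsGalois ℚ L] (g : GalQ) (S : Finset ℕ) :
    ∃ ℓ, ℓ.Prime ∧ ℓ ∉ S ∧ ∃ A : ValuationSubring Qbar, A.LiesOverPrime ℓ ∧
      (∀ τ : GalQ, τ ∈ A.inertiaSubgroupIn ℚ → ∀ x : Qbar, x ∈ L → τ x = x) ∧
      ∃ σ : GalQ, A.IsFrobeniusAt σ ℓ ∧ ∀ x : Qbar, x ∈ L → g x = σ x := by
  let π : GalQ →* (L ≃ₐ[ℚ] L) := AlgEquiv.restrictNormalHom L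
  have hcomm : ∀ (τ : GalQ) (x : L), ((π τ x : L) : Qbar) = τ (x : Qbar) :=
    fun τ x => AlgEquiv.restrictNormal_commutes τ L x
  have hπ : GaloisFactorsThroughFiniteLevel π :=
    ⟨L, inferInstance, fun τ hτ => AlgEquiv.ext fun x => Subtype.ext (by
      rw [hcomm, AlgEquiv.one_apply]; exact hτ x x.2)⟩
  obtain ⟨ℓ, hℓ, hℓS, A, hA, hI, σ, hσ, he⟩ := (chebotarev π hπ g S).nonempty
  refine ⟨ℓ, hℓ, hℓS, A, hA, fun τ hτ x hx => ?_, σ, hσ, fun x hx => ?_⟩
  · have := hcomm τ ⟨x, hx⟩
    rw [hI τ hτ] at this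
    exact this.symm
  · rw [← hcomm g ⟨x, hx⟩, ← hcomm σ ⟨x, hx⟩, he]

/-- The division form: every element agrees on `L` with a power of a Frobenius element. -/
theorem exists_frobenius_division (L : IntermediateField ℚ Qbar) [FiniteDimensional ℚ L]
    [IsGalois ℚ L] (g : GalQ) (S : Finset ℕ) :
    ∃ ℓ, ℓ.Prime ∧ ℓ ∉ S ∧ ∃ A : ValuationSubring Qbar, A.LiesOverPrime ℓ ∧
      ∃ σ : GalQ, A.IsFrobeniusAt σ ℓ ∧ ∃ j : ℕ, ∀ x : Qbar, x ∈ L → g x = (σ ^ j) x := by
  obtain ⟨ℓ, hℓ, hℓS, A, hA, -, σ, hσ, h⟩ := exists_frobenius_agree L g S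
  exact ⟨ℓ, hℓ, hℓS, A, hA, σ, hσ, 1, by simpa using h⟩

end FLTAgent.Density
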