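import Mathlib.RingTheory.Invariant.Profinite
import Mathlib.RingTheory.Valuation.LocalSubring
import Mathlib.FieldTheory.Galois.Profinite
import Mathlib.FieldTheory.Galois.Infinite
import Mathlib.RingTheory.DedekindDomain.Dvr
import Mathlib.NumberTheory.NumberField.Basic
import Fermat.Prelude.Def_GaloisRep_Residual

/-!
# Frobenius elements and inertia in the absolute Galois group of `ℚ`

For a valuation subring `A` of `AlgebraicClosure ℚ` lying over a prime number `q`:
existence of Frobenius elements, transitivity of the Galois action on places above `q`,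
conjugation formulas, and triviality of inertia on a given number field for almost all `q`.
-/

set_option autoImplicit false

noncomputable section

open scoped Pointwise

namespace FLTAgent.Density

/-- The field of algebraic numbers. -/
abbrev Qbar := AlgebraicClosure ℚ

/-- The absolute Galois group of `ℚ`. -/
abbrev GalQ := AlgebraicClosure ℚ ≃ₐ[ℚ] AlgebraicClosure ℚ

instance isGalois_qbar : IsGalois ℚ (AlgebraicClosure ℚ) :=
  by
  have : IsAlgClosure ℚ (AlgebraicClosure ℚ) :=
    ⟨inferInstance, AlgebraicClosure.isAlgebraic ℚ⟩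
  exact IsAlgClosure.isGalois ℚ (AlgebraicClosure ℚ)

section Valuation

variable {A : ValuationSubring Qbar} {q : ℕ}

/-- Algebraic integers lie in every valuation ring. -/
theorem mem_of_isIntegral (A : ValuationSubring Qbar) {x : Qbar} (hx : IsIntegral ℤ x) :
    x ∈ A := by
  obtain ⟨y, hy⟩ := IsIntegrallyClosed.algebraMap_eq_of_integral
    (R := A) (K := Qbar) (hx.tower_top (A := A))
  exact hy ▸ y.2

theorem natCast_mem_nonunits_iff (hq : q.Prime) (hA : A.LiesOverPrime q) (n : ℤ) :
    (n : Qbar) ∈ A.nonunits ↔ (q : ℤ) ∣ n := by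
  have hm : ∀ m : ℤ, (m : Qbar) ∈ A.nonunits ↔ (m : A) ∈ IsLocalRing.maximalIdeal A := by
    intro m
    rw [← ValuationSubring.coe_mem_nonunits_iff]
    norm_num
  have hqm : ((q : ℤ) : A) ∈ IsLocalRing.maximalIdeal A := (hm q).1 (by exact_mod_cast hA)
  rw [hm]
  constructor
  · intro h
    by_contra hnd
    obtain ⟨a, b, hab⟩ := ((Nat.prime_iff_prime_int.mp hq).coprime_iff_not_dvd).mpr hnd
    have : (1 : A) ∈ IsLocalRing.maximalIdeal A := by
      have h1 := Ideal.add_mem _ (Ideal.mul_mem_left _ (a : A) hqm)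
        (Ideal.mul_mem_left _ (b : A) h)
      rwa [← Int.cast_mul, ← Int.cast_mul, ← Int.cast_add, hab, Int.cast_one] at h1
    exact (IsLocalRing.maximalIdeal.isMaximal A).ne_top (Ideal.eq_top_iff_one _ |>.mpr this)
  · rintro ⟨c, rfl⟩
    rw [Int.cast_mul]
    exact Ideal.mul_mem_right _ _ hqm

/-- An integer prime to `q` is a unit at a place over `q`. -/
theorem natCast_notMem_nonunits (hq : q.Prime) (hA : A.LiesOverPrime q) {n : ℕ} (hn : ¬ q ∣ n) :
    (n : Qbar) ∉ A.nonunits := by
  have h := natCast_mem_nonunits_iff hq hA (n : ℤ)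
  rw [Int.cast_natCast] at h
  rw [h, Int.natCast_dvd_natCast]
  exact hn

/-- The decomposition group preserves the valuation ring. -/
theorem apply_mem_iff {σ : GalQ} (hσ : σ ∈ A.decompositionSubgroup ℚ) (x : Qbar) :
    σ x ∈ A ↔ x ∈ A := by
  conv_lhs => rw [← MulAction.mem_stabilizer_iff.mp hσ]
  exact ValuationSubring.smul_mem_pointwise_smul_iff

theorem mem_decompositionSubgroup_of_apply_mem {σ : GalQ} (h : ∀ x ∈ A, σ x ∈ A) :
    σ ∈ A.decompositionSubgroup ℚ := by
  have key : ∀ x ∈ A, σ⁻¹ x ∈ A := by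
    intro x hx
    -- the orbit of `x` under `σ` is finite
    have hfin : (Set.range fun n : ℕ => (σ ^ n) x).Finite := by
      refine Set.Finite.subset ((minpoly ℚ x).rootSet_finite Qbar) ?_
      rintro _ ⟨n, rfl⟩
      rw [Polynomial.mem_rootSet]
      refine ⟨minpoly.ne_zero (Algebra.IsIntegral.isIntegral x), ?_⟩
      rw [Polynomial.aeval_algHom_apply, minpoly.aeval, map_zero]
    have := hfin.to_subtype
    obtain ⟨m, n, hne, hmn⟩ := Finite.exists_ne_map_eq_of_infinite
      (fun n : ℕ => (⟨(σ ^ n) x, n, rfl⟩ : Set.range fun n : ℕ => (σ ^ n) x))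
    have hmn' : (σ ^ m) x = (σ ^ n) x := congrArg Subtype.val hmn
    have hpow : ∀ k : ℕ, (σ ^ k) x ∈ A := by
      intro k
      induction k with
      | zero => simpa using hx
      | succ k ih => rw [pow_succ']; exact h _ ih
    wlog hlt : m < n generalizing m n
    · exact this n m hne.symm hmn.symm hmn'.symm (by omega)
    obtain ⟨k, rfl⟩ := Nat.exists_eq_add_of_lt hlt
    have h1 : (σ ^ (k + 1)) x = x := by
      have h2 : (σ ^ m) ((σ ^ (k + 1)) x) = (σ ^ m) x := by
        rw [← AlgEquiv.mul_apply, ← pow_add, ← add_assoc, ← hmn']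
      exact (σ ^ m).injective h2
    have : σ⁻¹ x = (σ ^ k) x := by
      conv_lhs => rw [← h1, pow_succ', AlgEquiv.mul_apply]
      exact σ.symm_apply_apply _
    rw [this]
    exact hpow k
  rw [MulAction.mem_stabilizer_iff]
  refine SetLike.ext fun x => ?_
  rw [ValuationSubring.mem_pointwise_smul_iff_inv_smul_mem]
  refine ⟨fun hx => ?_, key x⟩
  have := h _ hx
  rwa [AlgEquiv.smul_def, ← AlgEquiv.mul_apply, mul_inv_cancel, AlgEquiv.one_apply] at this

theorem residue_smul {σ : GalQ} (hσ : σ ∈ A.decompositionSubgroup ℚ) (x : A) :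
    (⟨σ, hσ⟩ : A.decompositionSubgroup ℚ) • (IsLocalRing.residue A x) =
      IsLocalRing.residue A ⟨σ x, (apply_mem_iff hσ x).mpr x.2⟩ := rfl

/-- A Frobenius is an element of the decomposition group congruent to `x ↦ x ^ q`. -/
theorem isFrobeniusAt_iff {σ : GalQ} :
    A.IsFrobeniusAt σ q ↔
      σ ∈ A.decompositionSubgroup ℚ ∧ ∀ x ∈ A, σ x - x ^ q ∈ A.nonunits := by
  constructor
  · rintro ⟨hσ, h⟩
    refine ⟨hσ, fun x hx => ?_⟩
    have := h (IsLocalRing.residue A ⟨x, hx⟩)
    rw [residue_smul hσ, ← map_pow, ← sub_eq_zero, ← map_sub,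
      IsLocalRing.residue_eq_zero_iff, ← ValuationSubring.coe_mem_nonunits_iff] at this
    simpa using this
  · rintro ⟨hσ, h⟩
    refine ⟨hσ, fun r => ?_⟩
    obtain ⟨⟨x, hx⟩, rfl⟩ := IsLocalRing.residue_surjective r
    rw [residue_smul hσ, ← map_pow, ← sub_eq_zero, ← map_sub,
      IsLocalRing.residue_eq_zero_iff, ← ValuationSubring.coe_mem_nonunits_iff]
    simpa using h x hx

/-- Inertia consists of the elements of the decomposition group acting trivially on residues. -/
theorem mem_inertiaSubgroupIn_iff {σ : GalQ} :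
    σ ∈ A.inertiaSubgroupIn ℚ ↔
      σ ∈ A.decompositionSubgroup ℚ ∧ ∀ x ∈ A, σ x - x ∈ A.nonunits := by
  constructor
  · rintro ⟨⟨τ, hτ⟩, hI, rfl⟩
    refine ⟨hτ, fun x hx => ?_⟩
    have hI' : MulSemiringAction.toRingAut (A.decompositionSubgroup ℚ) (IsLocalRing.ResidueField A)
        ⟨τ, hτ⟩ = 1 := hI
    have := RingEquiv.congr_fun hI' (IsLocalRing.residue A ⟨x, hx⟩)
    change (⟨τ, hτ⟩ : A.decompositionSubgroup ℚ) • IsLocalRing.residue A ⟨x, hx⟩ =
      IsLocalRing.residue A ⟨x, hx⟩ at this
    rw [residue_smul hτ, ← sub_eq_zero, ← map_sub, IsLocalRing.residue_eq_zero_iff,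
      ← ValuationSubring.coe_mem_nonunits_iff] at this
    simpa using this
  · rintro ⟨hσ, h⟩
    refine ⟨⟨σ, hσ⟩, ?_, rfl⟩
    refine RingEquiv.ext fun r => ?_
    obtain ⟨⟨x, hx⟩, rfl⟩ := IsLocalRing.residue_surjective r
    change (⟨σ, hσ⟩ : A.decompositionSubgroup ℚ) • IsLocalRing.residue A ⟨x, hx⟩ =
      IsLocalRing.residue A ⟨x, hx⟩
    rw [residue_smul hσ, ← sub_eq_zero, ← map_sub, IsLocalRing.residue_eq_zero_iff,
      ← ValuationSubring.coe_mem_nonunits_iff]
    simpa using h x hx

/-- Inertia is contained in the decomposition group. -/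
theorem inertiaSubgroupIn_le_decompositionSubgroup (A : ValuationSubring Qbar) :
    A.inertiaSubgroupIn ℚ ≤ A.decompositionSubgroup ℚ :=
  fun _ hσ => (mem_inertiaSubgroupIn_iff.mp hσ).1

end Valuation

section IntegralClosure

/-- The ring of algebraic integers. -/
abbrev Zbar := integralClosure ℤ Qbar

instance : TopologicalSpace Zbar := ⊥

instance : DiscreteTopology Zbar := ⟨rfl⟩

instance : ContinuousSMul GalQ Zbar := by
  rw [continuousSMul_iff_stabilizer_isOpen]
  intro x
  convert stabilizer_isOpen_of_isIntegral (K := ℚ) (x : Qbar) using 2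
  ext g
  simp [Subtype.ext_iff]

instance : Algebra.IsInvariant ℤ Zbar GalQ := by
  refine ⟨fun b hb => ?_⟩
  obtain ⟨r, hr⟩ := (InfiniteGalois.mem_range_algebraMap_iff_fixed (b : Qbar)).mpr
    fun g => congrArg Subtype.val (hb g)
  have hr' : IsIntegral ℤ r := by
    refine (isIntegral_algebraMap_iff (algebraMap ℚ Qbar).injective).mp ?_
    rw [hr]; exact b.2
  obtain ⟨n, hn⟩ := IsIntegrallyClosed.algebraMap_eq_of_integral hr'
  refine ⟨n, Subtype.ext ?_⟩
  rw [← hr, ← hn, eq_intCast, eq_intCast, map_intCast]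
  norm_num

/-- The inclusion of the algebraic integers in a valuation subring. -/
def toValuationSubring (A : ValuationSubring Qbar) : Zbar →+* A where
  toFun x := ⟨x, mem_of_isIntegral A x.2⟩
  map_one' := rfl
  map_mul' _ _ := rfl
  map_zero' := rfl
  map_add' _ _ := rfl

/-- The prime of the algebraic integers cut out by a valuation subring. -/
def primeBelow (A : ValuationSubring Qbar) : Ideal Zbar :=
  (IsLocalRing.maximalIdeal A).comap (toValuationSubring A)

instance (A : ValuationSubring Qbar) : (primeBelow A).IsPrime :=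
  Ideal.IsPrime.comap _

/-- The prime below a place consists of the integers which are non-units there. -/
theorem mem_primeBelow {A : ValuationSubring Qbar} {x : Zbar} :
    x ∈ primeBelow A ↔ (x : Qbar) ∈ A.nonunits := by
  rw [primeBelow, Ideal.mem_comap, ← ValuationSubring.coe_mem_nonunits_iff]
  rfl

theorem primeBelow_under {A : ValuationSubring Qbar} {q : ℕ} (hq : q.Prime)
    (hA : A.LiesOverPrime q) : (primeBelow A).under ℤ = Ideal.span {(q : ℤ)} := by
  ext n
  rw [Ideal.mem_comap, mem_primeBelow, Ideal.mem_span_singleton,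
    ← natCast_mem_nonunits_iff hq hA n]
  norm_num

/-- Every element of `A` is a quotient of algebraic integers with denominator a unit of `A`. -/
theorem exists_eq_div {A : ValuationSubring Qbar} {q : ℕ} (hq : q.Prime)
    (hA : A.LiesOverPrime q) {x : Qbar} (hx : x ∈ A) :
    ∃ a s : Zbar, s ∉ primeBelow A ∧ x * s = a := by
  let F : IntermediateField ℚ Qbar := IntermediateField.adjoin ℚ {x}
  have : FiniteDimensional ℚ F :=
    IntermediateField.adjoin.finiteDimensional (Algebra.IsIntegral.isIntegral x)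
  have : NumberField F := { }
  let i : NumberField.RingOfIntegers F →+* Zbar :=
    { toFun := fun y => ⟨((y : F) : Qbar), (y.isIntegral_coe).map (F.val.restrictScalars ℤ)⟩
      map_one' := rfl
      map_mul' := fun _ _ => rfl
      map_zero' := rfl
      map_add' := fun _ _ => rfl }
  let P : Ideal (NumberField.RingOfIntegers F) := (primeBelow A).comap i
  have hPprime : P.IsPrime := Ideal.IsPrime.comap _
  have hPne : P ≠ ⊥ := by
    intro h
    have hqP : ((q : ℕ) : NumberField.RingOfIntegers F) ∈ P := by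
      rw [Ideal.mem_comap, map_natCast, mem_primeBelow]
      simpa [ValuationSubring.LiesOverPrime] using hA
    rw [h, Ideal.mem_bot, Nat.cast_eq_zero] at hqP
    exact hq.ne_zero hqP
  have := IsLocalization.AtPrime.isDiscreteValuationRing_of_dedekind_domain _ hPne
    (Localization.AtPrime P)
  let x' : F := ⟨x, IntermediateField.mem_adjoin_simple_self ℚ x⟩
  obtain ⟨c, d, hd, hcd⟩ := IsFractionRing.div_surjective (A := NumberField.RingOfIntegers F) x'
  have hd0 : algebraMap (NumberField.RingOfIntegers F) F d ≠ 0 :=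
    IsFractionRing.to_map_ne_zero_of_mem_nonZeroDivisors hd
  have hxd : x' * algebraMap _ F d = algebraMap _ F c := by rw [← hcd, div_mul_cancel₀ _ hd0]
  have hxd' : x * (i d : Qbar) = (i c : Qbar) := congrArg Subtype.val hxd
  -- compare `c` and `d` in the valuation ring `Localization.AtPrime P`
  rcases ValuationRing.dvd_total
    (algebraMap _ (Localization.AtPrime P) d) (algebraMap _ (Localization.AtPrime P) c) with h | h
  · obtain ⟨z, hz⟩ := h
    obtain ⟨⟨u, t⟩, hut⟩ := IsLocalization.surj P.primeCompl z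
    refine ⟨i u, i t, ?_, ?_⟩
    · exact fun ht => t.2 ht
    · have h1 : algebraMap _ (Localization.AtPrime P) (d * u) =
          algebraMap _ (Localization.AtPrime P) (c * t) := by
        rw [map_mul, map_mul, hz, ← hut]
        ring
      have h2 := IsLocalization.injective (Localization.AtPrime P)
        P.primeCompl_le_nonZeroDivisors h1
      have h3 : (i d : Qbar) * i u = (i c : Qbar) * i t := by
        rw [← Subalgebra.coe_mul, ← Subalgebra.coe_mul, ← map_mul, ← map_mul, h2]
      have hid : (i d : Qbar) ≠ 0 := fun h0 => hd0 (Subtype.ext h0)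
      refine mul_left_cancel₀ hid ?_
      rw [h3, ← hxd']
      ring
  · obtain ⟨z, hz⟩ := h
    obtain ⟨⟨u, t⟩, hut⟩ := IsLocalization.surj P.primeCompl z
    have h1 : algebraMap _ (Localization.AtPrime P) (c * u) =
        algebraMap _ (Localization.AtPrime P) (d * t) := by
      rw [map_mul, map_mul, hz, ← hut]
      ring
    have h2 := IsLocalization.injective (Localization.AtPrime P)
      P.primeCompl_le_nonZeroDivisors h1
    have h3 : (i c : Qbar) * i u = (i d : Qbar) * i t := by
      rw [← Subalgebra.coe_mul, ← Subalgebra.coe_mul, ← map_mul, ← map_mul, h2]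
    have hid : (i d : Qbar) ≠ 0 := fun h0 => hd0 (Subtype.ext h0)
    have h4 : x * (i u : Qbar) = i t := by
      refine mul_left_cancel₀ hid ?_
      rw [← h3, ← hxd']
      ring
    refine ⟨i t, i u, fun hu => t.2 ?_, h4⟩
    change i t ∈ primeBelow A
    rw [mem_primeBelow, ← h4]
    rw [mem_primeBelow] at hu
    obtain ⟨hu', hum⟩ := ValuationSubring.mem_nonunits_iff_exists_mem_maximalIdeal.mp hu
    exact ValuationSubring.mem_nonunits_iff_exists_mem_maximalIdeal.mpr
      ⟨A.mul_mem _ _ hx hu', Ideal.mul_mem_left _ ⟨x, hx⟩ hum⟩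

theorem eq_of_primeBelow_eq {A B : ValuationSubring Qbar} {q : ℕ} (hq : q.Prime)
    (hA : A.LiesOverPrime q) (hB : B.LiesOverPrime q) (h : primeBelow A = primeBelow B) :
    A = B := by
  have key : ∀ {A B : ValuationSubring Qbar}, A.LiesOverPrime q →
      primeBelow A = primeBelow B → ∀ x ∈ A, x ∈ B := by
    intro A B hA h x hx
    obtain ⟨a, s, hs, hxs⟩ := exists_eq_div hq hA hx
    rw [h] at hs
    have hs' : IsUnit (toValuationSubring B s) := not_not.mp hs
    obtain ⟨v, hv⟩ := hs'
    have hvs : (v : B).1 = (s : Qbar) := congrArg Subtype.val hv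
    have : x = (a : Qbar) * ((v⁻¹ : Bˣ) : B).1 := by
      rw [← hxs, mul_assoc, ← hvs]
      change x = x * (((v : B) * ((v⁻¹ : Bˣ) : B) : B) : Qbar)
      simp
    rw [this]
    exact B.mul_mem _ _ (mem_of_isIntegral B a.2) ((v⁻¹ : Bˣ) : B).2
  exact SetLike.ext fun x => ⟨key hA h x, key hB h.symm x⟩

/-- The prime below a conjugate place is the conjugate prime. -/
theorem primeBelow_smul (τ : GalQ) (A : ValuationSubring Qbar) :
    primeBelow (τ • A) = τ • primeBelow A := by
  ext x
  rw [Ideal.mem_pointwise_smul_iff_inv_smul_mem, mem_primeBelow, mem_primeBelow,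
    ValuationSubring.mem_nonunits_iff_or, ValuationSubring.mem_nonunits_iff_or,
    ValuationSubring.mem_pointwise_smul_iff_inv_smul_mem, integralClosure.coe_smul,
    smul_inv'', smul_eq_zero_iff_eq]

/-- A conjugate of a place over `q` lies over `q`. -/
theorem smul_liesOverPrime (τ : GalQ) {A : ValuationSubring Qbar} {q : ℕ}
    (hA : A.LiesOverPrime q) : (τ • A).LiesOverPrime q := by
  have hA' : (q : Qbar) ∈ A.nonunits := hA
  change (q : Qbar) ∈ (τ • A).nonunits
  rw [ValuationSubring.mem_nonunits_iff_or] at hA' ⊢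
  rw [ValuationSubring.mem_pointwise_smul_iff_inv_smul_mem, smul_inv'']
  simpa [AlgEquiv.smul_def] using hA'

/-- The absolute Galois group is transitive on the places above a prime number. -/
theorem exists_smul_eq_of_liesOverPrime {A B : ValuationSubring Qbar} {q : ℕ} (hq : q.Prime)
    (hA : A.LiesOverPrime q) (hB : B.LiesOverPrime q) : ∃ τ : GalQ, τ • A = B := by
  obtain ⟨τ, hτ⟩ := Algebra.IsInvariant.exists_smul_of_under_eq_of_profinite (A := ℤ)
    (G := GalQ) (primeBelow A) (primeBelow B)
    (by rw [primeBelow_under hq hA, primeBelow_under hq hB])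
  exact ⟨τ, eq_of_primeBelow_eq hq (smul_liesOverPrime τ hA) hB
    (by rw [primeBelow_smul, hτ])⟩

/-- Frobenius elements exist at every place above a prime number. -/
theorem exists_isFrobeniusAt (A : ValuationSubring Qbar) {q : ℕ} (hq : q.Prime)
    (hA : A.LiesOverPrime q) : ∃ σ : GalQ, A.IsFrobeniusAt σ q := by
  have : Fact q.Prime := ⟨hq⟩
  let Q := primeBelow A
  let p : Ideal ℤ := Ideal.span {(q : ℤ)}
  have : Q.LiesOver p := ⟨(primeBelow_under hq hA).symm⟩
  have : CharP (Zbar ⧸ Q) q := by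
    refine (CharP.charP_iff_prime_eq_zero hq).mpr ?_
    rw [← map_natCast (Ideal.Quotient.mk Q), Ideal.Quotient.eq_zero_iff_mem, mem_primeBelow]
    simpa [ValuationSubring.LiesOverPrime] using hA
  have hfinp : Finite (ℤ ⧸ p) :=
    Finite.of_equiv _ (Int.quotientSpanNatEquivZMod q).symm.toEquiv
  let f : (Zbar ⧸ Q) →ₐ[ℤ ⧸ p] (Zbar ⧸ Q) :=
    { frobenius (Zbar ⧸ Q) q with
      commutes' := fun r => by
        obtain ⟨n, rfl⟩ := Ideal.Quotient.mk_surjective r
        change frobenius (Zbar ⧸ Q) q (algebraMap (ℤ ⧸ p) (Zbar ⧸ Q) (Ideal.Quotient.mk p n)) = _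
        rw [eq_intCast, map_intCast, map_intCast] }
  have hinj : Function.Injective f := frobenius_inj (Zbar ⧸ Q) q
  have hsurj : Function.Surjective f := by
    intro x
    have hx : IsIntegral (ℤ ⧸ p) x := by
      obtain ⟨y, rfl⟩ := Ideal.Quotient.mk_surjective x
      exact ((Algebra.IsIntegral.isIntegral (R := ℤ) y).map
        (Ideal.Quotient.mkₐ ℤ Q)).tower_top
    have : Module.Finite (ℤ ⧸ p) (Algebra.adjoin (ℤ ⧸ p) {x}) :=
      Module.Finite.iff_fg.mpr hx.fg_adjoin_singleton
    have : Finite (Algebra.adjoin (ℤ ⧸ p) {x}) := Module.finite_of_finite (ℤ ⧸ p)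
    let g : Algebra.adjoin (ℤ ⧸ p) {x} → Algebra.adjoin (ℤ ⧸ p) {x} :=
      fun z => ⟨(z : Zbar ⧸ Q) ^ q, Subalgebra.pow_mem _ z.2 q⟩
    have hg : Function.Injective g := fun a b hab => Subtype.ext (hinj (congrArg Subtype.val hab))
    obtain ⟨z, hz⟩ := Finite.injective_iff_surjective.mp hg
      ⟨x, Algebra.subset_adjoin (Set.mem_singleton x)⟩
    exact ⟨z, congrArg Subtype.val hz⟩
  obtain ⟨⟨σ, hσQ⟩, hσ⟩ := Ideal.Quotient.stabilizerHom_surjective_of_profinite (G := GalQ)
    p Q (AlgEquiv.ofBijective f ⟨hinj, hsurj⟩)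
  have hcong : ∀ y : Zbar, σ • y - y ^ q ∈ Q := by
    intro y
    rw [← Ideal.Quotient.eq, map_pow]
    exact DFunLike.congr_fun hσ (Ideal.Quotient.mk Q y)
  refine ⟨σ, isFrobeniusAt_iff.mpr ?_⟩
  -- extend the congruence from algebraic integers to the valuation ring
  have key : ∀ x ∈ A, σ x ∈ A ∧ σ x - x ^ q ∈ A.nonunits := by
    intro x hx
    obtain ⟨a, s, hs, hxs⟩ := exists_eq_div hq hA hx
    let φ := toValuationSubring A
    have hs1 : IsUnit (φ s) := not_not.mp hs
    have hσs : σ • s ∉ Q := by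
      intro hmem
      apply hs
      have : s ^ q ∈ Q := by
        have h := Q.sub_mem hmem (hcong s)
        rwa [sub_sub_cancel] at h
      exact Ideal.IsPrime.mem_of_pow_mem inferInstance _ this
    have hs2 : IsUnit (φ (σ • s)) := not_not.mp hσs
    obtain ⟨u, hu⟩ := hs2
    have hu' : ((u : A) : Qbar) = σ (s : Qbar) := congrArg Subtype.val hu
    have e : σ x * σ (s : Qbar) = σ (a : Qbar) := by rw [← map_mul, hxs]
    have hσx : σ x = (φ (σ • a) : Qbar) * (((u⁻¹ : Aˣ) : A) : Qbar) := by
      change σ x = σ (a : Qbar) * _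
      rw [← e, mul_assoc, ← hu']
      norm_cast
      simp
    have hmem : σ x ∈ A := by rw [hσx]; exact A.mul_mem _ _ (φ (σ • a)).2 ((u⁻¹ : Aˣ) : A).2
    refine ⟨hmem, ValuationSubring.mem_nonunits_iff_exists_mem_maximalIdeal.mpr
      ⟨A.toSubring.sub_mem hmem (A.toSubring.pow_mem hx q), ?_⟩⟩
    rw [← IsLocalRing.residue_eq_zero_iff]
    let r := IsLocalRing.residue A
    have hc : ∀ y : Zbar, r (φ (σ • y)) = r (φ y) ^ q := by
      intro y
      rw [← map_pow, ← map_pow, ← sub_eq_zero, ← map_sub, ← map_sub,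
        IsLocalRing.residue_eq_zero_iff]
      exact hcong y
    have h1 : r ⟨x, hx⟩ * r (φ s) = r (φ a) := by
      rw [← map_mul]; exact congrArg r (Subtype.ext hxs)
    have h2 : r ⟨σ x, hmem⟩ * r (φ (σ • s)) = r (φ (σ • a)) := by
      rw [← map_mul]; exact congrArg r (Subtype.ext e)
    have hne : r (φ s) ^ q ≠ 0 := pow_ne_zero _ (hs1.map r).ne_zero
    have : r ⟨σ x, hmem⟩ = r ⟨x, hx⟩ ^ q := by
      refine mul_right_cancel₀ hne ?_
      rw [← mul_pow, h1, ← hc s, h2, hc a]
    change r (⟨σ x, hmem⟩ - ⟨x, hx⟩ ^ q) = 0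
    rw [map_sub, map_pow, this, sub_self]
  exact ⟨mem_decompositionSubgroup_of_apply_mem fun x hx => (key x hx).1,
    fun x hx => (key x hx).2⟩

end IntegralClosure

end FLTAgent.Density
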