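import Fermat.Agent.Density.Frobenius
import Mathlib.RingTheory.Ideal.GoingUp

/-!
# Places, inertia and ramification in the absolute Galois group of `ℚ`

Places above each prime exist; inertia fixes a given number field for almost all primes;
continuous finite representations are unramified at almost all primes.
-/

set_option autoImplicit false

noncomputable section

open scoped Pointwise

namespace FLTAgent.Density

variable {A : ValuationSubring Qbar} {q : ℕ}

/-- Any prime of the algebraic integers containing `q` is cut out by a place above `q`. -/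
theorem exists_primeBelow_eq (hq : q.Prime) (Q : Ideal Zbar) [hQ : Q.IsPrime]
    (hqQ : (q : Zbar) ∈ Q) :
    ∃ A : ValuationSubring Qbar, A.LiesOverPrime q ∧ primeBelow A = Q := by
  have : Q.IsMaximal := by
    refine Ideal.isMaximal_of_isIntegral_of_isMaximal_comap (R := ℤ) Q ?_
    have : Q.comap (algebraMap ℤ Zbar) = Ideal.span {(q : ℤ)} := by
      have hspan : (Ideal.span {(q : ℤ)}).IsMaximal :=
        PrincipalIdealRing.isMaximal_of_irreducible (Nat.prime_iff_prime_int.mp hq).irreducible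
      refine (hspan.eq_of_le (Ideal.comap_ne_top _ hQ.ne_top) ?_).symm
      rw [Ideal.span_le, Set.singleton_subset_iff, SetLike.mem_coe, Ideal.mem_comap]
      simpa using hqQ
    rw [this]
    exact PrincipalIdealRing.isMaximal_of_irreducible (Nat.prime_iff_prime_int.mp hq).irreducible
  obtain ⟨A, hle, hQA⟩ := Ideal.image_subset_nonunits_valuationSubring
    (A := (integralClosure ℤ Qbar).toSubring) Q hQ.ne_top
  refine ⟨A, hQA ⟨(q : Zbar), hqQ, by simp⟩, ?_⟩
  refine (Ideal.IsMaximal.eq_of_le inferInstance (Ideal.IsPrime.ne_top inferInstance) ?_).symm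
  exact fun x hx => mem_primeBelow.mpr (hQA ⟨x, hx, rfl⟩)

/-- There is a place above every prime number. -/
theorem exists_liesOverPrime (hq : q.Prime) :
    ∃ A : ValuationSubring Qbar, A.LiesOverPrime q := by
  have : (Ideal.span {(q : ℤ)}).IsPrime :=
    (Ideal.span_singleton_prime (by exact_mod_cast hq.ne_zero)).mpr
      (Nat.prime_iff_prime_int.mp hq)
  obtain ⟨Q, hQ, hQe⟩ := Ideal.exists_ideal_over_prime_of_isIntegral_of_isDomain (S := Zbar)
    (Ideal.span {(q : ℤ)})
    (by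
      rw [(RingHom.injective_iff_ker_eq_bot _).mp (algebraMap ℤ Zbar).injective_int]
      exact bot_le)
  have hqQ : (q : Zbar) ∈ Q := by
    have : (q : ℤ) ∈ Q.comap (algebraMap ℤ Zbar) := by
      rw [hQe]; exact Ideal.mem_span_singleton_self _
    simpa using this
  obtain ⟨A, hA, -⟩ := exists_primeBelow_eq hq Q hqQ
  exact ⟨A, hA⟩

/-- The decomposition group preserves the non-units. -/
theorem apply_mem_nonunits_iff {σ : GalQ} (hσ : σ ∈ A.decompositionSubgroup ℚ) (x : Qbar) :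
    σ x ∈ A.nonunits ↔ x ∈ A.nonunits := by
  simp only [ValuationSubring.mem_nonunits_iff_or, ← map_inv₀, apply_mem_iff hσ,
    map_eq_zero_iff _ σ.injective]

theorem smul_apply_mem_iff (τ : GalQ) (x : Qbar) : τ x ∈ τ • A ↔ x ∈ A :=
  ValuationSubring.smul_mem_pointwise_smul_iff

/-- Conjugation carries non-units to non-units of the conjugate place. -/
theorem apply_mem_smul_nonunits_iff (τ : GalQ) (x : Qbar) :
    τ x ∈ (τ • A).nonunits ↔ x ∈ A.nonunits := by
  simp only [ValuationSubring.mem_nonunits_iff_or, ← map_inv₀, smul_apply_mem_iff,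
    map_eq_zero_iff _ τ.injective]

/-- Conjugating a Frobenius element gives a Frobenius element at the conjugate place. -/
theorem isFrobeniusAt_smul {σ : GalQ} (h : A.IsFrobeniusAt σ q) (τ : GalQ) :
    (τ • A).IsFrobeniusAt (τ * σ * τ⁻¹) q := by
  obtain ⟨hσ, hc⟩ := isFrobeniusAt_iff.mp h
  refine isFrobeniusAt_iff.mpr ⟨?_, fun x hx => ?_⟩
  · rw [MulAction.mem_stabilizer_iff, mul_smul, mul_smul, inv_smul_smul,
      MulAction.mem_stabilizer_iff.mp hσ]
  · obtain ⟨y, rfl⟩ := τ.surjective x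
    have hy : y ∈ A := (smul_apply_mem_iff τ y).mp hx
    have : (τ * σ * τ⁻¹) (τ y) - τ y ^ q = τ (σ y - y ^ q) := by
      simp [map_sub, map_pow, AlgEquiv.aut_inv]
    rw [this, apply_mem_smul_nonunits_iff]
    exact hc y hy

/-- Conjugating an inertia element gives an inertia element at the conjugate place. -/
theorem mem_inertiaSubgroupIn_smul {σ : GalQ} (h : σ ∈ A.inertiaSubgroupIn ℚ) (τ : GalQ) :
    τ * σ * τ⁻¹ ∈ (τ • A).inertiaSubgroupIn ℚ := by
  obtain ⟨hσ, hc⟩ := mem_inertiaSubgroupIn_iff.mp h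
  refine mem_inertiaSubgroupIn_iff.mpr ⟨?_, fun x hx => ?_⟩
  · rw [MulAction.mem_stabilizer_iff, mul_smul, mul_smul, inv_smul_smul,
      MulAction.mem_stabilizer_iff.mp hσ]
  · obtain ⟨y, rfl⟩ := τ.surjective x
    have hy : y ∈ A := (smul_apply_mem_iff τ y).mp hx
    have : (τ * σ * τ⁻¹) (τ y) - τ y = τ (σ y - y) := by
      simp [map_sub, AlgEquiv.aut_inv]
    rw [this, apply_mem_smul_nonunits_iff]
    exact hc y hy

/-- Two Frobenius elements at the same place differ by an inertia element. -/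
theorem inv_mul_mem_inertiaSubgroupIn {σ τ : GalQ} (hσ : A.IsFrobeniusAt σ q)
    (hτ : A.IsFrobeniusAt τ q) : σ⁻¹ * τ ∈ A.inertiaSubgroupIn ℚ := by
  obtain ⟨hσd, hσc⟩ := isFrobeniusAt_iff.mp hσ
  obtain ⟨hτd, hτc⟩ := isFrobeniusAt_iff.mp hτ
  refine mem_inertiaSubgroupIn_iff.mpr
    ⟨Subgroup.mul_mem _ (Subgroup.inv_mem _ hσd) hτd, fun x hx => ?_⟩
  rw [← apply_mem_nonunits_iff hσd, map_sub]
  have h1 : σ ((σ⁻¹ * τ) x) = τ x := σ.apply_symm_apply _
  rw [h1, show τ x - σ x = (τ x - x ^ q) - (σ x - x ^ q) by ring]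
  exact A.nonunits.sub_mem (hτc x hx) (hσc x hx)

theorem intCast_notMem_nonunits (hq : q.Prime) (hA : A.LiesOverPrime q) {n : ℤ}
    (hn : ¬ (q : ℤ) ∣ n) : (n : Qbar) ∉ A.nonunits :=
  fun h => hn ((natCast_mem_nonunits_iff hq hA n).mp h)

/-- A nonzero algebraic integer is a unit at almost all places. -/
theorem exists_ne_zero_forall_notMem_nonunits {d : Qbar} (hd : IsIntegral ℤ d) (hd0 : d ≠ 0) :
    ∃ n : ℕ, n ≠ 0 ∧ ∀ q : ℕ, q.Prime → ¬ q ∣ n → ∀ A : ValuationSubring Qbar,
      A.LiesOverPrime q → d ∉ A.nonunits := by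
  let f := minpoly ℤ d
  have hf0 : f.coeff 0 ≠ 0 := by
    intro h
    refine minpoly.coeff_zero_ne_zero (Algebra.IsIntegral.isIntegral (R := ℚ) d) hd0 ?_
    rw [minpoly.isIntegrallyClosed_eq_field_fractions' ℚ hd, Polynomial.coeff_map, h, map_zero]
  refine ⟨(f.coeff 0).natAbs, Int.natAbs_ne_zero.mpr hf0, fun q hq hqn A hA hmem => ?_⟩
  refine intCast_notMem_nonunits hq hA (mt Int.natCast_dvd.mp hqn) ?_
  obtain ⟨hdA, hdm⟩ := ValuationSubring.mem_nonunits_iff_exists_mem_maximalIdeal.mp hmem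
  let d' : A := ⟨d, hdA⟩
  have heval : Polynomial.aeval d' f = 0 := by
    apply Subtype.ext
    change A.subtype (Polynomial.aeval d' f) = 0
    rw [Polynomial.aeval_def, Polynomial.hom_eval₂,
      RingHom.ext_int (A.subtype.comp (algebraMap ℤ A)) (algebraMap ℤ Qbar)]
    exact minpoly.aeval ℤ d
  have hsplit := congrArg (Polynomial.aeval d') f.X_mul_divX_add
  rw [heval, map_add, map_mul, Polynomial.aeval_X, Polynomial.aeval_C] at hsplit
  have hmemA : (algebraMap ℤ A (f.coeff 0)) ∈ IsLocalRing.maximalIdeal A := by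
    rw [eq_neg_of_add_eq_zero_right hsplit]
    exact Ideal.neg_mem_iff _ |>.mpr (Ideal.mul_mem_right _ _ hdm)
  rw [eq_intCast, ← ValuationSubring.coe_mem_nonunits_iff] at hmemA
  simpa using hmemA

/-- For almost all primes, two conjugates of a given algebraic number which are congruent
modulo a place above the prime are equal. -/
theorem exists_ne_zero_forall_eq_of_sub_mem_nonunits {x : Qbar} (hx : IsIntegral ℤ x) :
    ∃ n : ℕ, n ≠ 0 ∧ ∀ q : ℕ, q.Prime → ¬ q ∣ n → ∀ A : ValuationSubring Qbar,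
      A.LiesOverPrime q → ∀ σ τ : GalQ, σ x - τ x ∈ A.nonunits → σ x = τ x := by
  classical
  have hR : ((minpoly ℚ x).rootSet Qbar).Finite := Polynomial.rootSet_finite _ _
  let R := hR.toFinset
  have hRint : ∀ y ∈ R, IsIntegral ℤ y := by
    intro y hy
    rw [Set.Finite.mem_toFinset, Polynomial.mem_rootSet] at hy
    refine ⟨minpoly ℤ x, minpoly.monic hx, ?_⟩
    have h1 : minpoly ℚ x = (minpoly ℤ x).map (algebraMap ℤ ℚ) :=
      minpoly.isIntegrallyClosed_eq_field_fractions' ℚ hx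
    have h2 := hy.2
    rw [h1, Polynomial.aeval_map_algebraMap] at h2
    exact h2
  have hmem : ∀ σ : GalQ, σ x ∈ R := by
    intro σ
    rw [Set.Finite.mem_toFinset, Polynomial.mem_rootSet]
    refine ⟨minpoly.ne_zero (Algebra.IsIntegral.isIntegral x), ?_⟩
    rw [Polynomial.aeval_algHom_apply, minpoly.aeval, map_zero]
  let D : Qbar := ∏ a ∈ R, ∏ b ∈ R.erase a, (a - b)
  have hDint : IsIntegral ℤ D := IsIntegral.prod _ fun a ha => IsIntegral.prod _ fun b hb =>
    (hRint a ha).sub (hRint b (Finset.mem_of_mem_erase hb))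
  have hD0 : D ≠ 0 := Finset.prod_ne_zero_iff.mpr fun a _ => Finset.prod_ne_zero_iff.mpr
    fun b hb => sub_ne_zero.mpr (Finset.ne_of_mem_erase hb).symm
  obtain ⟨n, hn0, hn⟩ := exists_ne_zero_forall_notMem_nonunits hDint hD0
  refine ⟨n, hn0, fun q hq hqn A hA σ τ hst => ?_⟩
  by_contra hne
  refine hn q hq hqn A hA ?_
  obtain ⟨h1, h2⟩ := ValuationSubring.mem_nonunits_iff_exists_mem_maximalIdeal.mp hst
  have hfac : ∀ a ∈ R, ∀ b ∈ R.erase a, a - b ∈ A := fun a ha b hb =>
    A.toSubring.sub_mem (mem_of_isIntegral A (hRint a ha))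
      (mem_of_isIntegral A (hRint b (Finset.mem_of_mem_erase hb)))
  have hτ : τ x ∈ R.erase (σ x) := Finset.mem_erase.mpr ⟨Ne.symm hne, hmem τ⟩
  have hD : D = (σ x - τ x) * ((∏ b ∈ (R.erase (σ x)).erase (τ x), (σ x - b)) *
      ∏ a ∈ R.erase (σ x), ∏ b ∈ R.erase a, (a - b)) := by
    rw [← mul_assoc, Finset.mul_prod_erase _ (fun b => σ x - b) hτ]
    exact (Finset.mul_prod_erase R (fun a => ∏ b ∈ R.erase a, (a - b)) (hmem σ)).symm
  have hrest : (∏ b ∈ (R.erase (σ x)).erase (τ x), (σ x - b)) *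
      ∏ a ∈ R.erase (σ x), ∏ b ∈ R.erase a, (a - b) ∈ A := by
    refine A.toSubring.mul_mem (A.toSubring.prod_mem fun b hb => ?_)
      (A.toSubring.prod_mem fun a ha => A.toSubring.prod_mem fun b hb => ?_)
    · exact hfac _ (hmem σ) b (Finset.mem_of_mem_erase hb)
    · exact hfac a (Finset.mem_of_mem_erase ha) b hb
  rw [hD, ValuationSubring.mem_nonunits_iff_exists_mem_maximalIdeal]
  exact ⟨A.mul_mem _ _ h1 hrest, Ideal.mul_mem_right ⟨_, hrest⟩ _ h2⟩

theorem exists_isIntegral_adjoin_eq (L : IntermediateField ℚ Qbar) [FiniteDimensional ℚ L] :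
    ∃ α : Qbar, IsIntegral ℤ α ∧ IntermediateField.adjoin ℚ {α} = L := by
  obtain ⟨β, hβ⟩ := Field.exists_primitive_element ℚ L
  have hβ' : IntermediateField.adjoin ℚ {(β : Qbar)} = L := by
    refine (IntermediateField.lift_adjoin_simple _ _ β).symm.trans ?_
    refine Eq.trans ?_ (IntermediateField.lift_top (F := ℚ) (E := Qbar) L)
    congr 1
  obtain ⟨y, hy0, hy⟩ := IsAlgebraic.exists_integral_multiple (R := ℤ) (z := (β : Qbar))
    ((IsFractionRing.isAlgebraic_iff ℤ ℚ Qbar).mpr (Algebra.IsAlgebraic.isAlgebraic _))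
  refine ⟨_, hy, ?_⟩
  conv_rhs => rw [← hβ']
  apply le_antisymm <;> rw [IntermediateField.adjoin_simple_le_iff]
  · exact zsmul_mem (IntermediateField.mem_adjoin_simple_self _ _) y
  · have h : (β : Qbar) = algebraMap ℚ Qbar ((y : ℚ)⁻¹) * (y • (β : Qbar)) := by
      rw [zsmul_eq_mul, ← mul_assoc, map_inv₀, map_intCast, inv_mul_cancel₀, one_mul]
      exact_mod_cast hy0
    have hm := mul_mem (IntermediateField.algebraMap_mem
      (IntermediateField.adjoin ℚ {y • (β : Qbar)}) ((y : ℚ)⁻¹))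
      (IntermediateField.mem_adjoin_simple_self ℚ (y • (β : Qbar)))
    rwa [← h] at hm

theorem forall_mem_adjoin_simple_eq {α : Qbar} {σ : GalQ} (h : σ α = α) :
    ∀ x ∈ IntermediateField.adjoin ℚ {α}, σ x = x := by
  intro x hx
  induction hx using IntermediateField.adjoin_induction with
  | mem y hy => rw [Set.mem_singleton_iff.mp hy]; exact h
  | algebraMap r => exact σ.commutes r
  | add a b _ _ ha hb => rw [map_add, ha, hb]
  | inv a _ ha => rw [map_inv₀, ha]
  | mul a b _ _ ha hb => rw [map_mul, ha, hb]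

/-- For all but finitely many primes, the inertia groups fix a given number field pointwise. -/
theorem exists_finset_forall_inertia_fixes (L : IntermediateField ℚ Qbar)
    [FiniteDimensional ℚ L] :
    ∃ S : Finset ℕ, ∀ q : ℕ, q.Prime → q ∉ S → ∀ A : ValuationSubring Qbar,
      A.LiesOverPrime q → ∀ σ ∈ A.inertiaSubgroupIn ℚ, ∀ x ∈ L, σ x = x := by
  obtain ⟨α, hα, rfl⟩ := exists_isIntegral_adjoin_eq L
  obtain ⟨n, hn0, hn⟩ := exists_ne_zero_forall_eq_of_sub_mem_nonunits hα
  refine ⟨n.primeFactors, fun q hq hqS A hA σ hσ => forall_mem_adjoin_simple_eq ?_⟩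
  refine hn q hq (fun hd => hqS (Nat.mem_primeFactors.mpr ⟨hq, hd, hn0⟩)) A hA σ 1 ?_
  exact (mem_inertiaSubgroupIn_iff.mp hσ).2 α (mem_of_isIntegral A hα)

/-- A homomorphism factoring through a number field is unramified at almost all primes. -/
theorem exists_finset_unramified {M : Type} [MulOneClass M] {ρ : GalQ →* M}
    (h : GaloisFactorsThroughFiniteLevel ρ) :
    ∃ S : Finset ℕ, ∀ q : ℕ, q.Prime → q ∉ S → ∀ A : ValuationSubring Qbar,
      A.LiesOverPrime q → ∀ σ ∈ A.inertiaSubgroupIn ℚ, ρ σ = 1 := by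
  obtain ⟨L, hL, hρ⟩ := h
  have := hL
  obtain ⟨S, hS⟩ := exists_finset_forall_inertia_fixes L
  exact ⟨S, fun q hq hqS A hA σ hσ => hρ σ (hS q hq hqS A hA σ hσ)⟩

/-- Inertia at one place above `q` is killed iff inertia at all places above `q` is killed. -/
theorem forall_inertia_eq_one_of_one_place {M : Type} [Group M] {ρ : GalQ →* M} (hq : q.Prime)
    (hA : A.LiesOverPrime q) (h : ∀ σ ∈ A.inertiaSubgroupIn ℚ, ρ σ = 1)
    {B : ValuationSubring Qbar} (hB : B.LiesOverPrime q) :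
    ∀ σ ∈ B.inertiaSubgroupIn ℚ, ρ σ = 1 := by
  obtain ⟨τ, rfl⟩ := exists_smul_eq_of_liesOverPrime hq hA hB
  intro σ hσ
  have := h _ (by simpa using mem_inertiaSubgroupIn_smul hσ τ⁻¹)
  have h2 : (ρ τ)⁻¹ * ρ σ * ρ τ = 1 := by simpa using this
  calc ρ σ = ρ τ * ((ρ τ)⁻¹ * ρ σ * ρ τ) * (ρ τ)⁻¹ := by group
    _ = 1 := by rw [h2]; group

/-- For a homomorphism unramified at `q`, Frobenius images at one place are well defined. -/
theorem map_eq_of_isFrobeniusAt {M : Type} [MulOneClass M] {ρ : GalQ →* M}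
    (h : ∀ σ ∈ A.inertiaSubgroupIn ℚ, ρ σ = 1) {σ τ : GalQ}
    (hσ : A.IsFrobeniusAt σ q) (hτ : A.IsFrobeniusAt τ q) : ρ σ = ρ τ := by
  rw [← mul_inv_cancel_left σ τ, map_mul, h _ (inv_mul_mem_inertiaSubgroupIn hσ hτ), mul_one]

/-- For a homomorphism unramified at `q`, Frobenius images at places above `q` are conjugate. -/
theorem isConj_map_of_isFrobeniusAt {M : Type} [Group M] {ρ : GalQ →* M} (hq : q.Prime)
    (h : ∀ B : ValuationSubring Qbar, B.LiesOverPrime q → ∀ σ ∈ B.inertiaSubgroupIn ℚ, ρ σ = 1)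
    {B : ValuationSubring Qbar} (hA : A.LiesOverPrime q) (hB : B.LiesOverPrime q) {σ τ : GalQ}
    (hσ : A.IsFrobeniusAt σ q) (hτ : B.IsFrobeniusAt τ q) : IsConj (ρ σ) (ρ τ) := by
  obtain ⟨g, rfl⟩ := exists_smul_eq_of_liesOverPrime hq hA hB
  rw [← map_eq_of_isFrobeniusAt (h _ hB) (isFrobeniusAt_smul hσ g) hτ]
  exact isConj_iff.mpr ⟨ρ g, by simp⟩

/-- A Frobenius element at `q` raises roots of unity of order prime to `q` to the power `q`. -/
theorem isFrobeniusAt_apply_of_pow_eq_one {σ : GalQ} (hq : q.Prime) (hA : A.LiesOverPrime q)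
    (hσ : A.IsFrobeniusAt σ q) {m : ℕ} (hm : ¬ q ∣ m) {ζ : Qbar} (hζ : ζ ^ m = 1) :
    σ ζ = ζ ^ q := by
  have hm0 : m ≠ 0 := by rintro rfl; exact hm (dvd_zero q)
  have hint : IsIntegral ℤ ζ :=
    IsIntegral.of_pow (Nat.pos_of_ne_zero hm0) (hζ ▸ isIntegral_one)
  have hζA : ζ ∈ A := mem_of_isIntegral A hint
  obtain ⟨hd, hc⟩ := isFrobeniusAt_iff.mp hσ
  have hσA : σ ζ ∈ A := (apply_mem_iff hd ζ).mpr hζA
  by_contra hne
  refine natCast_notMem_nonunits hq hA hm ?_
  -- `X ^ m - 1` is separable modulo `A`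
  obtain ⟨x, hx⟩ : ∃ x : A, (x : Qbar) = σ ζ := ⟨⟨_, hσA⟩, rfl⟩
  obtain ⟨y, hy⟩ : ∃ y : A, (y : Qbar) = ζ ^ q := ⟨⟨_, A.toSubring.pow_mem hζA q⟩, rfl⟩
  have hxy : (∑ i ∈ Finset.range m, x ^ i * y ^ (m - 1 - i)) * (x - y) = 0 := by
    rw [geom_sum₂_mul]
    apply Subtype.ext
    push_cast
    rw [hx, hy, ← map_pow, hζ, map_one, ← pow_mul, mul_comm q m, pow_mul, hζ, one_pow, sub_self]
  have hsum : (∑ i ∈ Finset.range m, x ^ i * y ^ (m - 1 - i)) = 0 := by
    refine (mul_eq_zero.mp hxy).resolve_right fun h0 => hne ?_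
    rw [← hx, ← hy, sub_eq_zero.mp h0]
  have hmod : IsLocalRing.residue A x = IsLocalRing.residue A y := by
    rw [← sub_eq_zero, ← map_sub, IsLocalRing.residue_eq_zero_iff,
      ← ValuationSubring.coe_mem_nonunits_iff]
    push_cast
    rw [hx, hy]
    exact hc ζ hζA
  have h1 := congrArg (IsLocalRing.residue A) hsum
  rw [map_sum, map_zero] at h1
  simp only [map_mul, map_pow, hmod, ← pow_add] at h1
  rw [Finset.sum_congr rfl fun i hi => by
    rw [show i + (m - 1 - i) = m - 1 by have := Finset.mem_range.mp hi; omega],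
    Finset.sum_const, Finset.card_range, nsmul_eq_mul, mul_eq_zero] at h1
  have hy0 : IsLocalRing.residue A y ≠ 0 := by
    intro h0
    have : IsLocalRing.residue A (y ^ m) = 1 := by
      rw [show y ^ m = 1 from Subtype.ext (by
        push_cast; rw [hy, ← pow_mul, mul_comm q m, pow_mul, hζ, one_pow]), map_one]
    rw [map_pow, h0, zero_pow hm0] at this
    exact zero_ne_one this
  have h2 := h1.resolve_right (pow_ne_zero _ hy0)
  rw [← map_natCast (IsLocalRing.residue A), IsLocalRing.residue_eq_zero_iff,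
    ← ValuationSubring.coe_mem_nonunits_iff] at h2
  simpa using h2

end FLTAgent.Density
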