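import Fermat.Agent.Density.Inertia
import Mathlib.NumberTheory.Cyclotomic.CyclotomicCharacter
import Mathlib.RingTheory.RootsOfUnity.AlgebraicallyClosed
import Mathlib.NumberTheory.LSeries.PrimesInAP

/-!
# The square of the mod `m` cyclotomic character

Chosen Frobenius elements `frob`, the character `sqCyclo` with value `q ^ 2` at the Frobenius of
`q` and its large image, and a bound on the elements of a cyclic group of order not divisible by `n`
(`card_not_dvd_orderOf_mul_le`).
-/

set_option autoImplicit false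

noncomputable section

open scoped Classical

namespace FLTAgent.Density

/-- A chosen place above each prime. -/
def frobPlace (q : Nat.Primes) : ValuationSubring Qbar := (exists_liesOverPrime q.2).choose

theorem frobPlace_liesOverPrime (q : Nat.Primes) : (frobPlace q).LiesOverPrime q :=
  (exists_liesOverPrime q.2).choose_spec

/-- A chosen Frobenius element for each prime. -/
def frob (q : Nat.Primes) : GalQ :=
  (exists_isFrobeniusAt (frobPlace q) q.2 (frobPlace_liesOverPrime q)).choose

theorem isFrobeniusAt_frob (q : Nat.Primes) : (frobPlace q).IsFrobeniusAt (frob q) q :=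
  (exists_isFrobeniusAt (frobPlace q) q.2 (frobPlace_liesOverPrime q)).choose_spec

variable (m : ℕ) [NeZero m]

theorem card_rootsOfUnity_qbar : Nat.card (rootsOfUnity m Qbar) = m := by
  have : NeZero (m : Qbar) := ⟨Nat.cast_ne_zero.mpr (NeZero.ne m)⟩
  obtain ⟨ζ, hζ⟩ := (inferInstance : HasEnoughRootsOfUnity Qbar m).prim
  exact hζ.card_rootsOfUnity

/-- Forgetting the algebra structure. -/
def galToRingAut : GalQ →* (Qbar ≃+* Qbar) where
  toFun σ := σ.toRingEquiv
  map_one' := rfl
  map_mul' _ _ := rfl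

/-- The square of the mod `m` cyclotomic character. -/
def sqCyclo : GalQ →* (ZMod m)ˣ :=
  (powMonoidHom 2).comp ((modularCyclotomicCharacter Qbar (card_rootsOfUnity_qbar m)).comp
    galToRingAut)

theorem sqCyclo_frob {q : Nat.Primes} (hq : ¬ (q : ℕ) ∣ m) :
    (sqCyclo m (frob q) : ZMod m) = ((q : ℕ) : ZMod m) ^ 2 := by
  have h : ((q : ℕ) : ZMod m) =
      modularCyclotomicCharacter Qbar (card_rootsOfUnity_qbar m) (galToRingAut (frob q)) := by
    refine modularCyclotomicCharacter.unique _ _ _ fun t ht => ?_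
    have htm : t ^ m = 1 := (mem_rootsOfUnity _ _).mp ht
    have ht' : (t : Qbar) ^ m = 1 := by rw [← Units.val_pow_eq_pow_val, htm, Units.val_one]
    change frob q (t : Qbar) = _
    rw [isFrobeniusAt_apply_of_pow_eq_one q.2 (frobPlace_liesOverPrime q) (isFrobeniusAt_frob q)
      hq ht', ZMod.val_natCast]
    exact pow_eq_pow_mod _ ht'
  rw [sqCyclo, MonoidHom.comp_apply, MonoidHom.comp_apply, powMonoidHom_apply,
    Units.val_pow_eq_pow_val, ← h]

theorem eventually_sqCyclo_frob :
    ∀ᶠ q : Nat.Primes in Filter.cofinite,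
      (sqCyclo m (frob q) : ZMod m) = ((q : ℕ) : ZMod m) ^ 2 := by
  rw [Filter.eventually_cofinite]
  refine (m.divisors.finite_toSet.preimage Subtype.val_injective.injOn).subset fun q hq => ?_
  have hd : (q : ℕ) ∣ m := by_contra fun h => hq (sqCyclo_frob m h)
  simpa [NeZero.ne m] using hd

theorem sqCyclo_factorsThroughFiniteLevel : GaloisFactorsThroughFiniteLevel (sqCyclo m) := by
  have : NeZero (m : Qbar) := ⟨Nat.cast_ne_zero.mpr (NeZero.ne m)⟩
  obtain ⟨ζ, hζ⟩ := (inferInstance : HasEnoughRootsOfUnity Qbar m).prim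
  refine ⟨IntermediateField.adjoin ℚ {ζ},
    IntermediateField.adjoin.finiteDimensional (Algebra.IsIntegral.isIntegral ζ), fun σ hσ => ?_⟩
  have h : (1 : ZMod m) =
      modularCyclotomicCharacter Qbar (card_rootsOfUnity_qbar m) (galToRingAut σ) := by
    refine modularCyclotomicCharacter.unique _ _ _ fun t ht => ?_
    have ht' : (t : Qbar) ^ m = 1 := by
      rw [← Units.val_pow_eq_pow_val, (mem_rootsOfUnity _ _).mp ht, Units.val_one]
    obtain ⟨i, -, hi⟩ := hζ.eq_pow_of_pow_eq_one ht'
    change σ (t : Qbar) = _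
    have hfix : σ (t : Qbar) = t := by
      rw [← hi]
      exact hσ _ (pow_mem (IntermediateField.mem_adjoin_simple_self ℚ ζ) i)
    rw [hfix]
    rcases eq_or_ne m 1 with rfl | hm
    · simp only [pow_one] at ht'
      rw [ht', one_pow]
    · have : Fact (1 < m) := ⟨by have := NeZero.ne m; omega⟩
      rw [ZMod.val_one, pow_one]
  rw [sqCyclo, MonoidHom.comp_apply, MonoidHom.comp_apply, powMonoidHom_apply]
  rw [Units.ext_iff, Units.val_pow_eq_pow_val, ← h, one_pow, Units.val_one]

/-- The image of the square of the mod `ℓ` cyclotomic character is large. -/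
theorem le_two_mul_card_range_sqCyclo (ℓ : ℕ) [Fact ℓ.Prime] :
    ℓ - 1 ≤ 2 * Nat.card (sqCyclo ℓ).range := by
  have hle : (powMonoidHom 2 : (ZMod ℓ)ˣ →* (ZMod ℓ)ˣ).range ≤ (sqCyclo ℓ).range := by
    rintro _ ⟨a, rfl⟩
    obtain ⟨p, hpl, hp, hpa⟩ := Nat.forall_exists_prime_gt_and_eq_mod a.isUnit ℓ
    have hnd : ¬ p ∣ ℓ := fun h => absurd (Nat.le_of_dvd (NeZero.pos ℓ) h) (by omega)
    refine ⟨frob ⟨p, hp⟩, Units.ext ?_⟩
    rw [sqCyclo_frob ℓ (q := ⟨p, hp⟩) hnd, powMonoidHom_apply, Units.val_pow_eq_pow_val, ← hpa]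
  have hker : Nat.card (powMonoidHom 2 : (ZMod ℓ)ˣ →* (ZMod ℓ)ˣ).ker ≤ 2 := by
    rw [Nat.card_eq_fintype_card, Fintype.card_subtype]
    refine le_trans (Finset.card_le_card ?_)
      (IsCyclic.card_pow_eq_one_le (α := (ZMod ℓ)ˣ) (n := 2) two_pos)
    intro a ha
    simpa [MonoidHom.mem_ker] using ha
  have hH : Nat.card (ZMod ℓ)ˣ = ℓ - 1 := by
    rw [Nat.card_eq_fintype_card, ZMod.card_units]
  rw [← hH, Subgroup.card_eq_card_quotient_mul_card_subgroup
    (powMonoidHom 2 : (ZMod ℓ)ˣ →* (ZMod ℓ)ˣ).ker,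
    Nat.card_congr (QuotientGroup.quotientKerEquivRange _).toEquiv, mul_comm 2]
  exact Nat.mul_le_mul (Subgroup.card_le_of_le hle) hker

/-- In a cyclic group whose order is divisible by a high power of `n`, almost all elements have
order divisible by `n`. -/
theorem card_not_dvd_orderOf_mul_le {H : Type*} [Group H] [Fintype H] [IsCyclic H] {n k : ℕ}
    (hn : n ≠ 0) (hk : k ≠ 0) (hdvd : n ^ k ∣ Fintype.card H) :
    (Finset.univ.filter fun t : H => ¬ n ∣ orderOf t).card * 2 ^ (k - 1) ≤
      n * Fintype.card H := by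
  set M := Fintype.card H
  have hM : M ≠ 0 := Fintype.card_ne_zero
  have hsub : (Finset.univ.filter fun t : H => ¬ n ∣ orderOf t) ⊆
      n.primeFactors.biUnion fun p =>
        Finset.univ.filter fun t : H => t ^ (M / p ^ (k - 1)) = 1 := by
    intro t ht
    have ht' := (Finset.mem_filter.mp ht).2
    have ho : orderOf t ∣ M := orderOf_dvd_card
    have ho0 : orderOf t ≠ 0 := ne_zero_of_dvd_ne_zero hM ho
    obtain ⟨p, hp⟩ : ∃ p, (orderOf t).factorization p < n.factorization p := by
      by_contra! hle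
      exact ht' ((Nat.factorization_le_iff_dvd hn ho0).mp fun p => hle p)
    have hpf : p ∈ n.primeFactors := by
      rw [← Nat.support_factorization, Finsupp.mem_support_iff]; omega
    have hpp := Nat.prime_of_mem_primeFactors hpf
    have hMle : k * n.factorization p ≤ M.factorization p := by
      have := (Nat.factorization_le_iff_dvd (pow_ne_zero k hn) hM).mpr hdvd p
      simpa [Nat.factorization_pow] using this
    have hdiv : orderOf t * p ^ (k - 1) ∣ M := by
      refine (Nat.factorization_le_iff_dvd (Nat.mul_ne_zero ho0 (pow_ne_zero _ hpp.ne_zero)) hM).mp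
        fun r => ?_
      rw [Nat.factorization_mul ho0 (pow_ne_zero _ hpp.ne_zero), hpp.factorization_pow,
        Finsupp.add_apply]
      rcases eq_or_ne r p with rfl | hr
      · rw [Finsupp.single_eq_same]
        have : k - 1 + (orderOf t).factorization r ≤ k * n.factorization r := by
          obtain ⟨k', rfl⟩ := Nat.exists_eq_succ_of_ne_zero hk
          rw [Nat.succ_mul]
          have : k' * 1 ≤ k' * n.factorization r := Nat.mul_le_mul_left _ (by omega)
          omega
        omega
      · rw [Finsupp.single_eq_of_ne hr]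
        have := (Nat.factorization_le_iff_dvd ho0 hM).mpr ho r
        omega
    refine Finset.mem_biUnion.mpr ⟨p, hpf, Finset.mem_filter.mpr ⟨Finset.mem_univ t, ?_⟩⟩
    exact orderOf_dvd_iff_pow_eq_one.mp (Nat.dvd_div_of_mul_dvd (by rwa [mul_comm]))
  have hbound : ∀ p ∈ n.primeFactors,
      (Finset.univ.filter fun t : H => t ^ (M / p ^ (k - 1)) = 1).card * 2 ^ (k - 1) ≤ M := by
    intro p hp
    have hpp := Nat.prime_of_mem_primeFactors hp
    have hpM : p ^ (k - 1) ∣ M := ((pow_dvd_pow p (Nat.sub_le k 1)).trans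
      (pow_dvd_pow_of_dvd (Nat.dvd_of_mem_primeFactors hp) k)).trans hdvd
    refine (Nat.mul_le_mul (IsCyclic.card_pow_eq_one_le (Nat.div_pos
      (Nat.le_of_dvd (Nat.pos_of_ne_zero hM) hpM) (pow_pos hpp.pos _)))
      (Nat.pow_le_pow_left hpp.two_le _)).trans ?_
    exact Nat.div_mul_le_self _ _
  refine (Nat.mul_le_mul_right _ ((Finset.card_le_card hsub).trans Finset.card_biUnion_le)).trans ?_
  rw [Finset.sum_mul]
  refine (Finset.sum_le_sum hbound).trans ?_
  rw [Finset.sum_const, smul_eq_mul]
  refine Nat.mul_le_mul_right _ ?_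
  refine (Finset.card_le_card (t := n.divisors.erase 1) fun p hp => ?_).trans ?_
  · exact Finset.mem_erase.mpr ⟨(Nat.prime_of_mem_primeFactors hp).ne_one,
      Nat.mem_divisors.mpr ⟨Nat.dvd_of_mem_primeFactors hp, hn⟩⟩
  · exact (Finset.card_erase_le).trans (Nat.card_divisors_le_self n)

end FLTAgent.Density
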