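import Fermat.Agent.Density.LatticeSum
import Mathlib.NumberTheory.EulerProduct.Basic
import Mathlib.NumberTheory.SumPrimeReciprocals
import Mathlib.Analysis.SpecialFunctions.Complex.LogBounds
import Mathlib.RingTheory.Coprime.Lemmas
import Mathlib.Analysis.Normed.Group.FunctionSeries

/-!
# Euler products over the ideals of a number field and prime sums

For a completely multiplicative weight in the norm which vanishes at small primes, the ideal sum
is the exponential of the degree-one prime sum plus a function which is continuous up to `1`.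
-/

set_option autoImplicit false

noncomputable section

open NumberField Module Filter Topology
open scoped nonZeroDivisors Classical

namespace FLTAgent.Density

variable (K : Type*) [Field K] [NumberField K]

/-- Ideals of a given norm. -/
abbrev IdealsOfNorm (n : ℕ) := {I : Ideal (𝓞 K) // Ideal.absNorm I = n}

variable {K}

theorem finite_idealsOfNorm (n : ℕ) : Finite (IdealsOfNorm K n) :=
  (Ideal.finite_setOfPred_absNorm_eq n).to_subtype

theorem idealCount_one : idealCount K 1 = 1 := by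
  rw [idealCount_eq K one_ne_zero]
  have : Unique (IdealsOfNorm K 1) :=
    { default := ⟨⊤, Ideal.absNorm_top⟩
      uniq := fun I => Subtype.ext (Ideal.absNorm_eq_one_iff.mp I.2) }
  exact Nat.card_unique

omit [NumberField K] in
theorem natCast_sup_natCast_eq_top {m n : ℕ} (h : m.Coprime n) :
    Ideal.span {(m : 𝓞 K)} ⊔ Ideal.span {(n : 𝓞 K)} = ⊤ := by
  rw [← Ideal.isCoprime_iff_sup_eq, Ideal.isCoprime_span_singleton_iff]
  exact h.cast

theorem absNorm_sup_span_dvd {m n : ℕ} (h : m.Coprime n) {I : Ideal (𝓞 K)}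
    (hI : Ideal.absNorm I = m * n) :
    Ideal.absNorm (I ⊔ Ideal.span {(m : 𝓞 K)}) ∣ m := by
  have h1 : Ideal.absNorm (I ⊔ Ideal.span {(m : 𝓞 K)}) ∣ m * n :=
    hI ▸ Ideal.absNorm_dvd_absNorm_of_le le_sup_left
  have h2 : Ideal.absNorm (I ⊔ Ideal.span {(m : 𝓞 K)}) ∣ m ^ Module.finrank ℤ (𝓞 K) := by
    rw [← Ideal.absNorm_span_natCast]
    exact Ideal.absNorm_dvd_absNorm_of_le le_sup_right
  exact (Nat.Coprime.coprime_dvd_left h2 (h.pow_left _)).dvd_of_dvd_mul_right h1

theorem sup_span_mul_sup_span {m n : ℕ} (h : m.Coprime n) {I : Ideal (𝓞 K)}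
    (hI : Ideal.absNorm I = m * n) :
    (I ⊔ Ideal.span {(m : 𝓞 K)}) * (I ⊔ Ideal.span {(n : 𝓞 K)}) = I := by
  refine le_antisymm ?_ ?_
  · rw [Ideal.sup_mul]
    refine sup_le (Ideal.mul_le_inf.trans inf_le_left) ?_
    rw [Ideal.mul_sup]
    refine sup_le (Ideal.mul_le_inf.trans inf_le_right) ?_
    rw [Ideal.span_singleton_mul_span_singleton, ← Nat.cast_mul, ← hI,
      Ideal.span_singleton_le_iff_mem]
    exact Ideal.absNorm_mem I
  · calc I = I * (Ideal.span {(m : 𝓞 K)} ⊔ Ideal.span {(n : 𝓞 K)}) := by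
          rw [natCast_sup_natCast_eq_top h, Ideal.mul_top]
      _ ≤ _ := by
          rw [Ideal.mul_sup]
          refine sup_le ?_ (Ideal.mul_mono le_sup_left le_sup_right)
          rw [mul_comm]
          exact Ideal.mul_mono le_sup_right le_sup_left

/-- The number of ideals of a given norm is multiplicative. -/
theorem idealCount_mul {m n : ℕ} (h : m.Coprime n) :
    idealCount K (m * n) = idealCount K m * idealCount K n := by
  rcases eq_or_ne m 0 with rfl | hm
  · simp [idealCount_zero]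
  rcases eq_or_ne n 0 with rfl | hn
  · simp [idealCount_zero]
  rw [idealCount_eq K (Nat.mul_ne_zero hm hn), idealCount_eq K hm, idealCount_eq K hn,
    ← Nat.card_prod]
  symm
  refine Nat.card_congr (Equiv.ofBijective
    (fun p : IdealsOfNorm K m × IdealsOfNorm K n =>
      (⟨p.1.1 * p.2.1, by rw [map_mul, p.1.2, p.2.2]⟩ : IdealsOfNorm K (m * n))) ⟨?_, ?_⟩)
  · rintro ⟨⟨A, hA⟩, ⟨B, hB⟩⟩ ⟨⟨A', hA'⟩, ⟨B', hB'⟩⟩ he
    have he' : A * B = A' * B' := congrArg Subtype.val he
    have hcop : ∀ C D : Ideal (𝓞 K), Ideal.absNorm C = m → Ideal.absNorm D = n → IsCoprime C D := by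
      intro C D hC hD
      rw [Ideal.isCoprime_iff_sup_eq, eq_top_iff, ← natCast_sup_natCast_eq_top h]
      refine sup_le_sup ?_ ?_ <;> rw [Ideal.span_singleton_le_iff_mem]
      · exact hC ▸ Ideal.absNorm_mem C
      · exact hD ▸ Ideal.absNorm_mem D
    have h1 : A = A' := dvd_antisymm
      ((hcop A B' hA hB').dvd_of_dvd_mul_right (he' ▸ dvd_mul_right A B))
      ((hcop A' B hA' hB).dvd_of_dvd_mul_right (he'.symm ▸ dvd_mul_right A' B'))
    have h2 : B = B' := dvd_antisymm
      ((hcop A' B hA' hB).symm.dvd_of_dvd_mul_left (he' ▸ dvd_mul_left B A))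
      ((hcop A B' hA hB').symm.dvd_of_dvd_mul_left (he'.symm ▸ dvd_mul_left B' A'))
    simp only [h1, h2]
  · rintro ⟨I, hI⟩
    have hprod := sup_span_mul_sup_span h hI
    have hnorm : Ideal.absNorm (I ⊔ Ideal.span {(m : 𝓞 K)}) *
        Ideal.absNorm (I ⊔ Ideal.span {(n : 𝓞 K)}) = m * n := by rw [← map_mul, hprod, hI]
    have hdm := absNorm_sup_span_dvd h hI
    have hdn := absNorm_sup_span_dvd h.symm (hI.trans (mul_comm m n))
    have hle_m := Nat.le_of_dvd (Nat.pos_of_ne_zero hm) hdm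
    have hle_n := Nat.le_of_dvd (Nat.pos_of_ne_zero hn) hdn
    have hm' : Ideal.absNorm (I ⊔ Ideal.span {(m : 𝓞 K)}) = m := by
      nlinarith [Nat.pos_of_ne_zero hm, Nat.pos_of_ne_zero hn]
    have hn' : Ideal.absNorm (I ⊔ Ideal.span {(n : 𝓞 K)}) = n := by
      rw [hm'] at hnorm
      exact Nat.eq_of_mul_eq_mul_left (Nat.pos_of_ne_zero hm) hnorm
    exact ⟨(⟨_, hm'⟩, ⟨_, hn'⟩), Subtype.ext hprod⟩

/-- There are at most `[K : ℚ]` maximal ideals above a prime. -/
theorem card_le_finrank_of_mem {q : ℕ} (hq : q.Prime) (T : Finset (Ideal (𝓞 K)))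
    (hT : ∀ P ∈ T, P.IsMaximal ∧ (q : 𝓞 K) ∈ P) : T.card ≤ finrank ℚ K := by
  have hdvd : ∏ P ∈ T, P ∣ Ideal.span {(q : 𝓞 K)} := by
    refine Finset.prod_dvd_of_coprime ?_ fun P hP => Ideal.dvd_span_singleton.mpr (hT P hP).2
    intro P hP Q hQ hne
    rw [Function.onFun, Ideal.isCoprime_iff_sup_eq]
    exact (hT P hP).1.coprime_of_ne (hT Q hQ).1 hne
  have h := Ideal.absNorm_dvd_absNorm_of_le (Ideal.le_of_dvd hdvd)
  rw [map_prod, Ideal.absNorm_span_natCast, RingOfIntegers.rank] at h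
  have hge : ∀ P ∈ T, q ≤ Ideal.absNorm P := by
    intro P hP
    have h1 : Ideal.absNorm P ∣ q ^ finrank ℚ K :=
      (Finset.dvd_prod_of_mem _ hP).trans h
    obtain ⟨i, -, hi⟩ := (Nat.dvd_prime_pow hq).mp h1
    rcases Nat.eq_zero_or_pos i with rfl | hi0
    · exact absurd (Ideal.absNorm_eq_one_iff.mp (by rw [hi, pow_zero])) (hT P hP).1.ne_top
    · rw [hi]
      exact Nat.le_self_pow hi0.ne' q
  have h2 : q ^ T.card ≤ q ^ finrank ℚ K := by
    refine le_trans ?_ (Nat.le_of_dvd (pow_pos hq.pos _) h)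
    rw [← Finset.prod_const]
    exact Finset.prod_le_prod' hge
  exact (Nat.pow_le_pow_iff_right hq.one_lt).mp h2

theorem idealCount_prime_pow_le {q : ℕ} (hq : q.Prime) (k : ℕ) :
    idealCount K (q ^ k) ≤ finrank ℚ K ^ k := by
  induction k using Nat.strong_induction_on with
  | _ k ih =>
    rcases Nat.eq_zero_or_pos k with rfl | hk
    · simp [idealCount_one]
    have := finite_idealsOfNorm (K := K) (q ^ k)
    have hne : ∀ I : IdealsOfNorm K (q ^ k), I.1 ≠ ⊤ := fun I h => by
      have := I.2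
      rw [h, Ideal.absNorm_top] at this
      exact (Nat.one_lt_pow hk.ne' hq.one_lt).ne this
    choose P hP hle using fun I : IdealsOfNorm K (q ^ k) => Ideal.exists_le_maximal I.1 (hne I)
    have : Fintype (IdealsOfNorm K (q ^ k)) := Fintype.ofFinite _
    let T : Finset (Ideal (𝓞 K)) := Finset.univ.image P
    have hmem : ∀ R ∈ T, R.IsMaximal ∧ (q : 𝓞 K) ∈ R := by
      intro R hR
      obtain ⟨I, -, rfl⟩ := Finset.mem_image.mp hR
      refine ⟨hP I, (hP I).isPrime.mem_of_pow_mem k ?_⟩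
      rw [← Nat.cast_pow, ← I.2]
      exact hle I (Ideal.absNorm_mem I.1)
    have hfib : ∀ R ∈ T, (Finset.univ.filter fun I => P I = R).card ≤ finrank ℚ K ^ (k - 1) := by
      intro R hR
      obtain ⟨I₀, -, hI₀⟩ := Finset.mem_image.mp hR
      have hdvd : Ideal.absNorm R ∣ q ^ k := by
        rw [← hI₀]
        exact (Ideal.absNorm_dvd_absNorm_of_le (hle I₀)).trans (dvd_of_eq I₀.2)
      obtain ⟨f, hfk, hf⟩ := (Nat.dvd_prime_pow hq).mp hdvd
      have hf0 : f ≠ 0 := by
        rintro rfl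
        exact (hmem R hR).1.ne_top (Ideal.absNorm_eq_one_iff.mp (by rw [hf, pow_zero]))
      have := finite_idealsOfNorm (K := K) (q ^ (k - f))
      have hinj : (Finset.univ.filter fun I => P I = R).card ≤
          Nat.card (IdealsOfNorm K (q ^ (k - f))) := by
        rw [← Nat.card_eq_finsetCard]
        have hJ : ∀ I : (Finset.univ.filter fun I => P I = R : Finset _),
            ∃ J : IdealsOfNorm K (q ^ (k - f)), I.1.1 = R * J.1 := by
          rintro ⟨I, hI⟩
          have hPI : P I = R := (Finset.mem_filter.mp hI).2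
          obtain ⟨J, hJ⟩ := Ideal.dvd_iff_le.mpr (hPI ▸ hle I)
          refine ⟨⟨J, ?_⟩, hJ⟩
          have h1 := I.2
          rw [hJ, map_mul, hf] at h1
          have h2 : q ^ f * q ^ (k - f) = q ^ k := by rw [← pow_add, Nat.add_sub_cancel' hfk]
          exact Nat.eq_of_mul_eq_mul_left (pow_pos hq.pos f) (h1.trans h2.symm)
        choose J hJ using hJ
        exact Nat.card_le_card_of_injective J fun a b hab =>
          Subtype.ext (Subtype.ext (by rw [hJ a, hJ b, hab]))
      refine hinj.trans ?_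
      rw [← idealCount_eq K (pow_ne_zero _ hq.ne_zero)]
      refine (ih (k - f) (by omega)).trans ?_
      exact Nat.pow_le_pow_right finrank_pos (by omega)
    have hcard := Finset.card_le_mul_card_image (f := P) Finset.univ _ hfib
    rw [idealCount_eq K (pow_ne_zero _ hq.ne_zero), Nat.card_eq_fintype_card, ← Finset.card_univ]
    refine hcard.trans ?_
    calc finrank ℚ K ^ (k - 1) * T.card ≤ finrank ℚ K ^ (k - 1) * finrank ℚ K :=
          Nat.mul_le_mul_left _ (card_le_finrank_of_mem hq T hmem)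
      _ = finrank ℚ K ^ k := by rw [← pow_succ, Nat.sub_add_cancel hk]

variable (K)

/-- A completely multiplicative weight vanishing at the small primes. -/
structure IsMultWeight (w : ℕ → ℂ) : Prop where
  norm_le : ∀ n, ‖w n‖ ≤ 1
  map_one : w 1 = 1
  map_mul : ∀ a b, w (a * b) = w a * w b
  small : ∀ q : ℕ, q.Prime → q ≤ 4 * finrank ℚ K ^ 2 → w q = 0

/-- The sum over the degree-one primes. -/
def primeSum (w : ℕ → ℂ) (s : ℝ) : ℂ :=
  ∑' q : Nat.Primes, w q * (idealCount K q : ℂ) * ((((q : ℕ) : ℝ) ^ (-s) : ℝ) : ℂ)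

/-- The summand of the Euler product. -/
def eulerTerm (w : ℕ → ℂ) (s : ℝ) (n : ℕ) : ℂ :=
  (idealCount K n : ℂ) * (w n * (((n : ℝ) ^ (-s) : ℝ) : ℂ))

/-- The Euler factor minus one. -/
def localU (w : ℕ → ℂ) (q : ℕ) (s : ℝ) : ℂ := ∑' e : ℕ, eulerTerm K w s (q ^ (e + 1))

/-- The defect between the logarithm of an Euler factor and its linear term. -/
def localG (w : ℕ → ℂ) (q : Nat.Primes) (s : ℝ) : ℂ :=
  Complex.log (1 + localU K w q s) - eulerTerm K w s q

/-- The total defect. -/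
def defect (w : ℕ → ℂ) (s : ℝ) : ℂ := ∑' q : Nat.Primes, localG K w q s

variable {K}

/-- A multiplicative weight commutes with powers. -/
theorem IsMultWeight.map_pow {w : ℕ → ℂ} (hw : IsMultWeight K w) (q e : ℕ) :
    w (q ^ e) = w q ^ e := by
  induction e with
  | zero => simp [hw.map_one]
  | succ e ih => rw [pow_succ, hw.map_mul, ih, pow_succ]

theorem norm_eulerTerm_pow_le {w : ℕ → ℂ} (hw : IsMultWeight K w) {q : ℕ} (hq : q.Prime) {s : ℝ}
    (hs : 1 ≤ s) (e : ℕ) :
    ‖eulerTerm K w s (q ^ e)‖ ≤ ((finrank ℚ K : ℝ) / q) ^ e := by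
  have hq1 : (1 : ℝ) ≤ ((q ^ e : ℕ) : ℝ) := by exact_mod_cast Nat.one_le_pow e q hq.pos
  rw [eulerTerm, norm_mul, norm_mul, Complex.norm_natCast, Complex.norm_real,
    Real.norm_of_nonneg (Real.rpow_nonneg (Nat.cast_nonneg _) _)]
  calc (idealCount K (q ^ e) : ℝ) * (‖w (q ^ e)‖ * ((q ^ e : ℕ) : ℝ) ^ (-s))
      ≤ ((finrank ℚ K ^ e : ℕ) : ℝ) * (1 * ((q ^ e : ℕ) : ℝ) ^ (-(1 : ℝ))) := by
        refine mul_le_mul (by exact_mod_cast idealCount_prime_pow_le hq e) ?_ (by positivity)
          (Nat.cast_nonneg _)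
        exact mul_le_mul (hw.norm_le _) (Real.rpow_le_rpow_of_exponent_le hq1 (by linarith))
          (by positivity) zero_le_one
    _ = _ := by
        rw [one_mul, Real.rpow_neg_one, Nat.cast_pow, Nat.cast_pow, ← div_eq_mul_inv, ← div_pow]

theorem eulerTerm_pow_eq_zero {w : ℕ → ℂ} (hw : IsMultWeight K w) {q : ℕ} (hwq : w q = 0)
    (s : ℝ) (e : ℕ) : eulerTerm K w s (q ^ (e + 1)) = 0 := by
  rw [eulerTerm, hw.map_pow, hwq, zero_pow (Nat.succ_ne_zero e), zero_mul, mul_zero]

theorem ratio_lt_one {q : ℕ} (h : 4 * finrank ℚ K ^ 2 < q) : (finrank ℚ K : ℝ) / q ≤ 1 / 4 := by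
  have hd : (1 : ℝ) ≤ finrank ℚ K := by exact_mod_cast (finrank_pos (R := ℚ) (M := K))
  have hq : (4 : ℝ) * (finrank ℚ K : ℝ) ^ 2 ≤ q := by exact_mod_cast h.le
  rw [div_le_iff₀ (by nlinarith)]
  nlinarith

theorem norm_localU_le {w : ℕ → ℂ} (hw : IsMultWeight K w) {q : ℕ} (hq : q.Prime) {s : ℝ}
    (hs : 1 ≤ s) : ‖localU K w q s‖ ≤ 2 * ((finrank ℚ K : ℝ) / q) ∧ ‖localU K w q s‖ ≤ 1 / 2 ∧
      ‖localU K w q s - eulerTerm K w s q‖ ≤ 2 * ((finrank ℚ K : ℝ) / q) ^ 2 := by
  rcases eq_or_ne (w q) 0 with hwq | hwq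
  · have h0 : ∀ e, eulerTerm K w s (q ^ (e + 1)) = 0 := eulerTerm_pow_eq_zero hw hwq s
    have h1 : eulerTerm K w s q = 0 := by simpa using h0 0
    simp only [localU, h0, h1, tsum_zero, norm_zero, sub_zero]
    exact ⟨by positivity, by norm_num, by positivity⟩
  · have hbig : 4 * finrank ℚ K ^ 2 < q := lt_of_not_ge fun h => hwq (hw.small q hq h)
    set r : ℝ := (finrank ℚ K : ℝ) / q
    have hr : r ≤ 1 / 4 := ratio_lt_one hbig
    have hr0 : 0 ≤ r := by positivity
    have hgeo : ∀ k : ℕ, HasSum (fun e : ℕ => r ^ (e + k)) (r ^ k * (1 - r)⁻¹) := fun k => by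
      simp only [pow_add, mul_comm _ (r ^ k)]
      exact (hasSum_geometric_of_lt_one hr0 (by linarith)).mul_left _
    have hinv : (1 - r)⁻¹ ≤ 2 := by
      rw [inv_le_comm₀ (by linarith) two_pos]
      linarith
    have hb1 := fun e => norm_eulerTerm_pow_le hw hq hs (e + 1)
    have hu : ‖localU K w q s‖ ≤ 2 * r := by
      refine (tsum_of_norm_bounded (hgeo 1) hb1).trans ?_
      rw [pow_one, mul_comm 2 r]
      exact mul_le_mul_of_nonneg_left hinv hr0
    refine ⟨hu, hu.trans (by linarith), ?_⟩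
    have hsum : Summable fun e : ℕ => eulerTerm K w s (q ^ (e + 1)) :=
      Summable.of_norm_bounded (hgeo 1).summable hb1
    rw [localU, hsum.tsum_eq_zero_add, zero_add, pow_one, add_sub_cancel_left]
    refine (tsum_of_norm_bounded (hgeo 2)
      fun e => norm_eulerTerm_pow_le hw hq hs (e + 1 + 1)).trans ?_
    rw [mul_comm 2 (r ^ 2)]
    exact mul_le_mul_of_nonneg_left hinv (pow_nonneg hr0 2)

theorem norm_localG_le {w : ℕ → ℂ} (hw : IsMultWeight K w) (q : Nat.Primes) {s : ℝ}
    (hs : 1 ≤ s) : ‖localG K w q s‖ ≤ 6 * ((finrank ℚ K : ℝ) / (q : ℕ)) ^ 2 := by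
  obtain ⟨h1, h2, h3⟩ := norm_localU_le hw q.2 hs
  set u := localU K w q s
  calc ‖localG K w q s‖ ≤ ‖Complex.log (1 + u) - u‖ + ‖u - eulerTerm K w s q‖ :=
        norm_sub_le_norm_sub_add_norm_sub _ _ _
    _ ≤ ‖u‖ ^ 2 * (1 - ‖u‖)⁻¹ / 2 + 2 * ((finrank ℚ K : ℝ) / (q : ℕ)) ^ 2 :=
        add_le_add (Complex.norm_log_one_add_sub_self_le (h2.trans_lt one_half_lt_one)) h3
    _ ≤ _ := by
        have hinv : (1 - ‖u‖)⁻¹ ≤ 2 := by
          rw [inv_le_comm₀ (by linarith) two_pos]
          linarith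
        have hsq : ‖u‖ ^ 2 ≤ (2 * ((finrank ℚ K : ℝ) / (q : ℕ))) ^ 2 :=
          pow_le_pow_left₀ (norm_nonneg _) h1 2
        have : ‖u‖ ^ 2 * (1 - ‖u‖)⁻¹ ≤ ‖u‖ ^ 2 * 2 :=
          mul_le_mul_of_nonneg_left hinv (sq_nonneg _)
        nlinarith

theorem summable_ratio_sq :
    Summable fun q : Nat.Primes => 6 * ((finrank ℚ K : ℝ) / (q : ℕ)) ^ 2 := by
  refine ((Nat.Primes.summable_rpow.mpr (by norm_num : (-2 : ℝ) < -1)).mul_left
    (6 * (finrank ℚ K : ℝ) ^ 2)).congr fun q => ?_
  rw [div_pow, Real.rpow_neg (Nat.cast_nonneg _), show (2 : ℝ) = ((2 : ℕ) : ℝ) from by norm_num,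
    Real.rpow_natCast]
  ring

theorem continuousOn_eulerTerm {w : ℕ → ℂ} (n : ℕ) :
    ContinuousOn (fun s => eulerTerm K w s n) (Set.Ici 1) := by
  rcases eq_or_ne n 0 with rfl | hn
  · simp only [eulerTerm, idealCount_zero, Nat.cast_zero, zero_mul]
    exact continuousOn_const
  unfold eulerTerm
  refine continuousOn_const.mul (continuousOn_const.mul ?_)
  refine Complex.continuous_ofReal.comp_continuousOn fun s hs => ?_
  exact (ContinuousAt.rpow continuousAt_const continuousAt_neg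
    (Or.inl (Nat.cast_ne_zero.mpr hn))).continuousWithinAt

theorem continuousOn_localU {w : ℕ → ℂ} (hw : IsMultWeight K w) {q : ℕ} (hq : q.Prime) :
    ContinuousOn (localU K w q) (Set.Ici 1) := by
  rcases eq_or_ne (w q) 0 with hwq | hwq
  · have : localU K w q = fun _ => 0 :=
      funext fun s => by simp [localU, eulerTerm_pow_eq_zero hw hwq]
    rw [this]
    exact continuousOn_const
  · have hbig : 4 * finrank ℚ K ^ 2 < q := lt_of_not_ge fun h => hwq (hw.small q hq h)
    have hr : (finrank ℚ K : ℝ) / q ≤ 1 / 4 := ratio_lt_one hbig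
    refine continuousOn_tsum (fun e => continuousOn_eulerTerm _)
      ((summable_geometric_of_lt_one (by positivity) (by linarith :
        (finrank ℚ K : ℝ) / q < 1)).comp_injective (add_left_injective 1))
      fun e s hs => norm_eulerTerm_pow_le hw hq hs (e + 1)

theorem continuousOn_defect {w : ℕ → ℂ} (hw : IsMultWeight K w) :
    ContinuousOn (defect K w) (Set.Ici 1) := by
  refine continuousOn_tsum (fun q => ?_) (summable_ratio_sq (K := K))
    fun q s hs => norm_localG_le hw q hs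
  refine ((continuousOn_const.add (continuousOn_localU hw q.2)).clog fun s hs => ?_).sub
    (continuousOn_eulerTerm _)
  have hre : |(localU K w q s).re| ≤ 1 / 2 :=
    (Complex.abs_re_le_norm _).trans (norm_localU_le hw q.2 hs).2.1
  exact Or.inl (by rw [Pi.add_apply, Complex.add_re, Complex.one_re]; linarith [(abs_le.mp hre).1])

theorem norm_primeTerm_le {w : ℕ → ℂ} (hw : ∀ n, ‖w n‖ ≤ 1) (q : Nat.Primes) {a s : ℝ}
    (has : a ≤ s) :
    ‖w q * (idealCount K q : ℂ) * ((((q : ℕ) : ℝ) ^ (-s) : ℝ) : ℂ)‖ ≤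
      (finrank ℚ K : ℝ) * ((q : ℕ) : ℝ) ^ (-a) := by
  rw [norm_mul, norm_mul, Complex.norm_natCast, Complex.norm_real,
    Real.norm_of_nonneg (Real.rpow_nonneg (Nat.cast_nonneg _) _)]
  have h1 : (idealCount K q : ℝ) ≤ finrank ℚ K := by
    exact_mod_cast (by simpa using idealCount_prime_pow_le (K := K) q.2 1)
  calc ‖w q‖ * (idealCount K q : ℝ) * ((q : ℕ) : ℝ) ^ (-s)
      ≤ 1 * (finrank ℚ K : ℝ) * ((q : ℕ) : ℝ) ^ (-a) := by
        refine mul_le_mul (mul_le_mul (hw _) h1 (Nat.cast_nonneg _) zero_le_one)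
          (Real.rpow_le_rpow_of_exponent_le (by exact_mod_cast q.2.one_le) (by linarith))
          (Real.rpow_nonneg (Nat.cast_nonneg _) _) (by positivity)
    _ = _ := by rw [one_mul]

theorem summable_primeTerm {w : ℕ → ℂ} (hw : ∀ n, ‖w n‖ ≤ 1) {s : ℝ} (hs : 1 < s) :
    Summable fun q : Nat.Primes =>
      w q * (idealCount K q : ℂ) * ((((q : ℕ) : ℝ) ^ (-s) : ℝ) : ℂ) :=
  Summable.of_norm_bounded
    ((Nat.Primes.summable_rpow.mpr (by linarith : -s < -1)).mul_left _)
    fun q => norm_primeTerm_le hw q le_rfl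

theorem continuousOn_primeSum {w : ℕ → ℂ} (hw : ∀ n, ‖w n‖ ≤ 1) :
    ContinuousOn (primeSum K w) (Set.Ioi 1) := by
  intro s hs
  simp only [Set.mem_Ioi] at hs
  have h : ContinuousOn (primeSum K w) (Set.Ici ((1 + s) / 2)) := by
    refine continuousOn_tsum (fun q => ?_)
      ((Nat.Primes.summable_rpow.mpr (by linarith : -((1 + s) / 2) < -1)).mul_left _)
      fun q t ht => norm_primeTerm_le hw q ht
    refine continuousOn_const.mul (Complex.continuous_ofReal.comp_continuousOn fun t _ => ?_)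
    exact (ContinuousAt.rpow continuousAt_const continuousAt_neg
      (Or.inl (Nat.cast_ne_zero.mpr q.2.ne_zero))).continuousWithinAt
  exact (h.continuousAt (Ici_mem_nhds (by linarith))).continuousWithinAt

/-- The Euler product in exponential form. -/
theorem exp_primeSum_add_defect {w : ℕ → ℂ} (hw : IsMultWeight K w) {s : ℝ} (hs : 1 < s) :
    Complex.exp (primeSum K w s + defect K w s) = idealSum K w s := by
  have hone : eulerTerm K w s 1 = 1 := by simp [eulerTerm, idealCount_one, hw.map_one]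
  have hzero : eulerTerm K w s 0 = 0 := by simp [eulerTerm, idealCount_zero]
  have hmul : ∀ {m n : ℕ}, m.Coprime n →
      eulerTerm K w s (m * n) = eulerTerm K w s m * eulerTerm K w s n := by
    intro m n hmn
    rw [eulerTerm, eulerTerm, eulerTerm, idealCount_mul hmn, hw.map_mul, Nat.cast_mul,
      Nat.cast_mul, Real.mul_rpow (Nat.cast_nonneg _) (Nat.cast_nonneg _), Complex.ofReal_mul]
    ring
  have hsum : Summable fun n => ‖eulerTerm K w s n‖ := by
    refine (summable_idealCount (K := K) hs).of_nonneg_of_le (fun n => norm_nonneg _) fun n => ?_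
    rw [eulerTerm, norm_mul, norm_mul, Complex.norm_natCast, Complex.norm_real,
      Real.norm_of_nonneg (Real.rpow_nonneg (Nat.cast_nonneg _) _)]
    exact mul_le_mul_of_nonneg_left (mul_le_of_le_one_left
      (Real.rpow_nonneg (Nat.cast_nonneg _) _) (hw.norm_le n)) (Nat.cast_nonneg _)
  have hprod := EulerProduct.eulerProduct_hasProd hone hmul hsum hzero
  have hfac : ∀ q : Nat.Primes,
      ∑' e, eulerTerm K w s ((q : ℕ) ^ e) = 1 + localU K w q s := by
    intro q
    have hs' : Summable fun e => eulerTerm K w s ((q : ℕ) ^ e) :=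
      hsum.of_norm.comp_injective (Nat.pow_right_injective q.2.two_le)
    rw [hs'.tsum_eq_zero_add, pow_zero, hone]
    rfl
  have hterm : ∀ q : Nat.Primes, eulerTerm K w s q =
      w q * (idealCount K q : ℂ) * ((((q : ℕ) : ℝ) ^ (-s) : ℝ) : ℂ) := fun q => by
    rw [eulerTerm]; ring
  have hlog : HasSum (fun q : Nat.Primes => Complex.log (1 + localU K w q s))
      (primeSum K w s + defect K w s) := by
    have h1 := (summable_primeTerm (K := K) hw.norm_le hs).hasSum
    have h2 := (Summable.of_norm_bounded (summable_ratio_sq (K := K))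
      fun q => norm_localG_le hw q hs.le).hasSum
    refine (h1.add h2).congr_fun fun q => ?_
    rw [localG, hterm]
    ring
  refine hlog.cexp.unique ?_
  rw [idealSum_eq_tsum_idealCount hw.norm_le hs]
  refine hprod.congr_fun fun q => ?_
  rw [Function.comp_apply, Complex.exp_log, hfac]
  intro h0
  have := (norm_localU_le hw q.2 hs.le).2.1
  rw [eq_neg_of_add_eq_zero_right h0, norm_neg, norm_one] at this
  norm_num at this

theorem log_one_div_sub_one {s : ℝ} :
    Real.log (1 / (s - 1)) = -Real.log (s - 1) := by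
  rw [one_div, Real.log_inv]

theorem re_primeSum_eq {w : ℕ → ℂ} (hw : IsMultWeight K w) {s : ℝ} (hs : 1 < s) :
    (primeSum K w s).re = Real.log ‖idealSum K w s‖ - (defect K w s).re := by
  rw [← exp_primeSum_add_defect hw hs, Complex.norm_exp, Real.log_exp, Complex.add_re]
  ring

theorem tendsto_defect {w : ℕ → ℂ} (hw : IsMultWeight K w) :
    Tendsto (defect K w) (𝓝[>] 1) (𝓝 (defect K w 1)) :=
  ((continuousOn_defect hw) 1 Set.self_mem_Ici).mono_left
    (nhdsWithin_mono _ Set.Ioi_subset_Ici_self)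

/-- If the ideal sum has a simple pole then the prime sum grows like `log (1 / (s - 1))`. -/
theorem exists_tendsto_re_primeSum_sub_log {w : ℕ → ℂ} (hw : IsMultWeight K w) {κ : ℝ}
    (hκ : 0 < κ)
    (h : Tendsto (fun s : ℝ => ((s - 1 : ℝ) : ℂ) * idealSum K w s) (𝓝[>] 1) (𝓝 (κ : ℂ))) :
    ∃ l : ℝ, Tendsto (fun s => (primeSum K w s).re - Real.log (1 / (s - 1))) (𝓝[>] 1) (𝓝 l) := by
  refine ⟨Real.log ‖(κ : ℂ)‖ - (defect K w 1).re, ?_⟩
  have hne : ‖(κ : ℂ)‖ ≠ 0 := by simp [hκ.ne']
  refine (((Real.continuousAt_log hne).tendsto.comp h.norm).sub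
    ((Complex.continuous_re.tendsto _).comp (tendsto_defect hw))).congr' ?_
  filter_upwards [self_mem_nhdsWithin] with s hs
  simp only [Set.mem_Ioi] at hs
  have hL : ‖idealSum K w s‖ ≠ 0 := by
    rw [← exp_primeSum_add_defect hw hs]
    exact norm_ne_zero_iff.mpr (Complex.exp_ne_zero _)
  simp only [Function.comp_apply, norm_mul, Complex.norm_real,
    Real.norm_of_nonneg (show 0 ≤ s - 1 by linarith)]
  rw [Real.log_mul (by linarith) hL, re_primeSum_eq hw hs, log_one_div_sub_one]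
  ring

/-- If the real part of the prime sum is at most `(1 - δ) log (1 / (s - 1))` then
`(s - 1) L(s) → 0`. -/
theorem tendsto_sub_one_mul_idealSum_zero {w : ℕ → ℂ} (hw : IsMultWeight K w) {δ C : ℝ}
    (hδ : 0 < δ)
    (h : ∀ᶠ s in 𝓝[>] (1 : ℝ), (primeSum K w s).re ≤ (1 - δ) * Real.log (1 / (s - 1)) + C) :
    Tendsto (fun s : ℝ => ((s - 1 : ℝ) : ℂ) * idealSum K w s) (𝓝[>] 1) (𝓝 0) := by
  have hd := ((Complex.continuous_re.tendsto _).comp (tendsto_defect hw)).eventually
    (eventually_le_nhds (lt_add_one (defect K w 1).re))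
  rw [tendsto_zero_iff_norm_tendsto_zero]
  have hlim : Tendsto (fun s : ℝ => (s - 1) ^ δ * Real.exp (C + ((defect K w 1).re + 1)))
      (𝓝[>] 1) (𝓝 0) := by
    have : Tendsto (fun s : ℝ => (s - 1) ^ δ) (𝓝 1) (𝓝 ((1 - 1 : ℝ) ^ δ)) :=
      ((Real.continuous_rpow_const hδ.le).comp (continuous_id.sub continuous_const)).tendsto 1
    rw [sub_self, Real.zero_rpow hδ.ne'] at this
    simpa using (tendsto_nhdsWithin_of_tendsto_nhds this).mul_const
      (Real.exp (C + ((defect K w 1).re + 1)))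
  refine tendsto_of_tendsto_of_tendsto_of_le_of_le' tendsto_const_nhds hlim
    (Eventually.of_forall fun s => norm_nonneg _) ?_
  filter_upwards [h, hd, self_mem_nhdsWithin] with s hP hD hs
  simp only [Set.mem_Ioi] at hs
  have hs1 : 0 < s - 1 := by linarith
  rw [norm_mul, Complex.norm_real, Real.norm_of_nonneg hs1.le, ← exp_primeSum_add_defect hw hs,
    Complex.norm_exp, Complex.add_re, Real.rpow_def_of_pos hs1, ← Real.exp_log hs1,
    ← Real.exp_add, ← Real.exp_add, Real.log_exp]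
  rw [Function.comp_apply] at hD
  rw [log_one_div_sub_one] at hP
  exact Real.exp_le_exp.mpr (by linarith)

/-- A finite limit of the ideal sum bounds the real part of the prime sum from above. -/
theorem exists_re_primeSum_le {w : ℕ → ℂ} (hw : IsMultWeight K w) {L : ℂ}
    (h : Tendsto (idealSum K w) (𝓝[>] 1) (𝓝 L)) :
    ∃ C : ℝ, ∀ᶠ s in 𝓝[>] (1 : ℝ), (primeSum K w s).re ≤ C := by
  have hd := ((Complex.continuous_re.tendsto _).comp (tendsto_defect hw)).eventually
    (eventually_ge_nhds (sub_one_lt (defect K w 1).re))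
  have hb := h.norm.eventually (eventually_le_nhds (lt_add_one ‖L‖))
  refine ⟨Real.log (‖L‖ + 1) - ((defect K w 1).re - 1), ?_⟩
  filter_upwards [hd, hb, self_mem_nhdsWithin] with s hD hB hs
  simp only [Set.mem_Ioi] at hs
  rw [re_primeSum_eq hw hs]
  refine sub_le_sub (Real.log_le_log ?_ hB) hD
  rw [← exp_primeSum_add_defect hw hs]
  exact norm_pos_iff.mpr (Complex.exp_ne_zero _)

theorem exists_tendsto_of_tendsto_exp {h : ℝ → ℂ} (hc : ContinuousOn h (Set.Ioi 1)) {L : ℂ}
    (hL : L ≠ 0) (he : Tendsto (fun s => Complex.exp (h s)) (𝓝[>] 1) (𝓝 L)) :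
    ∃ l : ℂ, Tendsto h (𝓝[>] 1) (𝓝 l) := by
  have hev : ∀ᶠ s in 𝓝[>] (1 : ℝ), Complex.exp (h s) / L ∈ Complex.slitPlane := by
    refine (he.div_const L).eventually ?_
    rw [div_self hL]
    exact Complex.isOpen_slitPlane.eventually_mem Complex.one_mem_slitPlane
  obtain ⟨b, hb, hsub⟩ := mem_nhdsGT_iff_exists_Ioo_subset.mp hev
  simp only [Set.mem_Ioi] at hb
  set φ : ℝ → ℂ := fun s => h s - Complex.log (Complex.exp (h s) / L) with hφ
  have hφc : ContinuousOn φ (Set.Ioo 1 b) :=
    (hc.mono Set.Ioo_subset_Ioi_self).sub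
      (((hc.mono Set.Ioo_subset_Ioi_self).cexp.div_const L).clog fun s hs => hsub hs)
  have hexp : ∀ s ∈ Set.Ioo 1 b, Complex.exp (φ s) = L := by
    intro s hs
    rw [hφ, Complex.exp_sub, Complex.exp_log (Complex.slitPlane_ne_zero (hsub hs))]
    field_simp [Complex.exp_ne_zero]
  obtain ⟨t, ht⟩ := Set.nonempty_Ioo.mpr hb
  let k : ℝ → ℝ := fun s => ((φ s - φ t) / (2 * Real.pi * Complex.I)).re
  have hkint : ∀ s ∈ Set.Ioo 1 b, ∃ n : ℤ, φ s - φ t = n * (2 * Real.pi * Complex.I) ∧
      k s = n := by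
    intro s hs
    obtain ⟨n, hn⟩ := Complex.exp_eq_exp_iff_exists_int.mp ((hexp s hs).trans (hexp t ht).symm)
    refine ⟨n, by rw [hn]; ring, ?_⟩
    have : φ s - φ t = n * (2 * Real.pi * Complex.I) := by rw [hn]; ring
    simp only [k, this]
    rw [mul_div_assoc, div_self Complex.two_pi_I_ne_zero, mul_one, Complex.intCast_re]
  have hkc : ContinuousOn k (Set.Ioo 1 b) :=
    Complex.continuous_re.comp_continuousOn ((hφc.sub continuousOn_const).div_const _)
  have hconst : ∀ s ∈ Set.Ioo 1 b, φ s = φ t := by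
    intro s hs
    obtain ⟨n, hn, hkn⟩ := hkint s hs
    rcases eq_or_ne n 0 with rfl | hn0
    · simpa [sub_eq_zero] using hn
    · exfalso
      have hkt : k t = 0 := by simp [k]
      have hmem : (n.sign : ℝ) / 2 ∈ Set.uIcc (k t) (k s) := by
        rw [hkt, hkn, Set.mem_uIcc]
        rcases lt_or_gt_of_ne hn0 with h' | h'
        · right
          rw [Int.sign_eq_neg_one_of_neg h']
          have : (n : ℝ) ≤ -1 := by exact_mod_cast (by omega : n ≤ -1)
          push_cast
          constructor <;> linarith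
        · left
          rw [Int.sign_eq_one_of_pos h']
          have : (1 : ℝ) ≤ n := by exact_mod_cast (by omega : 1 ≤ n)
          push_cast
          constructor <;> linarith
      obtain ⟨u, hu, hku⟩ := intermediate_value_uIcc
        (hkc.mono (Set.ordConnected_Ioo.uIcc_subset ht hs)) hmem
      obtain ⟨m, -, hm⟩ := hkint u (Set.ordConnected_Ioo.uIcc_subset ht hs hu)
      rw [hm, eq_div_iff two_ne_zero] at hku
      have h2 : m * 2 = n.sign := by exact_mod_cast hku
      have h3 := mt Int.sign_eq_zero_iff_zero.mp hn0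
      rcases Int.sign_trichotomy n with h' | h' | h' <;> omega
  refine ⟨φ t, ?_⟩
  have hlog : Tendsto (fun s => φ t + Complex.log (Complex.exp (h s) / L)) (𝓝[>] 1) (𝓝 (φ t)) := by
    have := ((continuousAt_clog Complex.one_mem_slitPlane).tendsto.comp
      (by simpa [div_self hL] using he.div_const L :
        Tendsto (fun s => Complex.exp (h s) / L) (𝓝[>] 1) (𝓝 1))).const_add (φ t)
    simpa using this
  refine hlog.congr' ?_
  filter_upwards [Ioo_mem_nhdsGT hb] with s hs
  rw [← hconst s hs, hφ]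
  ring

/-- If the ideal sum has a finite limit and the real part of the prime sum is bounded below then
the prime sum has a finite limit. -/
theorem exists_tendsto_primeSum {w : ℕ → ℂ} (hw : IsMultWeight K w) {L : ℂ}
    (h : Tendsto (idealSum K w) (𝓝[>] 1) (𝓝 L)) {C : ℝ}
    (hlow : ∀ᶠ s in 𝓝[>] (1 : ℝ), C ≤ (primeSum K w s).re) :
    ∃ l : ℂ, Tendsto (primeSum K w) (𝓝[>] 1) (𝓝 l) := by
  have hd := ((Complex.continuous_re.tendsto _).comp (tendsto_defect hw)).eventually
    (eventually_ge_nhds (sub_one_lt (defect K w 1).re))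
  have hL : L ≠ 0 := by
    have hge : ∀ᶠ s in 𝓝[>] (1 : ℝ),
        Real.exp (C + ((defect K w 1).re - 1)) ≤ ‖idealSum K w s‖ := by
      filter_upwards [hlow, hd, self_mem_nhdsWithin] with s hs1 hs2 hs
      rw [← exp_primeSum_add_defect hw hs, Complex.norm_exp, Complex.add_re]
      exact Real.exp_le_exp.mpr (add_le_add hs1 hs2)
    have := ge_of_tendsto h.norm hge
    exact norm_pos_iff.mp (lt_of_lt_of_le (Real.exp_pos _) this)
  have he : Tendsto (fun s => Complex.exp (primeSum K w s + defect K w s)) (𝓝[>] 1) (𝓝 L) := by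
    refine h.congr' ?_
    filter_upwards [self_mem_nhdsWithin] with s hs
    rw [exp_primeSum_add_defect hw hs]
  obtain ⟨l, hl⟩ := exists_tendsto_of_tendsto_exp ((continuousOn_primeSum hw.norm_le).add
    ((continuousOn_defect hw).mono Set.Ioi_subset_Ici_self)) hL he
  exact ⟨l - defect K w 1, (hl.sub (tendsto_defect hw)).congr fun s => by
    simp only [Pi.add_apply]; ring⟩

end FLTAgent.Density
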