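import Fermat.Agent.Density.Inertia
import Fermat.Agent.Density.EulerProduct
import Mathlib.FieldTheory.Normal.Basic
import Mathlib.FieldTheory.IntermediateField.Adjoin.Basic

/-!
# Degree-one primes and Frobenius fixed embeddings

For all but finitely many primes `q`, the ideals of norm `q` of a number field `E` correspond to
the embeddings of `E` in the algebraic numbers fixed by a Frobenius element above `q`.
-/

set_option autoImplicit false

noncomputable section

open NumberField Module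
open scoped Pointwise nonZeroDivisors

namespace FLTAgent.Density

variable {E : Type*} [Field E] [NumberField E]

/-- The map on algebraic integers attached to an embedding. -/
def intHom (ι : E →+* Qbar) : 𝓞 E →+* Zbar where
  toFun a := ⟨ι a, map_isIntegral_int ι a.isIntegral_coe⟩
  map_one' := Subtype.ext (map_one ι)
  map_mul' _ _ := Subtype.ext (map_mul ι _ _)
  map_zero' := Subtype.ext (map_zero ι)
  map_add' _ _ := Subtype.ext (map_add ι _ _)

theorem coe_intHom (ι : E →+* Qbar) (a : 𝓞 E) : ((intHom ι a : Zbar) : Qbar) = ι a := rfl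

theorem intHom_injective (ι : E →+* Qbar) : Function.Injective (intHom ι) := fun _ _ h =>
  RingOfIntegers.ext (ι.injective (congrArg Subtype.val h))

theorem exists_algebraicIntegers_generator :
    ∃ α : 𝓞 E, ∀ {F : Type} [Field F] (f g : E →+* F), f α = g α → f = g := by
  obtain ⟨β, hβ⟩ := Field.exists_primitive_element ℚ E
  obtain ⟨y, hy0, hy⟩ := IsAlgebraic.exists_integral_multiple (R := ℤ) (z := β)
    ((IsFractionRing.isAlgebraic_iff ℤ ℚ E).mpr (Algebra.IsAlgebraic.isAlgebraic β))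
  refine ⟨⟨y • β, hy⟩, fun {F} _ f g h => ?_⟩
  have hchar : (y : F) ≠ 0 := by
    rw [← map_intCast f]
    exact (map_ne_zero f).mpr (Int.cast_ne_zero.mpr hy0)
  have hβ' : f β = g β := by
    have h' : f (y • β) = g (y • β) := h
    rw [map_zsmul, map_zsmul, zsmul_eq_mul, zsmul_eq_mul] at h'
    exact mul_left_cancel₀ hchar h'
  have hrat : f.comp (algebraMap ℚ E) = g.comp (algebraMap ℚ E) := Subsingleton.elim _ _
  refine RingHom.ext fun x => ?_
  have hx : x ∈ IntermediateField.adjoin ℚ {β} := by rw [hβ]; trivial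
  induction hx using IntermediateField.adjoin_induction with
  | mem z hz => rw [Set.mem_singleton_iff.mp hz]; exact hβ'
  | algebraMap r => exact RingHom.congr_fun hrat r
  | add a b _ _ ha hb => rw [map_add, map_add, ha, hb]
  | inv a _ ha => rw [map_inv₀, map_inv₀, ha]
  | mul a b _ _ ha hb => rw [map_mul, map_mul, ha, hb]

theorem exists_apply_eq (ι₀ ι : E →+* Qbar) (x : E) : ∃ σ : GalQ, σ (ι₀ x) = ι x := by
  have hint : IsIntegral ℚ x := Algebra.IsIntegral.isIntegral x
  have h1 : minpoly ℚ (ι₀ x) = minpoly ℚ x := minpoly.algHom_eq ι₀.toRatAlgHom ι₀.injective x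
  have h2 : minpoly ℚ (ι x) = minpoly ℚ x := minpoly.algHom_eq ι.toRatAlgHom ι.injective x
  exact Normal.minpoly_eq_iff_mem_orbit Qbar |>.mp (h2.trans h1.symm)

theorem exists_int_sub_mem {P : Ideal (𝓞 E)} {q : ℕ} (hq : q.Prime)
    (hP : Ideal.absNorm P = q) (a : 𝓞 E) : ∃ c : ℤ, a - (c : 𝓞 E) ∈ P := by
  have : Fact q.Prime := ⟨hq⟩
  have : Finite (𝓞 E ⧸ P) := (Ideal.absNorm_ne_zero_iff P).mp (by rw [hP]; exact hq.ne_zero)
  have : Fintype (𝓞 E ⧸ P) := Fintype.ofFinite _
  have hcard : Fintype.card (𝓞 E ⧸ P) = q := by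
    rw [← hP, Ideal.absNorm_apply, Submodule.cardQuot_apply, Nat.card_eq_fintype_card]
  have : Nontrivial (𝓞 E ⧸ P) := Fintype.one_lt_card_iff_nontrivial.mp (hcard ▸ hq.one_lt)
  have : CharP (𝓞 E ⧸ P) q := by
    refine (CharP.charP_iff_prime_eq_zero hq).mpr ?_
    rw [← map_natCast (Ideal.Quotient.mk P), Ideal.Quotient.eq_zero_iff_mem, ← hP]
    exact Ideal.absNorm_mem P
  obtain ⟨z, hz⟩ := (ZMod.castHom_bijective (𝓞 E ⧸ P) hcard).surjective (Ideal.Quotient.mk P a)
  obtain ⟨c, rfl⟩ := ZMod.intCast_surjective z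
  refine ⟨c, ?_⟩
  rw [← Ideal.Quotient.eq_zero_iff_mem, map_sub, map_intCast, ← hz, map_intCast, sub_self]

theorem absNorm_comap_intHom_eq {q : ℕ} (hq : q.Prime) {A : ValuationSubring Qbar}
    (hA : A.LiesOverPrime q) (ι : E →+* Qbar)
    (h : ∀ a : 𝓞 E, ι a - ι a ^ q ∈ A.nonunits) :
    Ideal.absNorm ((primeBelow A).comap (intHom ι)) = q := by
  set P := (primeBelow A).comap (intHom ι)
  have hqP : (q : 𝓞 E) ∈ P := by
    rw [Ideal.mem_comap, map_natCast, mem_primeBelow]
    simpa [ValuationSubring.LiesOverPrime] using hA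
  have hdvd : Ideal.absNorm P ∣ q ^ finrank ℤ (𝓞 E) := by
    rw [← Ideal.absNorm_span_natCast]
    exact Ideal.absNorm_dvd_absNorm_of_le ((Ideal.span_singleton_le_iff_mem _).mpr hqP)
  have : Finite (𝓞 E ⧸ P) := (Ideal.absNorm_ne_zero_iff P).mp
    (ne_zero_of_dvd_ne_zero (pow_ne_zero _ hq.ne_zero) hdvd)
  have : Fintype (𝓞 E ⧸ P) := Fintype.ofFinite _
  have : IsDomain (𝓞 E ⧸ P) := Ideal.Quotient.isDomain P
  have hle : Fintype.card (𝓞 E ⧸ P) ≤ q := by
    classical
    have hne : (Polynomial.X ^ q - Polynomial.X : Polynomial (𝓞 E ⧸ P)) ≠ 0 := fun h => by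
      have h1 := congrArg (fun f => Polynomial.coeff f q) h
      simp [Polynomial.coeff_X_pow, Polynomial.coeff_X, hq.one_lt.ne] at h1
    have hsub : (Finset.univ : Finset (𝓞 E ⧸ P)) ⊆
        (Polynomial.X ^ q - Polynomial.X : Polynomial (𝓞 E ⧸ P)).roots.toFinset := by
      intro z _
      obtain ⟨a, rfl⟩ := Ideal.Quotient.mk_surjective z
      rw [Multiset.mem_toFinset, Polynomial.mem_roots hne, Polynomial.IsRoot.def,
        Polynomial.eval_sub, Polynomial.eval_pow, Polynomial.eval_X, ← map_pow, ← map_sub,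
        Ideal.Quotient.eq_zero_iff_mem, Ideal.mem_comap, mem_primeBelow]
      have := A.nonunits.neg_mem (h a)
      rw [neg_sub] at this
      simpa [coe_intHom] using this
    refine (Finset.card_le_card hsub).trans ((Multiset.toFinset_card_le _).trans ?_)
    refine (Polynomial.card_roots' _).trans ((Polynomial.natDegree_sub_le _ _).trans ?_)
    rw [Polynomial.natDegree_X_pow, Polynomial.natDegree_X]
    exact max_le le_rfl hq.one_lt.le
  have hN : Ideal.absNorm P = Fintype.card (𝓞 E ⧸ P) := by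
    rw [Ideal.absNorm_apply, Submodule.cardQuot_apply, Nat.card_eq_fintype_card]
  obtain ⟨f, -, hf⟩ := (Nat.dvd_prime_pow hq).mp hdvd
  rcases f with _ | f
  · exact absurd (Ideal.absNorm_eq_one_iff.mp (by rw [hf, pow_zero]))
      (Ideal.IsPrime.ne_top (Ideal.IsPrime.comap _))
  · refine le_antisymm (hN ▸ hle) ?_
    rw [hf]
    exact Nat.le_self_pow (Nat.succ_ne_zero f) q

/-- For almost all `q`, ideals of norm `q` correspond to Frobenius fixed embeddings. -/
theorem exists_forall_idealCount_eq (E : Type*) [Field E] [NumberField E] :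
    ∃ n : ℕ, n ≠ 0 ∧ ∀ q : ℕ, q.Prime → ¬ q ∣ n → ∀ A : ValuationSubring Qbar,
      A.LiesOverPrime q → ∀ φ : GalQ, A.IsFrobeniusAt φ q →
        idealCount E q = Nat.card {ι : E →+* Qbar // ∀ a, φ (ι a) = ι a} := by
  obtain ⟨ι₀⟩ : Nonempty (E →+* Qbar) :=
    ⟨(IsAlgClosed.lift : E →ₐ[ℚ] Qbar).toRingHom⟩
  obtain ⟨α, hα⟩ := exists_algebraicIntegers_generator (E := E)
  obtain ⟨n, hn0, hn⟩ := exists_ne_zero_forall_eq_of_sub_mem_nonunits (x := ι₀ α)
    (map_isIntegral_int ι₀ α.isIntegral_coe)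
  refine ⟨n, hn0, fun q hq hqn A hA φ hφ => ?_⟩
  obtain ⟨-, hc⟩ := isFrobeniusAt_iff.mp hφ
  have hcong : ∀ (ι : E →+* Qbar) (a : 𝓞 E), φ (ι a) - ι a ^ q ∈ A.nonunits :=
    fun ι a => hc _ (mem_of_isIntegral A (map_isIntegral_int ι a.isIntegral_coe))
  have := finite_idealsOfNorm (K := E) q
  rw [idealCount_eq E hq.ne_zero]
  let F : {ι : E →+* Qbar // ∀ a, φ (ι a) = ι a} → IdealsOfNorm E q := fun ι =>
    ⟨(primeBelow A).comap (intHom ι.1), absNorm_comap_intHom_eq hq hA ι.1 fun a => by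
      have := hcong ι.1 a
      rwa [ι.2] at this⟩
  symm
  refine Nat.card_congr (Equiv.ofBijective F ⟨?_, ?_⟩)
  · intro ι₁ ι₂ h
    have h' : (primeBelow A).comap (intHom ι₁.1) = (primeBelow A).comap (intHom ι₂.1) :=
      congrArg Subtype.val h
    obtain ⟨σ, hσ⟩ := exists_apply_eq ι₀ ι₁.1 α
    obtain ⟨τ, hτ⟩ := exists_apply_eq ι₀ ι₂.1 α
    obtain ⟨c, hc'⟩ := exists_int_sub_mem hq (F ι₁).2 α
    have hmem1 : ι₁.1 α - (c : Qbar) ∈ A.nonunits := by
      have h1 : α - (c : 𝓞 E) ∈ (primeBelow A).comap (intHom ι₁.1) := hc'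
      rw [Ideal.mem_comap, mem_primeBelow, coe_intHom] at h1
      simpa using h1
    have hmem2 : ι₂.1 α - (c : Qbar) ∈ A.nonunits := by
      have h2 : α - (c : 𝓞 E) ∈ (primeBelow A).comap (intHom ι₂.1) := h' ▸ hc'
      rw [Ideal.mem_comap, mem_primeBelow, coe_intHom] at h2
      simpa using h2
    have hsub := A.nonunits.sub_mem hmem1 hmem2
    rw [sub_sub_sub_cancel_right, ← hσ, ← hτ] at hsub
    have := hn q hq hqn A hA σ τ hsub
    rw [hσ, hτ] at this
    exact Subtype.ext (hα _ _ this)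
  · rintro ⟨P, hP⟩
    have : P.IsPrime := Ideal.isPrime_of_irreducible_absNorm (hP.symm ▸ hq)
    let : Algebra (𝓞 E) Zbar := (intHom ι₀).toAlgebra
    have : IsScalarTower ℤ (𝓞 E) Zbar := IsScalarTower.of_algebraMap_eq' (RingHom.ext_int _ _)
    have : Algebra.IsIntegral (𝓞 E) Zbar :=
      ⟨fun x => (Algebra.IsIntegral.isIntegral (R := ℤ) x).tower_top⟩
    obtain ⟨Q, hQ, hQP⟩ := Ideal.exists_ideal_over_prime_of_isIntegral_of_isDomain (S := Zbar) P
      (fun x hx => by
        have h0 : intHom ι₀ x = intHom ι₀ 0 := (RingHom.mem_ker.mp hx).trans (map_zero _).symm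
        rw [intHom_injective ι₀ h0]
        exact P.zero_mem)
    have hqQ : (q : Zbar) ∈ Q := by
      have : (q : 𝓞 E) ∈ Q.comap (algebraMap (𝓞 E) Zbar) := by
        rw [hQP, ← hP]; exact Ideal.absNorm_mem P
      simpa using this
    obtain ⟨B, hB, hBQ⟩ := exists_primeBelow_eq hq Q hqQ
    obtain ⟨τ, hτ⟩ := exists_smul_eq_of_liesOverPrime hq hB hA
    let ι : E →+* Qbar := (τ.toRingEquiv.toRingHom).comp ι₀
    have hι : ∀ a : 𝓞 E, a ∈ P ↔ ι a ∈ A.nonunits := by
      intro a
      rw [← hτ]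
      change a ∈ P ↔ τ (ι₀ a) ∈ (τ • B).nonunits
      rw [apply_mem_smul_nonunits_iff, ← hQP, Ideal.mem_comap, ← hBQ, mem_primeBelow]
      rfl
    have hfix : φ (ι α) = ι α := by
      obtain ⟨c, hc'⟩ := exists_int_sub_mem hq hP α
      have h1 := hcong ι α
      have hpow : α ^ q - α ∈ P := by
        have : Finite (𝓞 E ⧸ P) :=
          (Ideal.absNorm_ne_zero_iff P).mp (by rw [hP]; exact hq.ne_zero)
        have : Fintype (𝓞 E ⧸ P) := Fintype.ofFinite _
        have : P.IsMaximal :=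
          Ideal.Quotient.maximal_of_isField _ (Finite.isField_of_domain (𝓞 E ⧸ P))
        let := Ideal.Quotient.field P
        rw [← Ideal.Quotient.eq_zero_iff_mem, map_sub, map_pow]
        have hcard : Fintype.card (𝓞 E ⧸ P) = q := by
          rw [← hP, Ideal.absNorm_apply, Submodule.cardQuot_apply, Nat.card_eq_fintype_card]
        rw [← hcard, FiniteField.pow_card, sub_self]
      have h2 := (hι _).mp hpow
      push_cast at h2
      rw [map_sub, map_pow] at h2
      have h3 := A.nonunits.add_mem h1 h2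
      rw [sub_add_sub_cancel] at h3
      have h4 := hn q hq hqn A hA (φ * τ) τ h3
      exact h4
    have hfix' : ∀ a, φ (ι a) = ι a :=
      fun a => RingHom.congr_fun (hα ((φ.toRingEquiv.toRingHom).comp ι) ι hfix) a
    refine ⟨⟨ι, hfix'⟩, Subtype.ext ?_⟩
    ext a
    change a ∈ (primeBelow A).comap (intHom ι) ↔ a ∈ P
    rw [Ideal.mem_comap, mem_primeBelow, coe_intHom, hι a]

end FLTAgent.Density
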