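import Fermat.Agent.Density.DegreeOne
import Mathlib.GroupTheory.Coset.Card

/-!
# Fixed fields of subgroups of a finite quotient of the absolute Galois group

`fixedFieldOf π D` is the number field fixed by the preimage of `D`; `card_fixed_mul` counts the
conjugates of an element lying in `D` by the embeddings of that field which it fixes, as needed
for the degree-one prime sums in `Density/Twist`.
-/

set_option autoImplicit false

noncomputable section

open NumberField Module

namespace FLTAgent.Density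

variable {G : Type} [Group G] {π : GalQ →* G}

/-- The fixed field of the preimage of a subgroup of a finite quotient. -/
def fixedFieldOf (π : GalQ →* G) (D : Subgroup G) : IntermediateField ℚ Qbar :=
  IntermediateField.fixedField (D.comap π)

theorem fixingSubgroup_fixedFieldOf (hπ : GaloisFactorsThroughFiniteLevel π) (D : Subgroup G) :
    (fixedFieldOf π D).fixingSubgroup = D.comap π := by
  obtain ⟨L, hL, hL1⟩ := hπ
  have := hL
  have hle : L.fixingSubgroup ≤ D.comap π := fun σ hσ => by
    rw [Subgroup.mem_comap, hL1 σ fun x hx => hσ ⟨x, hx⟩]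
    exact D.one_mem
  have hopen : IsOpen ((D.comap π : Subgroup GalQ) : Set GalQ) :=
    Subgroup.isOpen_mono hle L.fixingSubgroup_isOpen
  exact InfiniteGalois.fixingSubgroup_fixedField
    ⟨D.comap π, Subgroup.isClosed_of_isOpen _ hopen⟩

theorem finiteDimensional_fixedFieldOf (hπ : GaloisFactorsThroughFiniteLevel π) (D : Subgroup G) :
    FiniteDimensional ℚ (fixedFieldOf π D) := by
  obtain ⟨L, hL, hL1⟩ := hπ
  have := hL
  have hle : L.fixingSubgroup ≤ D.comap π := fun σ hσ => by
    rw [Subgroup.mem_comap, hL1 σ fun x hx => hσ ⟨x, hx⟩]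
    exact D.one_mem
  have h : fixedFieldOf π D ≤ L := by
    rw [← InfiniteGalois.fixedField_fixingSubgroup L]
    exact fun x hx ⟨σ, hσ⟩ => hx ⟨σ, hle hσ⟩
  exact Module.Finite.of_injective (IntermediateField.inclusion h).toLinearMap
    (IntermediateField.inclusion h).injective

theorem numberField_fixedFieldOf (hπ : GaloisFactorsThroughFiniteLevel π) (D : Subgroup G) :
    NumberField (fixedFieldOf π D) := by
  have := finiteDimensional_fixedFieldOf hπ D
  exact { }

/-- Restriction of an automorphism to an intermediate field, as an embedding. -/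
def restrictEmb (E : IntermediateField ℚ Qbar) (γ : GalQ) : E →+* Qbar :=
  γ.toRingEquiv.toRingHom.comp (algebraMap E Qbar)

theorem restrictEmb_apply (E : IntermediateField ℚ Qbar) (γ : GalQ) (a : E) :
    restrictEmb E γ a = γ a := rfl

theorem restrictEmb_eq_iff (E : IntermediateField ℚ Qbar) (γ δ : GalQ) :
    restrictEmb E γ = restrictEmb E δ ↔ γ⁻¹ * δ ∈ E.fixingSubgroup := by
  rw [RingHom.ext_iff, IntermediateField.mem_fixingSubgroup_iff]
  refine ⟨fun h x hx => ?_, fun h a => ?_⟩
  · have h' : γ x = δ x := h ⟨x, hx⟩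
    rw [AlgEquiv.mul_apply, ← h']
    exact γ.symm_apply_apply x
  · have h' := h a a.2
    rw [AlgEquiv.mul_apply] at h'
    rw [restrictEmb_apply, restrictEmb_apply]
    conv_lhs => rw [← h']
    exact γ.apply_symm_apply _

theorem exists_restrictEmb_eq (E : IntermediateField ℚ Qbar) [FiniteDimensional ℚ E]
    (ι : E →+* Qbar) : ∃ γ : GalQ, restrictEmb E γ = ι := by
  have : NumberField E := { }
  obtain ⟨α, hα⟩ := exists_algebraicIntegers_generator (E := E)
  obtain ⟨σ, hσ⟩ := exists_apply_eq (algebraMap E Qbar) ι α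
  exact ⟨σ, hα _ _ hσ⟩

theorem card_fixed_mul (hπ : GaloisFactorsThroughFiniteLevel π) (hs : Function.Surjective π)
    (D : Subgroup G) (φ : GalQ) :
    Nat.card {x : G // x⁻¹ * π φ * x ∈ D} =
      Nat.card D * Nat.card {ι : fixedFieldOf π D →+* Qbar // ∀ a, φ (ι a) = ι a} := by
  have := finiteDimensional_fixedFieldOf hπ D
  set E := fixedFieldOf π D with hE
  have hfix : E.fixingSubgroup = D.comap π := fixingSubgroup_fixedFieldOf hπ D
  choose lift hlift using hs
  have hiff : ∀ γ : GalQ, (π γ)⁻¹ * π φ * π γ ∈ D ↔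
      ∀ a : E, φ (restrictEmb E γ a) = restrictEmb E γ a := by
    intro γ
    have : (∀ a : E, φ (restrictEmb E γ a) = restrictEmb E γ a) ↔
        restrictEmb E (φ * γ) = restrictEmb E γ := by
      rw [RingHom.ext_iff]; rfl
    rw [this, eq_comm, restrictEmb_eq_iff, hfix, Subgroup.mem_comap, map_mul, map_mul, map_inv,
      mul_assoc]
  let F : G ⧸ D → (E →+* Qbar) := fun c => restrictEmb E (lift c.out)
  have hF : Function.Bijective F := by
    constructor
    · intro c₁ c₂ h
      rw [restrictEmb_eq_iff, hfix, Subgroup.mem_comap, map_mul, map_inv, hlift, hlift] at h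
      rw [← QuotientGroup.out_eq' c₁, ← QuotientGroup.out_eq' c₂]
      exact QuotientGroup.eq.mpr h
    · intro ι
      obtain ⟨γ, rfl⟩ := exists_restrictEmb_eq E ι
      refine ⟨(π γ : G ⧸ D), ?_⟩
      rw [restrictEmb_eq_iff, hfix, Subgroup.mem_comap, map_mul, map_inv, hlift]
      exact QuotientGroup.eq.mp (QuotientGroup.out_eq' _)
  let t : Set (G ⧸ D) := {c | ∀ a : E, φ (F c a) = F c a}
  have hpre : ∀ x : G, x⁻¹ * π φ * x ∈ D ↔ (x : G ⧸ D) ∈ t := by
    intro x
    obtain ⟨d, hd, hx⟩ : ∃ d ∈ D, (x : G ⧸ D).out = x * d := by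
      refine ⟨x⁻¹ * (x : G ⧸ D).out, ?_, by rw [mul_inv_cancel_left]⟩
      exact QuotientGroup.eq.mp (QuotientGroup.out_eq' _).symm
    change _ ↔ ∀ a : E, φ (restrictEmb E (lift (x : G ⧸ D).out) a) =
      restrictEmb E (lift (x : G ⧸ D).out) a
    rw [← hiff, hlift, hx, mul_inv_rev,
      show d⁻¹ * x⁻¹ * π φ * (x * d) = d⁻¹ * (x⁻¹ * π φ * x) * d by group,
      D.mul_mem_cancel_right hd, D.mul_mem_cancel_left (D.inv_mem hd)]
  rw [Nat.card_congr (Equiv.subtypeEquivRight hpre)]
  have h2 : Nat.card t = Nat.card {ι : E →+* Qbar // ∀ a, φ (ι a) = ι a} :=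
    Nat.card_congr ((Equiv.ofBijective F hF).subtypeEquiv fun c => Iff.rfl)
  rw [← h2, ← Nat.card_prod]
  exact Nat.card_congr (QuotientGroup.preimageMkEquivSubgroupProdSet D t)

end FLTAgent.Density
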