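import Fermat.Agent.Density.EulerProduct

/-!
# Logarithmic growth of prime series

`HasLogDensity f δ` says that `∑ f(q) q ^ (-s) - δ log (1 / (s - 1))` has a finite limit as
`s → 1+`. We prove the calculus of this notion and the degree-one prime asymptotic for every
number field.
-/

set_option autoImplicit false

noncomputable section

open NumberField Module Filter Topology
open scoped Classical

namespace FLTAgent.Density

/-- `∑ f(q) q ^ (-s)` over the rational primes. -/
def primeSeries (f : Nat.Primes → ℂ) (s : ℝ) : ℂ :=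
  ∑' q : Nat.Primes, f q * ((((q : ℕ) : ℝ) ^ (-s) : ℝ) : ℂ)

/-- Boundedness of a function on primes. -/
def IsBoundedOnPrimes (f : Nat.Primes → ℂ) : Prop := ∃ B : ℝ, ∀ q, ‖f q‖ ≤ B

/-- The prime series of `f` is `δ log (1 / (s - 1))` up to a function with a finite limit. -/
def HasLogDensity (f : Nat.Primes → ℂ) (δ : ℂ) : Prop :=
  IsBoundedOnPrimes f ∧ ∃ l : ℂ,
    Tendsto (fun s : ℝ => primeSeries f s - δ * (Real.log (1 / (s - 1)) : ℂ)) (𝓝[>] 1) (𝓝 l)

/-- The prime series of a bounded function converges for `s > 1`. -/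
theorem IsBoundedOnPrimes.summable {f : Nat.Primes → ℂ} (hf : IsBoundedOnPrimes f) {s : ℝ}
    (hs : 1 < s) : Summable fun q : Nat.Primes => f q * ((((q : ℕ) : ℝ) ^ (-s) : ℝ) : ℂ) := by
  obtain ⟨B, hB⟩ := hf
  refine Summable.of_norm_bounded
    ((Nat.Primes.summable_rpow.mpr (by linarith : -s < -1)).mul_left B) fun q => ?_
  rw [norm_mul, Complex.norm_real, Real.norm_of_nonneg (Real.rpow_nonneg (Nat.cast_nonneg _) _)]
  exact mul_le_mul_of_nonneg_right (hB q) (Real.rpow_nonneg (Nat.cast_nonneg _) _)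

theorem isBoundedOnPrimes_of_finite {f g : Nat.Primes → ℂ} (hg : IsBoundedOnPrimes g)
    (h : {q | f q ≠ g q}.Finite) : IsBoundedOnPrimes f := by
  obtain ⟨B, hB⟩ := hg
  obtain ⟨B', hB'⟩ := (h.image fun q => ‖f q‖).bddAbove
  refine ⟨max B B', fun q => ?_⟩
  by_cases hq : f q = g q
  · rw [hq]; exact le_max_of_le_left (hB q)
  · exact le_max_of_le_right (hB' ⟨q, hq, rfl⟩)

theorem isBoundedOnPrimes_add {f g : Nat.Primes → ℂ} (hf : IsBoundedOnPrimes f)
    (hg : IsBoundedOnPrimes g) : IsBoundedOnPrimes fun q => f q + g q := by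
  obtain ⟨B, hB⟩ := hf
  obtain ⟨B', hB'⟩ := hg
  exact ⟨B + B', fun q => norm_add_le_of_le (hB q) (hB' q)⟩

theorem IsBoundedOnPrimes.const_mul {f : Nat.Primes → ℂ} (hf : IsBoundedOnPrimes f) (c : ℂ) :
    IsBoundedOnPrimes fun q => c * f q := by
  obtain ⟨B, hB⟩ := hf
  exact ⟨‖c‖ * B, fun q => by rw [norm_mul]; exact mul_le_mul_of_nonneg_left (hB q) (norm_nonneg c)⟩

theorem hasLogDensity_zero : HasLogDensity (fun _ => 0) 0 :=
  ⟨⟨0, fun _ => by simp⟩, 0, by simp [primeSeries]⟩

/-- Logarithmic densities add. -/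
theorem HasLogDensity.add {f g : Nat.Primes → ℂ} {a b : ℂ} (hf : HasLogDensity f a)
    (hg : HasLogDensity g b) : HasLogDensity (fun q => f q + g q) (a + b) := by
  obtain ⟨bf, l, hl⟩ := hf
  obtain ⟨bg, m, hm⟩ := hg
  refine ⟨isBoundedOnPrimes_add bf bg, l + m, (hl.add hm).congr' ?_⟩
  filter_upwards [self_mem_nhdsWithin] with s hs
  rw [primeSeries, primeSeries, primeSeries, tsum_congr fun q => add_mul (f q) (g q) _,
    Summable.tsum_add (bf.summable hs) (bg.summable hs)]
  ring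

theorem HasLogDensity.const_mul {f : Nat.Primes → ℂ} {a : ℂ} (hf : HasLogDensity f a) (c : ℂ) :
    HasLogDensity (fun q => c * f q) (c * a) := by
  obtain ⟨bf, l, hl⟩ := hf
  refine ⟨bf.const_mul c, c * l, (hl.const_mul c).congr fun s => ?_⟩
  rw [primeSeries, primeSeries, mul_sub, ← tsum_mul_left]
  simp only [mul_assoc]

theorem HasLogDensity.sum {ι : Type*} (t : Finset ι) {f : ι → Nat.Primes → ℂ} {a : ι → ℂ}
    (hf : ∀ i ∈ t, HasLogDensity (f i) (a i)) :
    HasLogDensity (fun q => ∑ i ∈ t, f i q) (∑ i ∈ t, a i) := by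
  induction t using Finset.induction_on with
  | empty => simpa using hasLogDensity_zero
  | @insert i t hi ih =>
    simp only [Finset.sum_insert hi]
    exact (hf i (Finset.mem_insert_self i t)).add
      (ih fun j hj => hf j (Finset.mem_insert_of_mem hj))

theorem hasLogDensity_of_finite_support {f : Nat.Primes → ℂ} (h : {q | f q ≠ 0}.Finite) :
    HasLogDensity f 0 := by
  refine ⟨isBoundedOnPrimes_of_finite ⟨0, fun _ => by simp⟩ h,
    ∑ q ∈ h.toFinset, f q * ((((q : ℕ) : ℝ) ^ (-(1 : ℝ)) : ℝ) : ℂ), ?_⟩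
  have : ∀ s : ℝ, primeSeries f s =
      ∑ q ∈ h.toFinset, f q * ((((q : ℕ) : ℝ) ^ (-s) : ℝ) : ℂ) := fun s => by
    refine tsum_eq_sum fun q hq => ?_
    rw [Set.Finite.mem_toFinset, Set.mem_ofPred, not_not] at hq
    rw [hq, zero_mul]
  simp only [this, zero_mul, sub_zero]
  refine tendsto_nhdsWithin_of_tendsto_nhds (Continuous.tendsto ?_ 1)
  refine continuous_finsetSum _ fun q _ => continuous_const.mul (Complex.continuous_ofReal.comp ?_)
  exact (Real.continuous_const_rpow (Nat.cast_ne_zero.mpr q.2.ne_zero)).comp continuous_neg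

/-- The logarithmic density ignores finitely many primes. -/
theorem HasLogDensity.congr {f g : Nat.Primes → ℂ} {a : ℂ} (hf : HasLogDensity f a)
    (h : ∀ᶠ q in cofinite, f q = g q) : HasLogDensity g a := by
  have hfin : HasLogDensity (fun q => g q - f q) 0 := by
    refine hasLogDensity_of_finite_support ?_
    refine (eventually_cofinite.mp h).subset fun q hq hne => hq ?_
    rw [hne, sub_self]
  simpa using hf.add hfin

theorem HasLogDensity.congr_density {f : Nat.Primes → ℂ} {a b : ℂ} (hf : HasLogDensity f a)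
    (h : a = b) : HasLogDensity f b := h ▸ hf

theorem exists_re_primeSeries_le {f g : Nat.Primes → ℂ} (hf : IsBoundedOnPrimes f)
    (hg : IsBoundedOnPrimes g) (h : ∀ᶠ q in cofinite, (f q).re ≤ (g q).re) :
    ∃ C : ℝ, ∀ᶠ s in 𝓝[>] (1 : ℝ), (primeSeries f s).re ≤ (primeSeries g s).re + C := by
  have hfin : {q | ¬ (f q).re ≤ (g q).re}.Finite := eventually_cofinite.mp h
  refine ⟨∑ q ∈ hfin.toFinset, |(f q).re - (g q).re|, ?_⟩
  filter_upwards [self_mem_nhdsWithin] with s hs
  have hre : ∀ {k : Nat.Primes → ℂ}, IsBoundedOnPrimes k → (primeSeries k s).re =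
      ∑' q : Nat.Primes, (k q).re * ((q : ℕ) : ℝ) ^ (-s) := fun {k} hk => by
    rw [primeSeries, Complex.re_tsum (hk.summable hs)]
    simp [Complex.mul_re]
  have hsum : ∀ {k : Nat.Primes → ℂ}, IsBoundedOnPrimes k →
      Summable fun q : Nat.Primes => (k q).re * ((q : ℕ) : ℝ) ^ (-s) := fun {k} hk => by
    have := (Complex.hasSum_re (hk.summable hs).hasSum).summable
    simpa [Complex.mul_re] using this
  rw [hre hf, hre hg, ← sub_le_iff_le_add', ← Summable.tsum_sub (hsum hf) (hsum hg)]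
  refine Summable.tsum_le_of_sum_le ((hsum hf).sub (hsum hg)) fun t => ?_
  calc ∑ q ∈ t, ((f q).re * ((q : ℕ) : ℝ) ^ (-s) - (g q).re * ((q : ℕ) : ℝ) ^ (-s))
      ≤ ∑ q ∈ t, (if q ∈ hfin.toFinset then |(f q).re - (g q).re| else 0) := by
        refine Finset.sum_le_sum fun q _ => ?_
        have h1 : ((q : ℕ) : ℝ) ^ (-s) ≤ 1 := Real.rpow_le_one_of_one_le_of_nonpos
          (by exact_mod_cast q.2.one_le) (by simp only [Set.mem_Ioi] at hs; linarith)
        have h0 : 0 ≤ ((q : ℕ) : ℝ) ^ (-s) := Real.rpow_nonneg (Nat.cast_nonneg _) _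
        rw [← sub_mul]
        split_ifs with hq
        · exact (mul_le_mul_of_nonneg_right (le_abs_self _) h0).trans
            (mul_le_of_le_one_right (abs_nonneg _) h1)
        · rw [Set.Finite.mem_toFinset, Set.mem_ofPred, not_not] at hq
          exact mul_nonpos_of_nonpos_of_nonneg (sub_nonpos.mpr hq) h0
    _ = ∑ q ∈ t ∩ hfin.toFinset, |(f q).re - (g q).re| := (Finset.sum_ite_mem _ _ _)
    _ ≤ _ := Finset.sum_le_sum_of_subset_of_nonneg Finset.inter_subset_right
        fun q _ _ => abs_nonneg _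

theorem HasLogDensity.exists_re_le {f : Nat.Primes → ℂ} {a : ℝ} (hf : HasLogDensity f a) :
    ∃ C : ℝ, ∀ᶠ s in 𝓝[>] (1 : ℝ),
      |(primeSeries f s).re - a * Real.log (1 / (s - 1))| ≤ C := by
  obtain ⟨-, l, hl⟩ := hf
  refine ⟨|l.re| + 1, ?_⟩
  have h := (((Complex.continuous_re.tendsto _).comp hl).abs).eventually
    (eventually_le_nhds (lt_add_one |l.re|))
  filter_upwards [h] with s hs
  simpa using hs

theorem tendsto_log_one_div_sub_one :
    Tendsto (fun s : ℝ => Real.log (1 / (s - 1))) (𝓝[>] 1) atTop := by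
  have h : Tendsto (fun s : ℝ => s - 1) (𝓝[>] 1) (𝓝[>] 0) := by
    refine tendsto_nhdsWithin_iff.mpr ⟨?_, ?_⟩
    · refine tendsto_nhdsWithin_of_tendsto_nhds ?_
      simpa using (continuous_id.sub continuous_const).tendsto (1 : ℝ) (f := fun s : ℝ => s - 1)
    · filter_upwards [self_mem_nhdsWithin] with s hs
      simpa using hs
  simp only [one_div]
  exact Real.tendsto_log_atTop.comp (tendsto_inv_nhdsGT_zero.comp h)

section NumberField

variable {K : Type*} [Field K] [NumberField K]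

/-- The product of the small primes. -/
def smallPrimeProd (K : Type*) [Field K] [NumberField K] : ℕ :=
  ∏ p ∈ (Finset.range (4 * finrank ℚ K ^ 2 + 1)).filter Nat.Prime, p

theorem smallPrimeProd_ne_zero : smallPrimeProd K ≠ 0 :=
  Finset.prod_ne_zero_iff.mpr fun _ hp => (Finset.mem_filter.mp hp).2.ne_zero

theorem dvd_smallPrimeProd {q : ℕ} (hq : q.Prime) (h : q ≤ 4 * finrank ℚ K ^ 2) :
    q ∣ smallPrimeProd K :=
  Finset.dvd_prod_of_mem _ (Finset.mem_filter.mpr ⟨Finset.mem_range.mpr (by omega), hq⟩)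

theorem eventually_not_dvd {n : ℕ} (hn : n ≠ 0) :
    ∀ᶠ q : Nat.Primes in cofinite, ¬ (q : ℕ) ∣ n := by
  rw [eventually_cofinite]
  refine (n.divisors.finite_toSet.preimage Subtype.val_injective.injOn).subset fun q hq => ?_
  have hq' : ¬ ¬ (q : ℕ) ∣ n := hq
  simpa [hn] using not_not.mp hq'

/-- A periodic completely multiplicative weight killed at the primes dividing `B`. -/
def twistWeight (ψ : ℕ → ℂ) (B : ℕ) (n : ℕ) : ℂ := if n.Coprime B then ψ n else 0

theorem isMultWeight_twistWeight {ψ : ℕ → ℂ} (h1 : ψ 1 = 1) (hmul : ∀ a b, ψ (a * b) = ψ a * ψ b)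
    (hle : ∀ n, ‖ψ n‖ ≤ 1) {B : ℕ}
    (hsmall : ∀ q : ℕ, q.Prime → q ≤ 4 * finrank ℚ K ^ 2 → q ∣ B) :
    IsMultWeight K (twistWeight ψ B) := by
  refine ⟨fun n => ?_, ?_, fun a b => ?_, fun q hq hle' => ?_⟩
  · unfold twistWeight
    split_ifs
    · exact hle n
    · simp
  · simp [twistWeight, h1]
  · simp only [twistWeight, Nat.coprime_mul_iff_left, hmul]
    split_ifs <;> simp_all
  · rw [twistWeight, if_neg]
    exact fun h => hq.coprime_iff_not_dvd.mp h (hsmall q hq hle')

theorem isEvenPeriodic_twistWeight {ψ : ℕ → ℂ} {m B : ℕ} (hle : ∀ n, ‖ψ n‖ ≤ 1)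
    (hper : ∀ a b : ℤ, (m : ℤ) ∣ a - b → ψ a.natAbs = ψ b.natAbs) :
    IsEvenPeriodic (m * B) (twistWeight ψ B) := by
  refine ⟨fun n => ?_, fun a b hab => ?_⟩
  · unfold twistWeight
    split_ifs
    · exact hle n
    · simp
  · rw [Nat.cast_mul] at hab
    obtain ⟨k, hk⟩ := dvd_trans (Dvd.intro_left (m : ℤ) rfl) hab
    have hcop : a.natAbs.Coprime B ↔ b.natAbs.Coprime B := by
      rw [← Int.natAbs_natCast B, ← Int.isCoprime_iff_nat_coprime, ← Int.isCoprime_iff_nat_coprime,
        show a = b + (B : ℤ) * k by linear_combination hk, IsCoprime.add_mul_left_left_iff]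
    simp only [twistWeight, hcop, hper a b (dvd_trans (Dvd.intro (B : ℤ) rfl) hab)]

theorem primeSum_eq_primeSeries (w : ℕ → ℂ) :
    primeSum K w = primeSeries fun q => w q * (idealCount K q : ℂ) := rfl

theorem idealCount_prime_le {q : ℕ} (hq : q.Prime) : idealCount K q ≤ finrank ℚ K := by
  simpa using idealCount_prime_pow_le (K := K) hq 1

theorem isBoundedOnPrimes_idealCount :
    IsBoundedOnPrimes fun q : Nat.Primes => (idealCount K q : ℂ) :=
  ⟨finrank ℚ K, fun q => by
    rw [Complex.norm_natCast]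
    exact_mod_cast idealCount_prime_le q.2⟩

/-- The degree-one prime ideals of a number field have log density `1`. -/
theorem hasLogDensity_idealCount :
    HasLogDensity (fun q : Nat.Primes => (idealCount K q : ℂ)) 1 := by
  set B := smallPrimeProd K
  set w : ℕ → ℝ := fun n => if n.Coprime B then 1 else 0
  have hw : (fun n => ((w n : ℝ) : ℂ)) = twistWeight (fun _ => 1) B := by
    funext n
    simp only [w, twistWeight]
    split_ifs <;> simp
  have hmult : IsMultWeight K (twistWeight (fun _ => 1) B) :=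
    isMultWeight_twistWeight rfl (fun _ _ => by simp) (fun _ => by simp)
      fun q hq h => dvd_smallPrimeProd hq h
  have hper : IsEvenPeriodic (1 * B) fun n => ((w n : ℝ) : ℂ) :=
    hw ▸ isEvenPeriodic_twistWeight (fun _ => by simp) fun _ _ _ => rfl
  obtain ⟨κ, hκ, hlim⟩ := exists_pos_tendsto_sub_one_mul_idealSum (K := K) (w := w)
    (Nat.mul_ne_zero one_ne_zero smallPrimeProd_ne_zero) hper
    (fun n => by simp only [w]; split_ifs <;> norm_num) (by simp [w])
  rw [hw] at hlim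
  obtain ⟨l, hl⟩ := exists_tendsto_re_primeSum_sub_log hmult hκ hlim
  have hreal : ∀ {s : ℝ}, 1 < s → (primeSum K (twistWeight (fun _ => 1) B) s).im = 0 := by
    intro s hs
    have hsum := summable_primeTerm (K := K) (w := fun n => ((w n : ℝ) : ℂ)) (fun n => by
      simp only [w]; split_ifs <;> simp) hs
    rw [← hw, primeSum, Complex.im_tsum hsum]
    simp [Complex.mul_im]
  have h : HasLogDensity
      (fun q : Nat.Primes => twistWeight (fun _ => 1) B q * (idealCount K q : ℂ)) 1 := by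
    refine ⟨⟨finrank ℚ K, fun q => ?_⟩, (l : ℂ), ?_⟩
    · rw [norm_mul, Complex.norm_natCast]
      exact (mul_le_of_le_one_left (Nat.cast_nonneg _) (hmult.norm_le _)).trans
        (by exact_mod_cast idealCount_prime_le q.2)
    · refine ((Complex.continuous_ofReal.tendsto _).comp hl).congr' ?_
      filter_upwards [self_mem_nhdsWithin] with s hs
      rw [← primeSum_eq_primeSeries]
      apply Complex.ext <;> simp [hreal hs]
  refine h.congr ?_
  filter_upwards [eventually_not_dvd (smallPrimeProd_ne_zero (K := K))] with q hq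
  rw [twistWeight, if_pos (q.2.coprime_iff_not_dvd.mpr hq), one_mul]

/-- Criterion for the vanishing of the log density of a twisted degree-one sum, upper part: the
prime sum is bounded above as soon as it is below `(1 - δ) log`. -/
theorem exists_re_twist_le {ψ : ℕ → ℂ} (h1 : ψ 1 = 1) (hmul : ∀ a b, ψ (a * b) = ψ a * ψ b)
    (hle : ∀ n, ‖ψ n‖ ≤ 1) {m : ℕ} (hm : m ≠ 0)
    (hper : ∀ a b : ℤ, (m : ℤ) ∣ a - b → ψ a.natAbs = ψ b.natAbs) {δ C : ℝ} (hδ : 0 < δ)
    (h : ∀ᶠ s in 𝓝[>] (1 : ℝ),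
      (primeSeries (fun q => ψ q * (idealCount K q : ℂ)) s).re ≤
        (1 - δ) * Real.log (1 / (s - 1)) + C) :
    ∃ L : ℂ, ∃ C' : ℝ, Tendsto (idealSum K (twistWeight ψ (smallPrimeProd K))) (𝓝[>] 1) (𝓝 L) ∧
      ∀ᶠ s in 𝓝[>] (1 : ℝ), (primeSeries (fun q => ψ q * (idealCount K q : ℂ)) s).re ≤ C' := by
  set B := smallPrimeProd K
  have hmult : IsMultWeight K (twistWeight ψ B) :=
    isMultWeight_twistWeight h1 hmul hle fun q hq h => dvd_smallPrimeProd hq h
  have hb : ∀ w : ℕ → ℂ, (∀ n, ‖w n‖ ≤ 1) →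
      IsBoundedOnPrimes fun q : Nat.Primes => w q * (idealCount K q : ℂ) := fun w hw =>
    ⟨finrank ℚ K, fun q => by
      rw [norm_mul, Complex.norm_natCast]
      exact (mul_le_of_le_one_left (Nat.cast_nonneg _) (hw _)).trans
        (by exact_mod_cast idealCount_prime_le q.2)⟩
  have heq : ∀ᶠ q : Nat.Primes in cofinite, twistWeight ψ B q = ψ q := by
    filter_upwards [eventually_not_dvd (smallPrimeProd_ne_zero (K := K))] with q hq
    rw [twistWeight, if_pos (q.2.coprime_iff_not_dvd.mpr hq)]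
  obtain ⟨C₁, hC₁⟩ := exists_re_primeSeries_le (hb _ hmult.norm_le) (hb _ hle)
    (heq.mono fun q hq => by rw [hq])
  obtain ⟨C₂, hC₂⟩ := exists_re_primeSeries_le (hb _ hle) (hb _ hmult.norm_le)
    (heq.mono fun q hq => by rw [hq])
  have hP : ∀ᶠ s in 𝓝[>] (1 : ℝ), (primeSum K (twistWeight ψ B) s).re ≤
      (1 - δ) * Real.log (1 / (s - 1)) + (C + C₁) := by
    filter_upwards [h, hC₁] with s hs hs'
    rw [primeSum_eq_primeSeries]
    linarith
  obtain ⟨L, hL⟩ := exists_tendsto_idealSum (Nat.mul_ne_zero hm smallPrimeProd_ne_zero)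
    (isEvenPeriodic_twistWeight (B := B) hle hper)
    (tendsto_sub_one_mul_idealSum_zero hmult hδ hP)
  obtain ⟨C₃, hC₃⟩ := exists_re_primeSum_le hmult hL
  refine ⟨L, C₃ + C₂, hL, ?_⟩
  filter_upwards [hC₂, hC₃] with s hs hs'
  rw [primeSum_eq_primeSeries] at hs'
  linarith

/-- Criterion for the vanishing of the log density of a twisted degree-one sum, lower part. -/
theorem hasLogDensity_twist_zero {ψ : ℕ → ℂ} (h1 : ψ 1 = 1)
    (hmul : ∀ a b, ψ (a * b) = ψ a * ψ b) (hle : ∀ n, ‖ψ n‖ ≤ 1) {L : ℂ}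
    (hL : Tendsto (idealSum K (twistWeight ψ (smallPrimeProd K))) (𝓝[>] 1) (𝓝 L)) {C : ℝ}
    (hlow : ∀ᶠ s in 𝓝[>] (1 : ℝ),
      C ≤ (primeSeries (fun q => ψ q * (idealCount K q : ℂ)) s).re) :
    HasLogDensity (fun q => ψ q * (idealCount K q : ℂ)) 0 := by
  set B := smallPrimeProd K
  have hmult : IsMultWeight K (twistWeight ψ B) :=
    isMultWeight_twistWeight h1 hmul hle fun q hq h => dvd_smallPrimeProd hq h
  have hb : ∀ w : ℕ → ℂ, (∀ n, ‖w n‖ ≤ 1) →
      IsBoundedOnPrimes fun q : Nat.Primes => w q * (idealCount K q : ℂ) := fun w hw =>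
    ⟨finrank ℚ K, fun q => by
      rw [norm_mul, Complex.norm_natCast]
      exact (mul_le_of_le_one_left (Nat.cast_nonneg _) (hw _)).trans
        (by exact_mod_cast idealCount_prime_le q.2)⟩
  have heq : ∀ᶠ q : Nat.Primes in cofinite, twistWeight ψ B q = ψ q := by
    filter_upwards [eventually_not_dvd (smallPrimeProd_ne_zero (K := K))] with q hq
    rw [twistWeight, if_pos (q.2.coprime_iff_not_dvd.mpr hq)]
  obtain ⟨C₁, hC₁⟩ := exists_re_primeSeries_le (hb _ hle) (hb _ hmult.norm_le)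
    (heq.mono fun q hq => by rw [hq])
  have hlow' : ∀ᶠ s in 𝓝[>] (1 : ℝ), C - C₁ ≤ (primeSum K (twistWeight ψ B) s).re := by
    filter_upwards [hlow, hC₁] with s hs hs'
    rw [primeSum_eq_primeSeries]
    linarith
  obtain ⟨l, hl⟩ := exists_tendsto_primeSum hmult hL hlow'
  have h : HasLogDensity (fun q : Nat.Primes => twistWeight ψ B q * (idealCount K q : ℂ)) 0 :=
    ⟨hb _ hmult.norm_le, l, by simpa [← primeSum_eq_primeSeries] using hl⟩
  exact h.congr (heq.mono fun q hq => by rw [hq])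

end NumberField

end FLTAgent.Density
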