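import Fermat.Agent.Density.LatticeWeight
import Mathlib.Algebra.Module.ZLattice.Summable
import Mathlib.LinearAlgebra.FreeModule.IdealQuotient
import Mathlib.NumberTheory.NumberField.DedekindZeta
import Mathlib.Analysis.Normed.Group.Tannery
import Mathlib.Analysis.SpecialFunctions.Pow.Deriv

/-!
# Behaviour at `s = 1` of ideal sums with periodic even weights in the norm

For a number field `K` and a weight `w : ℕ → ℂ` which is periodic and even as a function of an
integer, we compare `∑_I w(N I) (N I) ^ (-s)` with a single lattice sum: the difference is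
controlled by differences of translates of a homogeneous Lipschitz function, so it has a finite
limit as `s → 1+`.
-/

set_option autoImplicit false

noncomputable section

open NumberField NumberField.mixedEmbedding NumberField.Units Module Filter Topology
open scoped nonZeroDivisors Classical

namespace FLTAgent.Density

variable (K : Type*) [Field K] [NumberField K]

/-- `∑_I w(N I) (N I) ^ (-s)` over the nonzero integral ideals. -/
def idealSum (w : ℕ → ℂ) (s : ℝ) : ℂ :=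
  ∑' I : (Ideal (𝓞 K))⁰,
    w (Ideal.absNorm (I : Ideal (𝓞 K))) *
      (((Ideal.absNorm (I : Ideal (𝓞 K)) : ℝ) ^ (-s) : ℝ) : ℂ)

/-- `∑_I w(N I) (N I) ^ (-s)` over the nonzero integral ideals in a given class. -/
def classSum (C : ClassGroup (𝓞 K)) (w : ℕ → ℂ) (s : ℝ) : ℂ :=
  ∑' I : {I : (Ideal (𝓞 K))⁰ // ClassGroup.mk0 I = C},
    w (Ideal.absNorm (I.1 : Ideal (𝓞 K))) *
      (((Ideal.absNorm (I.1 : Ideal (𝓞 K)) : ℝ) ^ (-s) : ℝ) : ℂ)

/-- The number of nonzero ideals of norm `n`. -/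
def idealCount (n : ℕ) : ℕ :=
  Nat.card {I : (Ideal (𝓞 K))⁰ // Ideal.absNorm (I : Ideal (𝓞 K)) = n}

theorem finite_absNorm_eq (n : ℕ) :
    Finite {I : (Ideal (𝓞 K))⁰ // Ideal.absNorm (I : Ideal (𝓞 K)) = n} := by
  have := (Ideal.finite_setOfPred_absNorm_eq (S := 𝓞 K) n).to_subtype
  exact Finite.of_injective
    (fun I => (⟨I.1.1, I.2⟩ : {I : Ideal (𝓞 K) | Ideal.absNorm I = n}))
    fun a b h => Subtype.ext (Subtype.ext (Subtype.ext_iff.mp h :))

theorem idealCount_zero : idealCount K 0 = 0 := by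
  have : IsEmpty {I : (Ideal (𝓞 K))⁰ // Ideal.absNorm (I : Ideal (𝓞 K)) = 0} :=
    ⟨fun I => Ideal.absNorm_ne_zero_of_nonZeroDivisors I.1 I.2⟩
  exact Nat.card_of_isEmpty

theorem idealCount_eq {n : ℕ} (hn : n ≠ 0) :
    idealCount K n = Nat.card {I : Ideal (𝓞 K) // Ideal.absNorm I = n} := by
  refine Nat.card_congr ⟨fun I => ⟨I.1.1, I.2⟩, fun I => ⟨⟨I.1, ?_⟩, I.2⟩, fun _ => rfl,
    fun _ => rfl⟩
  refine mem_nonZeroDivisors_of_ne_zero fun h => hn ?_
  have := I.2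
  rw [h] at this
  simpa using this.symm

theorem sum_idealCount_le (n : ℕ) :
    ∑ k ∈ Finset.Icc 1 n, idealCount K k =
      Nat.card {I : (Ideal (𝓞 K))⁰ // Ideal.absNorm (I : Ideal (𝓞 K)) ≤ n} := by
  have : ∀ k, Finite {I : (Ideal (𝓞 K))⁰ // Ideal.absNorm (I : Ideal (𝓞 K)) = k} :=
    finite_absNorm_eq K
  have : ∀ k, Fintype {I : (Ideal (𝓞 K))⁰ // Ideal.absNorm (I : Ideal (𝓞 K)) = k} :=
    fun _ => Fintype.ofFinite _
  let e : {I : (Ideal (𝓞 K))⁰ // Ideal.absNorm (I : Ideal (𝓞 K)) ≤ n} ≃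
      Σ k : Finset.Icc 1 n, {I : (Ideal (𝓞 K))⁰ // Ideal.absNorm (I : Ideal (𝓞 K)) = k.1} :=
    { toFun := fun I => ⟨⟨Ideal.absNorm (I.1 : Ideal (𝓞 K)), Finset.mem_Icc.mpr
        ⟨Ideal.absNorm_pos_of_nonZeroDivisors I.1, I.2⟩⟩, ⟨I.1, rfl⟩⟩
      invFun := fun x => ⟨x.2.1, x.2.2.le.trans (Finset.mem_Icc.mp x.1.2).2⟩
      left_inv := fun _ => rfl
      right_inv := fun x => by
        obtain ⟨⟨k, hk⟩, I, hI⟩ := x
        simp only at hI
        subst hI
        rfl }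
  rw [Nat.card_congr e, Nat.card_eq_fintype_card, Fintype.card_sigma,
    ← Finset.sum_attach (Finset.Icc 1 n)]
  simp [idealCount, Nat.card_eq_fintype_card, Finset.univ_eq_attach]

theorem tendsto_sum_idealCount_div :
    Tendsto (fun n : ℕ => (∑ k ∈ Finset.Icc 1 n, (idealCount K k : ℝ)) / n) atTop
      (𝓝 (dedekindZeta_residue K)) := by
  refine ((Ideal.tendsto_norm_le_div_atTop₀ K).comp tendsto_natCast_atTop_atTop).congr fun n => ?_
  simp only [Function.comp_apply, Nat.cast_le, ← Nat.cast_sum, sum_idealCount_le]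

variable {K}

theorem summable_idealCount {s : ℝ} (hs : 1 < s) :
    Summable fun n : ℕ => (idealCount K n : ℝ) * (n : ℝ) ^ (-s) := by
  have hO : (fun n : ℕ => ∑ k ∈ Finset.Icc 1 n, ‖((idealCount K k : ℕ) : ℂ)‖) =O[atTop]
      fun n : ℕ => (n : ℝ) ^ (1 : ℝ) := by
    simp only [Complex.norm_natCast, Real.rpow_one]
    exact Asymptotics.isBigO_of_div_tendsto_nhds
      ((eventually_gt_atTop 0).mono fun n hn h => absurd h (by positivity)) _
      (tendsto_sum_idealCount_div K)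
  have h := (LSeriesSummable_of_sum_norm_bigO (s := (s : ℂ)) hO zero_le_one (by simpa using hs))
  refine (h.norm).congr fun n => ?_
  rcases eq_or_ne n 0 with rfl | hn
  · simp [idealCount_zero]
  · rw [LSeries.norm_term_eq, if_neg hn, Complex.norm_natCast, Complex.ofReal_re,
      Real.rpow_neg (Nat.cast_nonneg n), div_eq_mul_inv]

theorem summable_absNorm_rpow {s : ℝ} (hs : 1 < s) :
    Summable fun I : (Ideal (𝓞 K))⁰ => (Ideal.absNorm (I : Ideal (𝓞 K)) : ℝ) ^ (-s) := by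
  have := finite_absNorm_eq K
  let e := Equiv.sigmaFiberEquiv fun I : (Ideal (𝓞 K))⁰ => Ideal.absNorm (I : Ideal (𝓞 K))
  rw [← e.summable_iff]
  have hnn : ∀ x, 0 ≤ ((fun I : (Ideal (𝓞 K))⁰ =>
      (Ideal.absNorm (I : Ideal (𝓞 K)) : ℝ) ^ (-s)) ∘ e) x :=
    fun x => Real.rpow_nonneg (Nat.cast_nonneg _) _
  refine (summable_sigma_of_nonneg hnn).mpr ?_
  refine ⟨fun _ => .of_finite, (summable_idealCount (K := K) hs).congr fun n => ?_⟩
  have : Fintype {I : (Ideal (𝓞 K))⁰ // Ideal.absNorm (I : Ideal (𝓞 K)) = n} := Fintype.ofFinite _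
  have : ∀ I : {I : (Ideal (𝓞 K))⁰ // Ideal.absNorm (I : Ideal (𝓞 K)) = n},
      ((fun I : (Ideal (𝓞 K))⁰ => (Ideal.absNorm (I : Ideal (𝓞 K)) : ℝ) ^ (-s)) ∘ e) ⟨n, I⟩ =
        (n : ℝ) ^ (-s) := fun I => by
    simp [e, Equiv.sigmaFiberEquiv, I.2]
  rw [tsum_congr this, tsum_fintype, Finset.sum_const, nsmul_eq_mul, Finset.card_univ,
    idealCount, Nat.card_eq_fintype_card]

theorem summable_weighted {w : ℕ → ℂ} (hw : ∀ n, ‖w n‖ ≤ 1) {s : ℝ} (hs : 1 < s) :
    Summable fun I : (Ideal (𝓞 K))⁰ => w (Ideal.absNorm (I : Ideal (𝓞 K))) *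
      (((Ideal.absNorm (I : Ideal (𝓞 K)) : ℝ) ^ (-s) : ℝ) : ℂ) := by
  refine Summable.of_norm_bounded (summable_absNorm_rpow hs) fun I => ?_
  rw [norm_mul, Complex.norm_real, Real.norm_of_nonneg (Real.rpow_nonneg (Nat.cast_nonneg _) _)]
  exact mul_le_of_le_one_left (Real.rpow_nonneg (Nat.cast_nonneg _) _) (hw _)

theorem idealSum_eq_sum_classSum {w : ℕ → ℂ} (hw : ∀ n, ‖w n‖ ≤ 1) {s : ℝ} (hs : 1 < s) :
    idealSum K w s = ∑ C : ClassGroup (𝓞 K), classSum K C w s := by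
  let e := Equiv.sigmaFiberEquiv fun I : (Ideal (𝓞 K))⁰ => ClassGroup.mk0 I
  rw [idealSum, ← e.tsum_eq]
  refine (Summable.tsum_sigma ?_).trans ?_
  · exact e.summable_iff.mpr (summable_weighted hw hs)
  rw [tsum_fintype]
  rfl

theorem idealSum_eq_tsum_idealCount {w : ℕ → ℂ} (hw : ∀ n, ‖w n‖ ≤ 1) {s : ℝ} (hs : 1 < s) :
    idealSum K w s = ∑' n : ℕ, (idealCount K n : ℂ) * (w n * (((n : ℝ) ^ (-s) : ℝ) : ℂ)) := by
  have := finite_absNorm_eq K
  let e := Equiv.sigmaFiberEquiv fun I : (Ideal (𝓞 K))⁰ => Ideal.absNorm (I : Ideal (𝓞 K))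
  rw [idealSum, ← e.tsum_eq]
  refine (Summable.tsum_sigma ?_).trans (tsum_congr fun n => ?_)
  · exact e.summable_iff.mpr (summable_weighted hw hs)
  have : Fintype {I : (Ideal (𝓞 K))⁰ // Ideal.absNorm (I : Ideal (𝓞 K)) = n} := Fintype.ofFinite _
  rw [tsum_congr fun I => show _ = w n * (((n : ℝ) ^ (-s) : ℝ) : ℂ) by
      simp [e, Equiv.sigmaFiberEquiv, I.2],
    tsum_fintype, Finset.sum_const, nsmul_eq_mul, Finset.card_univ, idealCount,
    Nat.card_eq_fintype_card]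

theorem idealSum_one_eq_dedekindZeta {s : ℝ} (hs : 1 < s) :
    idealSum K (fun _ => 1) s = dedekindZeta K s := by
  rw [idealSum_eq_tsum_idealCount (fun _ => by simp) hs, dedekindZeta, LSeries]
  refine tsum_congr fun n => ?_
  rcases eq_or_ne n 0 with rfl | hn
  · simp [idealCount_zero]
  · rw [LSeries.term_of_ne_zero hn, ← idealCount_eq K hn, one_mul,
      Real.rpow_neg (Nat.cast_nonneg n),
      Complex.ofReal_inv, Complex.ofReal_cpow (Nat.cast_nonneg n), Complex.ofReal_natCast,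
      div_eq_mul_inv]

/-- The image of an algebraic integer in the mixed space. -/
def emb (x : 𝓞 K) : mixedSpace K := mixedEmbedding K (x : K)

omit [NumberField K] in
theorem emb_add (x y : 𝓞 K) : emb (x + y) = emb x + emb y := by simp [emb]

theorem emb_injective : Function.Injective (emb : 𝓞 K → mixedSpace K) := fun _ _ h =>
  RingOfIntegers.ext (mixedEmbedding_injective K h)

theorem norm_emb (x : 𝓞 K) :
    mixedEmbedding.norm (emb x) = ((Algebra.norm ℤ x).natAbs : ℝ) := by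
  rw [emb, norm_eq_norm, ← Algebra.coe_norm_int, Nat.cast_natAbs]
  push_cast
  rfl

omit [NumberField K] in
theorem emb_units_mul (u : (𝓞 K)ˣ) (x : 𝓞 K) : emb ((u : 𝓞 K) * x) = u • emb x := by
  simp [emb, unitSMul_smul]

omit [NumberField K] in
theorem natAbs_norm_units_mul (u : (𝓞 K)ˣ) (x : 𝓞 K) :
    (Algebra.norm ℤ ((u : 𝓞 K) * x)).natAbs = (Algebra.norm ℤ x).natAbs := by
  have h : (Algebra.norm ℤ (u : 𝓞 K)).natAbs = 1 :=
    Int.isUnit_iff_natAbs_eq.mp (u.isUnit.map (Algebra.norm ℤ))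
  rw [map_mul, Int.natAbs_mul, h, one_mul]

theorem phi_emb_le_one {s : ℝ} (hs : 1 ≤ s) (x : 𝓞 K) : phi s (emb x) ≤ 1 := by
  by_cases h : (Algebra.norm ℤ x).natAbs = 0
  · rw [phi_eq_zero_of_norm_eq_zero (by linarith) (by rw [norm_emb, h, Nat.cast_zero])]
    exact zero_le_one
  · refine (mul_le_of_le_one_left (Real.rpow_nonneg (mixedEmbedding.norm_nonneg _) _)
      (weight_le_one _)).trans ?_
    rw [norm_emb]
    refine Real.rpow_le_one_of_one_le_of_nonpos ?_ (by linarith)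
    exact_mod_cast Nat.one_le_iff_ne_zero.mpr h

theorem norm_emb_ne_zero {x : 𝓞 K} (hx : x ≠ 0) : mixedEmbedding.norm (emb x) ≠ 0 := by
  rw [norm_emb, Nat.cast_ne_zero, ne_eq, Int.natAbs_eq_zero, Algebra.norm_eq_zero_iff]
  exact hx

variable (K)

/-- Nonzero principal ideals. -/
abbrev PrincipalIdeals := {P : (Ideal (𝓞 K))⁰ // (P : Ideal (𝓞 K)).IsPrincipal}

variable {K}

/-- A chosen generator. -/
def principalGen (P : PrincipalIdeals K) : 𝓞 K :=
  @Submodule.IsPrincipal.generator _ _ _ _ _ (P.1 : Ideal (𝓞 K)) P.2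

omit [NumberField K] in
theorem span_principalGen (P : PrincipalIdeals K) :
    Ideal.span {principalGen P} = (P.1 : Ideal (𝓞 K)) :=
  @Ideal.span_singleton_generator _ _ (P.1 : Ideal (𝓞 K)) P.2

omit [NumberField K] in
theorem principalGen_ne_zero (P : PrincipalIdeals K) : principalGen P ≠ 0 := by
  intro h
  have := span_principalGen P
  rw [h, Ideal.span_singleton_eq_bot.mpr rfl] at this
  exact nonZeroDivisors.coe_ne_zero P.1 this.symm

omit [NumberField K] in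
theorem principalGen_mul_injective :
    Function.Injective (fun x : PrincipalIdeals K × (𝓞 K)ˣ => (x.2 : 𝓞 K) * principalGen x.1) := by
  rintro ⟨P, u⟩ ⟨Q, v⟩ h
  simp only at h
  have hPQ : P = Q := by
    refine Subtype.ext (Subtype.ext ?_)
    rw [← span_principalGen P, ← span_principalGen Q,
      ← Ideal.span_singleton_mul_left_unit u.isUnit (principalGen P), h,
      Ideal.span_singleton_mul_left_unit v.isUnit (principalGen Q)]
  subst hPQ
  exact Prod.ext rfl (Units.ext (mul_right_cancel₀ (principalGen_ne_zero P) h))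

omit [NumberField K] in
theorem exists_principalGen_mul {x : 𝓞 K} (hx : x ≠ 0) :
    ∃ (P : PrincipalIdeals K) (u : (𝓞 K)ˣ), x = (u : 𝓞 K) * principalGen P := by
  let P : PrincipalIdeals K :=
    ⟨⟨Ideal.span {x}, mem_nonZeroDivisors_of_ne_zero (by simpa using hx)⟩, ⟨⟨x, rfl⟩⟩⟩
  obtain ⟨u, hu⟩ := Ideal.span_singleton_eq_span_singleton.mp (span_principalGen P)
  exact ⟨P, u, by rw [← hu, mul_comm]⟩

/-- The sum over the elements, unfolded along principal ideals and units. -/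
theorem hasSum_phi_mul {s : ℝ} (hs : 1 < s) (F : 𝓞 K → ℂ) (hF : ∀ x, ‖F x‖ ≤ 1)
    (hu : ∀ (u : (𝓞 K)ˣ) (x : 𝓞 K), F ((u : 𝓞 K) * x) = F x) :
    HasSum (fun x : 𝓞 K => (phi s (emb x) : ℂ) * F x)
      ((torsionOrder K : ℂ) * ∑' P : PrincipalIdeals K,
        F (principalGen P) * (((Ideal.absNorm (P.1 : Ideal (𝓞 K)) : ℝ) ^ (-s) : ℝ) : ℂ)) := by
  have hs0 : s ≠ 0 := by linarith
  rw [← principalGen_mul_injective.hasSum_iff (f := fun x : 𝓞 K => (phi s (emb x) : ℂ) * F x)]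
  swap
  · intro x hx
    rcases eq_or_ne x 0 with rfl | hx0
    · simp [emb, phi_zero hs0]
    · obtain ⟨P, u, rfl⟩ := exists_principalGen_mul hx0
      exact absurd ⟨(P, u), rfl⟩ hx
  have hN : ∀ P : PrincipalIdeals K, mixedEmbedding.norm (emb (principalGen P)) =
      (Ideal.absNorm (P.1 : Ideal (𝓞 K)) : ℝ) := fun P => by
    rw [norm_emb, ← Ideal.absNorm_span_singleton, span_principalGen]
  have hterm : ∀ (P : PrincipalIdeals K) (u : (𝓞 K)ˣ),
      phi s (emb ((u : 𝓞 K) * principalGen P)) =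
        weight (u • emb (principalGen P)) * (Ideal.absNorm (P.1 : Ideal (𝓞 K)) : ℝ) ^ (-s) := by
    intro P u
    rw [emb_units_mul, phi, norm_unit_smul, hN]
  have hW : ∀ P : PrincipalIdeals K,
      HasSum (fun u : (𝓞 K)ˣ => weight (u • emb (principalGen P))) (torsionOrder K : ℝ) :=
    fun P => hasSum_weight_smul (norm_emb_ne_zero (principalGen_ne_zero P))
  have hsum : Summable fun x : PrincipalIdeals K × (𝓞 K)ˣ =>
      phi s (emb ((x.2 : 𝓞 K) * principalGen x.1)) := by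
    refine (summable_prod_of_nonneg fun x => phi_nonneg _ _).mpr ⟨fun P => ?_, ?_⟩
    · simp only [hterm]
      exact (hW P).summable.mul_right _
    · simp only [hterm, tsum_mul_right, (hW _).tsum_eq]
      exact ((summable_absNorm_rpow hs).comp_injective Subtype.val_injective).mul_left _
  have hsumC : Summable fun x : PrincipalIdeals K × (𝓞 K)ˣ =>
      (phi s (emb ((x.2 : 𝓞 K) * principalGen x.1)) : ℂ) * F ((x.2 : 𝓞 K) * principalGen x.1) := by
    refine Summable.of_norm_bounded hsum fun x => ?_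
    rw [norm_mul, Complex.norm_real, Real.norm_of_nonneg (phi_nonneg _ _)]
    exact mul_le_of_le_one_right (phi_nonneg _ _) (hF _)
  convert hsumC.hasSum using 1
  · rfl
  rw [hsumC.tsum_prod, ← tsum_mul_left]
  refine tsum_congr fun P => ?_
  simp only [hterm, hu, tsum_mul_right, Complex.ofReal_mul]
  rw [← Complex.ofReal_tsum, (hW P).tsum_eq, Complex.ofReal_natCast]
  ring

theorem summable_phi_emb {s : ℝ} (hs : 1 < s) : Summable fun x : 𝓞 K => phi s (emb x) := by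
  have h := (hasSum_phi_mul (K := K) hs (fun _ => 1) (fun _ => by simp) (fun _ _ => rfl)).summable
  simp only [mul_one] at h
  exact Complex.summable_ofReal.mp h

/-- Integral representative of the inverse of an ideal class. -/
def invRep (C : ClassGroup (𝓞 K)) : (Ideal (𝓞 K))⁰ := (ClassGroup.mk0_surjective C⁻¹).choose

theorem mk0_invRep (C : ClassGroup (𝓞 K)) : ClassGroup.mk0 (invRep C) = C⁻¹ :=
  (ClassGroup.mk0_surjective C⁻¹).choose_spec

/-- The weight on elements coming from a class. -/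
def classWeight (w : ℕ → ℂ) (C : ClassGroup (𝓞 K)) (x : 𝓞 K) : ℂ :=
  if x ∈ (invRep C : Ideal (𝓞 K)) then
    w ((Algebra.norm ℤ x).natAbs / Ideal.absNorm (invRep C : Ideal (𝓞 K))) else 0

theorem norm_classWeight_le {w : ℕ → ℂ} (hw : ∀ n, ‖w n‖ ≤ 1) (C : ClassGroup (𝓞 K)) (x : 𝓞 K) :
    ‖classWeight w C x‖ ≤ 1 := by
  unfold classWeight
  split_ifs
  · exact hw _
  · simp

/-- The lattice sum of a unit invariant weight supported on an ideal `J` is a sum over the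
ideals `I` of the class inverse to that of `J`, weighted by the value at a generator of `J I`. -/
theorem latticeSum_eq_classSum {s : ℝ} (hs : 1 < s) {C : ClassGroup (𝓞 K)} {J : (Ideal (𝓞 K))⁰}
    (hJ : ClassGroup.mk0 J = C⁻¹) (g : 𝓞 K → ℂ) (hg : ∀ x, ‖g x‖ ≤ 1)
    (hu : ∀ (u : (𝓞 K)ˣ) (x : 𝓞 K), g ((u : 𝓞 K) * x) = g x)
    (hg0 : ∀ x, x ∉ (J : Ideal (𝓞 K)) → g x = 0) (v : (Ideal (𝓞 K))⁰ → ℂ)
    (hv : ∀ (I : (Ideal (𝓞 K))⁰) (x : 𝓞 K), x ≠ 0 →
      Ideal.span {x} = (J : Ideal (𝓞 K)) * (I : Ideal (𝓞 K)) → g x = v I) :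
    (((Ideal.absNorm (J : Ideal (𝓞 K)) : ℝ) ^ s : ℝ) : ℂ) *
        ∑' x : 𝓞 K, (phi s (emb x) : ℂ) * g x =
      (torsionOrder K : ℂ) * ∑' I : {I : (Ideal (𝓞 K))⁰ // ClassGroup.mk0 I = C},
        v I.1 * (((Ideal.absNorm (I.1 : Ideal (𝓞 K)) : ℝ) ^ (-s) : ℝ) : ℂ) := by
  rw [(hasSum_phi_mul hs _ hg hu).tsum_eq, mul_left_comm, ← tsum_mul_left]
  congr 1
  let ι : {I : (Ideal (𝓞 K))⁰ // ClassGroup.mk0 I = C} → PrincipalIdeals K := fun I =>
    ⟨J * I.1, by
      rw [← ClassGroup.mk0_eq_one_iff (J * I.1).2]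
      change ClassGroup.mk0 (J * I.1) = 1
      rw [map_mul, hJ, I.2, inv_mul_cancel]⟩
  have hι : Function.Injective ι := fun a b h =>
    Subtype.ext (mul_left_cancel (congrArg Subtype.val h))
  have hmem : ∀ P : PrincipalIdeals K, principalGen P ∈ (J : Ideal (𝓞 K)) → P ∈ Set.range ι := by
    intro P hP
    have hdvd : (J : Ideal (𝓞 K)) ∣ (P.1 : Ideal (𝓞 K)) := by
      rw [← span_principalGen P, Ideal.dvd_span_singleton]
      exact hP
    obtain ⟨I, hI⟩ := hdvd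
    have hI0 : I ≠ 0 := fun h => nonZeroDivisors.coe_ne_zero P.1 (by rw [hI, h, mul_zero])
    let I' : (Ideal (𝓞 K))⁰ := ⟨I, mem_nonZeroDivisors_of_ne_zero hI0⟩
    have hP1 : ClassGroup.mk0 P.1 = 1 := (ClassGroup.mk0_eq_one_iff P.1.2).mpr P.2
    have hJI : J * I' = P.1 := Subtype.ext hI.symm
    have hC : ClassGroup.mk0 I' = C := by
      rw [← hJI, map_mul, hJ, inv_mul_eq_one] at hP1
      exact hP1.symm
    exact ⟨⟨I', hC⟩, Subtype.ext hJI⟩
  rw [← hι.tsum_eq (f := fun P : PrincipalIdeals K => _ * (g (principalGen P) * _))]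
  swap
  · intro P hP
    by_contra hne
    refine hP ?_
    simp only [hg0 _ fun h => hne (hmem P h), zero_mul, mul_zero]
  refine tsum_congr fun I => ?_
  have hJ0 : Ideal.absNorm (J : Ideal (𝓞 K)) ≠ 0 := Ideal.absNorm_ne_zero_of_nonZeroDivisors J
  have hJI : Ideal.absNorm ((ι I).1 : Ideal (𝓞 K)) =
      Ideal.absNorm (J : Ideal (𝓞 K)) * Ideal.absNorm (I.1 : Ideal (𝓞 K)) := by
    rw [← map_mul]; rfl
  rw [hv I.1 _ (principalGen_ne_zero _) (span_principalGen (ι I)), hJI, Nat.cast_mul,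
    Real.mul_rpow (Nat.cast_nonneg _) (Nat.cast_nonneg _)]
  have h1 : (((Ideal.absNorm (J : Ideal (𝓞 K)) : ℝ) ^ s : ℝ) : ℂ) *
      (((Ideal.absNorm (J : Ideal (𝓞 K)) : ℝ) ^ (-s) : ℝ) : ℂ) = 1 := by
    rw [← Complex.ofReal_mul, ← Real.rpow_add (Nat.cast_pos.mpr (Nat.pos_of_ne_zero hJ0)),
      add_neg_cancel, Real.rpow_zero, Complex.ofReal_one]
  rw [Complex.ofReal_mul]
  linear_combination (v I.1 *
    (((Ideal.absNorm (I.1 : Ideal (𝓞 K)) : ℝ) ^ (-s) : ℝ) : ℂ)) * h1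

theorem classSum_eq {w : ℕ → ℂ} (hw : ∀ n, ‖w n‖ ≤ 1) {s : ℝ} (hs : 1 < s)
    (C : ClassGroup (𝓞 K)) :
    (torsionOrder K : ℂ) * classSum K C w s =
      (((Ideal.absNorm (invRep C : Ideal (𝓞 K)) : ℝ) ^ s : ℝ) : ℂ) *
        ∑' x : 𝓞 K, (phi s (emb x) : ℂ) * classWeight w C x := by
  have hu : ∀ (u : (𝓞 K)ˣ) (x : 𝓞 K),
      classWeight w C ((u : 𝓞 K) * x) = classWeight w C x := by
    intro u x
    simp only [classWeight, natAbs_norm_units_mul, Ideal.unit_mul_mem_iff_mem _ u.isUnit]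
  refine (latticeSum_eq_classSum hs (mk0_invRep C) _ (norm_classWeight_le hw C) hu
    (fun x hx => if_neg hx) (fun I => w (Ideal.absNorm (I : Ideal (𝓞 K)))) fun I x _ hx => ?_).symm
  have hmem : x ∈ (invRep C : Ideal (𝓞 K)) :=
    Ideal.dvd_span_singleton.mp (hx ▸ dvd_mul_right _ _)
  rw [classWeight, if_pos hmem, ← Ideal.absNorm_span_singleton, hx, map_mul,
    Nat.mul_div_cancel_left _
      (Nat.pos_of_ne_zero (Ideal.absNorm_ne_zero_of_nonZeroDivisors _))]

section Periodic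

/-- An even periodic weight of period `M`. -/
structure IsEvenPeriodic (M : ℕ) (w : ℕ → ℂ) : Prop where
  norm_le : ∀ n, ‖w n‖ ≤ 1
  periodic : ∀ a b : ℤ, (M : ℤ) ∣ a - b → w a.natAbs = w b.natAbs

variable (K) in
/-- The common modulus for all the classes. -/
def commonMod (M : ℕ) : ℕ :=
  M * ∏ C : ClassGroup (𝓞 K), Ideal.absNorm (invRep C : Ideal (𝓞 K))

theorem commonMod_ne_zero {M : ℕ} (hM : M ≠ 0) : commonMod K M ≠ 0 :=
  Nat.mul_ne_zero hM (Finset.prod_ne_zero_iff.mpr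
    fun _ _ => Ideal.absNorm_ne_zero_of_nonZeroDivisors _)

theorem mul_absNorm_dvd_commonMod (M : ℕ) (C : ClassGroup (𝓞 K)) :
    M * Ideal.absNorm (invRep C : Ideal (𝓞 K)) ∣ commonMod K M := by
  rw [commonMod]
  exact mul_dvd_mul_left M (Finset.dvd_prod_of_mem _ (Finset.mem_univ C))

theorem dvd_norm_add_mul_sub (n : ℕ) (x y : 𝓞 K) :
    (n : ℤ) ∣ Algebra.norm ℤ (x + (n : 𝓞 K) * y) - Algebra.norm ℤ x := by
  let b := Module.Free.chooseBasis ℤ (𝓞 K)
  rw [← ZMod.intCast_zmod_eq_zero_iff_dvd, Int.cast_sub, Algebra.norm_eq_matrix_det b,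
    Algebra.norm_eq_matrix_det b, Int.cast_det, Int.cast_det, sub_eq_zero]
  congr 1
  rw [map_add, map_mul, map_natCast]
  ext i j
  simp [Matrix.add_apply, ← Matrix.diagonal_natCast, Matrix.diagonal_mul]

theorem classWeight_add_mul {M : ℕ} {w : ℕ → ℂ} (hw : IsEvenPeriodic M w) (C : ClassGroup (𝓞 K))
    (x y : 𝓞 K) :
    classWeight w C (x + (commonMod K M : 𝓞 K) * y) = classWeight w C x := by
  obtain ⟨k, hk⟩ := mul_absNorm_dvd_commonMod (K := K) M C
  set J : Ideal (𝓞 K) := (invRep C : Ideal (𝓞 K))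
  set N := commonMod K M
  have hN : (N : 𝓞 K) ∈ J := by
    have : ((Ideal.absNorm J : ℕ) : 𝓞 K) ∈ J := Ideal.absNorm_mem J
    rw [hk, Nat.cast_mul, Nat.cast_mul]
    exact Ideal.mul_mem_right _ _ (Ideal.mul_mem_left _ _ this)
  unfold classWeight
  rw [Ideal.add_mem_iff_left _ (Ideal.mul_mem_right _ _ hN)]
  split_ifs with hx
  swap; · rfl
  have hJ0 : (Ideal.absNorm J : ℤ) ≠ 0 := by
    exact_mod_cast Ideal.absNorm_ne_zero_of_nonZeroDivisors (invRep C)
  obtain ⟨a, ha⟩ := Ideal.absNorm_dvd_norm_of_mem (show x + (N : 𝓞 K) * y ∈ J from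
    Ideal.add_mem _ hx (Ideal.mul_mem_right _ _ hN))
  obtain ⟨b, hb⟩ := Ideal.absNorm_dvd_norm_of_mem hx
  rw [ha, hb, Int.natAbs_mul, Int.natAbs_mul, Int.natAbs_natCast,
    Nat.mul_div_cancel_left _ (by exact_mod_cast Nat.pos_of_ne_zero (by exact_mod_cast hJ0)),
    Nat.mul_div_cancel_left _ (by exact_mod_cast Nat.pos_of_ne_zero (by exact_mod_cast hJ0))]
  refine hw.periodic a b ?_
  obtain ⟨c, hc⟩ := dvd_norm_add_mul_sub N x y
  rw [ha, hb, hk] at hc
  refine ⟨(k : ℤ) * c, mul_left_cancel₀ hJ0 ?_⟩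
  push_cast at hc
  linear_combination hc

variable (K)

/-- Representatives of residues modulo `N` give a bijection. -/
def residueEquiv (N : ℕ) (hN : N ≠ 0) :
    (𝓞 K ⧸ Ideal.span {(N : 𝓞 K)}) × 𝓞 K ≃ 𝓞 K := by
  refine Equiv.ofBijective (fun p => Quotient.out p.1 + (N : 𝓞 K) * p.2) ⟨?_, ?_⟩
  · rintro ⟨a, y⟩ ⟨b, z⟩ h
    have hab : a = b := by
      have h1 := congrArg (Ideal.Quotient.mk (Ideal.span {(N : 𝓞 K)})) h
      simpa [map_add, map_mul, Ideal.Quotient.eq_zero_iff_mem.mpr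
        (Ideal.mem_span_singleton_self (N : 𝓞 K))] using h1
    subst hab
    simp only [add_right_inj] at h
    exact Prod.ext rfl (mul_left_cancel₀ (Nat.cast_ne_zero.mpr hN) h)
  · intro x
    let a := Ideal.Quotient.mk (Ideal.span {(N : 𝓞 K)}) x
    have : x - Quotient.out a ∈ Ideal.span {(N : 𝓞 K)} := by
      rw [← Ideal.Quotient.eq]
      exact (Ideal.Quotient.mk_out a).symm
    obtain ⟨y, hy⟩ := Ideal.mem_span_singleton.mp this
    exact ⟨(a, y), by simp only [← hy]; ring⟩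

theorem residueEquiv_apply (N : ℕ) (hN : N ≠ 0) (p : (𝓞 K ⧸ Ideal.span {(N : 𝓞 K)}) × 𝓞 K) :
    residueEquiv K N hN p = Quotient.out p.1 + (N : 𝓞 K) * p.2 := rfl

/-- The lattice sum attached to a translate. -/
def transSum (N : ℕ) (b : 𝓞 K) (s : ℝ) : ℝ := ∑' y : 𝓞 K, phi s (emb (b + (N : 𝓞 K) * y))

variable {K}

theorem summable_transSum {N : ℕ} (hN : N ≠ 0) (b : 𝓞 K) {s : ℝ} (hs : 1 < s) :
    Summable fun y : 𝓞 K => phi s (emb (b + (N : 𝓞 K) * y)) :=
  (summable_phi_emb hs).comp_injective fun _ _ h =>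
    mul_left_cancel₀ (Nat.cast_ne_zero.mpr hN) (add_left_cancel h)

theorem finite_residues {N : ℕ} (hN : N ≠ 0) : Finite (𝓞 K ⧸ Ideal.span {(N : 𝓞 K)}) :=
  Ideal.finiteQuotientOfFreeOfNeBot _
    (by simpa [Ideal.span_singleton_eq_bot] using hN)

theorem classSum_eq_sum_transSum {M : ℕ} (hM : M ≠ 0) {w : ℕ → ℂ} (hw : IsEvenPeriodic M w)
    {s : ℝ} (hs : 1 < s) (C : ClassGroup (𝓞 K))
    [Fintype (𝓞 K ⧸ Ideal.span {(commonMod K M : 𝓞 K)})] :
    (torsionOrder K : ℂ) * classSum K C w s =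
      (((Ideal.absNorm (invRep C : Ideal (𝓞 K)) : ℝ) ^ s : ℝ) : ℂ) *
        ∑ a : 𝓞 K ⧸ Ideal.span {(commonMod K M : 𝓞 K)},
          classWeight w C (Quotient.out a) *
          (transSum K (commonMod K M) (Quotient.out a) s : ℂ) := by
  have hN : (commonMod K M) ≠ 0 := commonMod_ne_zero hM
  rw [classSum_eq hw.norm_le hs C]
  congr 1
  have hsum : Summable fun x : 𝓞 K => (phi s (emb x) : ℂ) * classWeight w C x := by
    refine Summable.of_norm_bounded (summable_phi_emb hs) fun x => ?_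
    rw [norm_mul, Complex.norm_real, Real.norm_of_nonneg (phi_nonneg _ _)]
    exact mul_le_of_le_one_right (phi_nonneg _ _) (norm_classWeight_le hw.norm_le C x)
  have hsum' := (residueEquiv K (commonMod K M) hN).summable_iff.mpr hsum
  rw [← (residueEquiv K (commonMod K M) hN).tsum_eq]
  refine (hsum'.tsum_prod' (fun a => ?_)).trans ?_
  swap
  · rw [tsum_fintype]
    refine Finset.sum_congr rfl fun a _ => ?_
    simp only [Function.comp_apply, residueEquiv_apply, classWeight_add_mul hw]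
    rw [tsum_mul_right, transSum, Complex.ofReal_tsum, mul_comm]
  · exact hsum'.prod_factor a

theorem summable_norm_emb_rpow {N : ℕ} (hN : N ≠ 0) :
    Summable fun y : 𝓞 K =>
      ‖emb ((N : 𝓞 K) * y)‖ ^ (-((finrank ℚ K : ℝ) + 1)) := by
  have hL : Module.finrank ℤ (mixedEmbedding.integerLattice K) = finrank ℚ K := by
    rw [ZLattice.rank ℝ, mixedEmbedding.finrank]
  have h := ZLattice.summable_norm_rpow (mixedEmbedding.integerLattice K)
    (-((finrank ℚ K : ℝ) + 1)) (by rw [hL]; linarith)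
  exact h.comp_injective
    (i := fun y : 𝓞 K => (⟨emb ((N : 𝓞 K) * y), (N : 𝓞 K) * y, rfl⟩ :
      mixedEmbedding.integerLattice K))
    fun y z hyz => mul_left_cancel₀ (Nat.cast_ne_zero.mpr hN)
      (emb_injective (congrArg Subtype.val hyz))

theorem finite_norm_emb_lt {N : ℕ} (hN : N ≠ 0) (R : ℝ) :
    {y : 𝓞 K | ‖emb ((N : 𝓞 K) * y)‖ < R}.Finite := by
  have : DiscreteTopology (mixedEmbedding.integerLattice K).toAddSubgroup :=
    inferInstanceAs (DiscreteTopology (mixedEmbedding.integerLattice K))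
  have : DiscreteTopology ((mixedEmbedding.integerLattice K : Set (mixedSpace K)) : Type _) :=
    inferInstanceAs (DiscreteTopology (mixedEmbedding.integerLattice K))
  have hfin : ((mixedEmbedding.integerLattice K : Set (mixedSpace K)) ∩
      Metric.closedBall 0 R).Finite := by
    rw [Set.inter_comm]
    exact Metric.finite_isBounded_inter_isClosed DiscreteTopology.isDiscrete
      Metric.isBounded_closedBall (AddSubgroup.isClosed_of_discrete
        (H := (mixedEmbedding.integerLattice K).toAddSubgroup))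
  refine (hfin.preimage (f := fun y : 𝓞 K => emb ((N : 𝓞 K) * y))
    (fun y _ z _ h => mul_left_cancel₀ (Nat.cast_ne_zero.mpr hN) (emb_injective h))).subset ?_
  intro y hy
  exact ⟨⟨(N : 𝓞 K) * y, rfl⟩, by simpa [Metric.mem_closedBall] using hy.le⟩

theorem continuousAt_phi (v : mixedSpace K) : ContinuousAt (fun s => phi s v) 1 := by
  unfold phi
  refine continuousAt_const.mul ?_
  by_cases h : mixedEmbedding.norm v = 0
  · refine (continuousAt_const (y := (0 : ℝ))).congr ?_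
    filter_upwards [eventually_ne_nhds one_ne_zero] with s hs
    rw [h, Real.zero_rpow (neg_ne_zero.mpr hs)]
  · exact ContinuousAt.rpow continuousAt_const continuousAt_neg (Or.inl h)

/-- Differences of translated lattice sums have a limit at `1`. -/
theorem exists_tendsto_transSum_sub {N : ℕ} (hN : N ≠ 0) (b : 𝓞 K) :
    ∃ l : ℝ, Tendsto (fun s => transSum K N b s - transSum K N 0 s) (𝓝[>] 1) (𝓝 l) := by
  obtain ⟨C, R, hR, hCR⟩ := exists_abs_phi_add_sub_le (emb b)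
  let g : ℝ → 𝓞 K → ℝ := fun s y =>
    phi s (emb (b + (N : 𝓞 K) * y)) - phi s (emb ((N : 𝓞 K) * y))
  let bound : 𝓞 K → ℝ := fun y =>
    |C| * ‖emb ((N : 𝓞 K) * y)‖ ^ (-((finrank ℚ K : ℝ) + 1)) +
      {y : 𝓞 K | ‖emb ((N : 𝓞 K) * y)‖ < R}.indicator (fun _ => 2) y
  have hbound : Summable bound :=
    ((summable_norm_emb_rpow hN).mul_left _).add
      (summable_of_hasFiniteSupport ((finite_norm_emb_lt hN R).subset Set.support_indicator_subset))
  have hev : ∀ᶠ s : ℝ in 𝓝[>] 1, 1 < s ∧ s ≤ 2 := by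
    filter_upwards [Ioc_mem_nhdsGT (show (1 : ℝ) < 2 by norm_num)] with s hs using hs
  refine ⟨∑' y, g 1 y, ?_⟩
  have h := tendsto_tsum_of_dominated_convergence (f := g) (g := g 1) (𝓕 := 𝓝[>] (1 : ℝ)) hbound
    (fun y => ?_) ?_
  · refine h.congr' ?_
    filter_upwards [hev] with s hs
    rw [transSum, transSum, ← Summable.tsum_sub (summable_transSum hN b hs.1)
      (summable_transSum hN 0 hs.1)]
    exact tsum_congr fun y => by simp [g]
  · refine tendsto_nhdsWithin_of_tendsto_nhds (ContinuousAt.tendsto (x := (1 : ℝ)) ?_)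
    exact (continuousAt_phi _).sub (continuousAt_phi _)
  · filter_upwards [hev] with s hs y
    rw [Real.norm_eq_abs]
    by_cases hy : ‖emb ((N : 𝓞 K) * y)‖ < R
    · refine le_add_of_nonneg_of_le (mul_nonneg (abs_nonneg _)
        (Real.rpow_nonneg (norm_nonneg _) _)) ?_
      rw [Set.indicator_of_mem (show y ∈ {y : 𝓞 K | ‖emb ((N : 𝓞 K) * y)‖ < R} from hy)]
      refine (abs_sub _ _).trans ?_
      rw [abs_of_nonneg (phi_nonneg _ _), abs_of_nonneg (phi_nonneg _ _)]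
      linarith [phi_emb_le_one hs.1.le (b + (N : 𝓞 K) * y),
        phi_emb_le_one hs.1.le ((N : 𝓞 K) * y)]
    · refine le_add_of_le_of_nonneg ?_ (Set.indicator_nonneg (fun _ _ => zero_le_two) _)
      simp only [g, emb_add, add_comm (emb b)]
      refine (hCR _ (not_lt.mp hy) s ⟨hs.1.le, hs.2⟩).trans ?_
      rw [Real.rpow_neg (norm_nonneg _), ← Nat.cast_add_one, Real.rpow_natCast, ← div_eq_mul_inv]
      gcongr
      exact le_abs_self C

/-- Evaluation at `1` of the main coefficient of a class. -/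
def classCoeff (M : ℕ) (w : ℕ → ℂ) (C : ClassGroup (𝓞 K))
    [Fintype (𝓞 K ⧸ Ideal.span {(commonMod K M : 𝓞 K)})] (s : ℝ) : ℂ :=
  (torsionOrder K : ℂ)⁻¹ *
    ((((Ideal.absNorm (invRep C : Ideal (𝓞 K)) : ℝ) ^ s : ℝ) : ℂ) *
      ∑ a : 𝓞 K ⧸ Ideal.span {(commonMod K M : 𝓞 K)}, classWeight w C (Quotient.out a))

theorem exists_tendsto_classSum_sub {M : ℕ} (hM : M ≠ 0) {w : ℕ → ℂ} (hw : IsEvenPeriodic M w)
    (C : ClassGroup (𝓞 K)) [Fintype (𝓞 K ⧸ Ideal.span {(commonMod K M : 𝓞 K)})] :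
    ∃ l : ℂ, Tendsto (fun s => classSum K C w s -
      classCoeff M w C s * (transSum K (commonMod K M) 0 s : ℂ)) (𝓝[>] 1) (𝓝 l) := by
  have hN : (commonMod K M) ≠ 0 := commonMod_ne_zero hM
  choose l hl using fun a : 𝓞 K ⧸ Ideal.span {((commonMod K M) : 𝓞 K)} =>
    exists_tendsto_transSum_sub hN (Quotient.out a)
  refine ⟨(torsionOrder K : ℂ)⁻¹ *
    ((((Ideal.absNorm (invRep C : Ideal (𝓞 K)) : ℝ) ^ (1 : ℝ) : ℝ) : ℂ) *
      ∑ a : 𝓞 K ⧸ Ideal.span {((commonMod K M) : 𝓞 K)},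
        classWeight w C (Quotient.out a) * (l a : ℂ)), ?_⟩
  have hpow : Tendsto (fun s : ℝ => (((Ideal.absNorm (invRep C : Ideal (𝓞 K)) : ℝ) ^ s : ℝ) : ℂ))
      (𝓝[>] 1) (𝓝 ((((Ideal.absNorm (invRep C : Ideal (𝓞 K)) : ℝ) ^ (1 : ℝ) : ℝ) : ℂ))) := by
    refine tendsto_nhdsWithin_of_tendsto_nhds (ContinuousAt.tendsto (x := (1 : ℝ)) ?_)
    exact Complex.continuous_ofReal.continuousAt.comp
      (Real.continuousAt_const_rpow
        (Nat.cast_ne_zero.mpr (Ideal.absNorm_ne_zero_of_nonZeroDivisors _)))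
  have := (hpow.mul (tendsto_finsetSum Finset.univ fun a _ =>
    ((Complex.continuous_ofReal.tendsto _).comp (hl a)).const_mul
      (classWeight w C (Quotient.out a)))).const_mul (torsionOrder K : ℂ)⁻¹
  refine this.congr' ?_
  filter_upwards [self_mem_nhdsWithin] with s hs
  have hT : (torsionOrder K : ℂ) ≠ 0 := Nat.cast_ne_zero.mpr (torsionOrder_ne_zero K)
  rw [← inv_mul_cancel_left₀ hT (classSum K C w s), classSum_eq_sum_transSum hM hw hs C,
    classCoeff]
  simp only [Function.comp_apply, Complex.ofReal_sub, mul_sub, Finset.sum_sub_distrib,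
    ← Finset.sum_mul]
  ring

theorem exists_idealSum_decomp {M : ℕ} (hM : M ≠ 0) {w : ℕ → ℂ} (hw : IsEvenPeriodic M w)
    [Fintype (𝓞 K ⧸ Ideal.span {(commonMod K M : 𝓞 K)})] :
    ∃ l : ℂ, Tendsto (fun s => idealSum K w s -
      (∑ C : ClassGroup (𝓞 K), classCoeff M w C s) * (transSum K (commonMod K M) 0 s : ℂ))
      (𝓝[>] 1) (𝓝 l) := by
  choose l hl using fun C : ClassGroup (𝓞 K) => exists_tendsto_classSum_sub hM hw C
  refine ⟨∑ C, l C, (tendsto_finsetSum Finset.univ fun C _ => hl C).congr' ?_⟩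
  filter_upwards [self_mem_nhdsWithin] with s hs
  rw [idealSum_eq_sum_classSum hw.norm_le hs, Finset.sum_sub_distrib, Finset.sum_mul]

theorem tendsto_ofReal_sub_one :
    Tendsto (fun s : ℝ => ((s - 1 : ℝ) : ℂ)) (𝓝[>] 1) (𝓝 0) := by
  have : Tendsto (fun s : ℝ => ((s - 1 : ℝ) : ℂ)) (𝓝 1) (𝓝 ((1 - 1 : ℝ) : ℂ)) :=
    (Complex.continuous_ofReal.comp (continuous_id.sub continuous_const)).tendsto 1
  rw [sub_self, Complex.ofReal_zero] at this
  exact tendsto_nhdsWithin_of_tendsto_nhds this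

theorem tendsto_sub_one_mul_of_tendsto_sub {f g : ℝ → ℂ} {l : ℂ}
    (h : Tendsto (fun s => f s - g s) (𝓝[>] 1) (𝓝 l)) {k : ℂ}
    (hg : Tendsto (fun s : ℝ => ((s - 1 : ℝ) : ℂ) * g s) (𝓝[>] 1) (𝓝 k)) :
    Tendsto (fun s : ℝ => ((s - 1 : ℝ) : ℂ) * f s) (𝓝[>] 1) (𝓝 k) := by
  have := hg.add (tendsto_ofReal_sub_one.mul h)
  rw [zero_mul, add_zero] at this
  exact this.congr fun s => by ring

theorem continuous_classCoeff (M : ℕ) (w : ℕ → ℂ) (C : ClassGroup (𝓞 K))
    [Fintype (𝓞 K ⧸ Ideal.span {(commonMod K M : 𝓞 K)})] :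
    Differentiable ℝ (classCoeff M w C) := by
  unfold classCoeff
  refine ((Differentiable.mul_const ?_ _).const_mul _)
  exact Complex.ofRealCLM.differentiable.comp fun x => (Real.hasStrictDerivAt_const_rpow
    (Nat.cast_pos.mpr (Ideal.absNorm_pos_of_nonZeroDivisors _)) x).hasDerivAt.differentiableAt

theorem classCoeff_one (M : ℕ) (C : ClassGroup (𝓞 K))
    [Fintype (𝓞 K ⧸ Ideal.span {(commonMod K M : 𝓞 K)})] :
    classCoeff M (fun _ => 1) C 1 =
      (torsionOrder K : ℂ)⁻¹ * (Nat.card (𝓞 K ⧸ Ideal.span {(commonMod K M : 𝓞 K)}) : ℂ) := by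
  unfold classCoeff
  congr 1
  set J : Ideal (𝓞 K) := (invRep C : Ideal (𝓞 K))
  have hNJ : Ideal.span {((commonMod K M) : 𝓞 K)} ≤ J := by
    rw [Ideal.span_singleton_le_iff_mem]
    obtain ⟨k, hk⟩ := mul_absNorm_dvd_commonMod (K := K) M C
    rw [show (commonMod K M) = _ from hk, Nat.cast_mul, Nat.cast_mul]
    exact Ideal.mul_mem_right _ _ (Ideal.mul_mem_left _ _ (Ideal.absNorm_mem J))
  let π : (𝓞 K ⧸ Ideal.span {((commonMod K M) : 𝓞 K)}) →+* 𝓞 K ⧸ J := Ideal.Quotient.factor hNJ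
  have hiff : ∀ a : 𝓞 K ⧸ Ideal.span {((commonMod K M) : 𝓞 K)},
      Quotient.out a ∈ J ↔ a ∈ (RingHom.ker π).toAddSubgroup := fun a => by
    rw [Submodule.mem_toAddSubgroup, RingHom.mem_ker]
    have h := congrArg π (Ideal.Quotient.mk_out a)
    simp only [π, Ideal.Quotient.factor_mk] at h
    rw [← h, Ideal.Quotient.eq_zero_iff_mem]
  simp only [classWeight]
  simp only [show (invRep C : Ideal (𝓞 K)) = J from rfl, hiff]
  rw [← Finset.sum_filter, Finset.sum_const, nsmul_eq_mul, mul_one, Real.rpow_one,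
    Complex.ofReal_natCast, ← Nat.cast_mul]
  congr 1
  rw [AddSubgroup.card_eq_card_quotient_mul_card_addSubgroup (RingHom.ker π).toAddSubgroup,
    Nat.card_eq_fintype_card (α := (RingHom.ker π).toAddSubgroup), Fintype.card_subtype]
  congr 1
  rw [Ideal.absNorm_apply, Submodule.cardQuot_apply]
  exact (Nat.card_congr (RingHom.quotientKerEquivOfSurjective
    (Ideal.Quotient.factor_surjective hNJ)).toEquiv).symm

theorem exists_tendsto_transSum {M : ℕ} (hM : M ≠ 0)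
    [Fintype (𝓞 K ⧸ Ideal.span {(commonMod K M : 𝓞 K)})] :
    ∃ κ : ℝ, 0 < κ ∧
      Tendsto (fun s : ℝ => ((s - 1 : ℝ) : ℂ) * (transSum K (commonMod K M) 0 s : ℂ))
        (𝓝[>] 1) (𝓝 (κ : ℂ)) := by
  have hw : IsEvenPeriodic M (fun _ => (1 : ℂ)) := ⟨fun _ => by simp, fun _ _ _ => rfl⟩
  obtain ⟨l, hl⟩ := exists_idealSum_decomp (K := K) hM hw
  have h1 : Tendsto (fun s : ℝ => ((s - 1 : ℝ) : ℂ) * idealSum K (fun _ => 1) s) (𝓝[>] 1)
      (𝓝 (dedekindZeta_residue K : ℂ)) := by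
    refine (tendsto_sub_one_mul_dedekindZeta_nhdsGT K).congr' ?_
    filter_upwards [self_mem_nhdsWithin] with s hs
    rw [idealSum_one_eq_dedekindZeta hs, Complex.ofReal_sub, Complex.ofReal_one]
  have h2 : Tendsto (fun s : ℝ => ((s - 1 : ℝ) : ℂ) *
      ((∑ C : ClassGroup (𝓞 K), classCoeff M (fun _ => 1) C s) *
        (transSum K (commonMod K M) 0 s : ℂ))) (𝓝[>] 1) (𝓝 (dedekindZeta_residue K : ℂ)) := by
    refine tendsto_sub_one_mul_of_tendsto_sub (l := -l) ?_ h1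
    simpa [neg_sub] using hl.neg
  have hc : Tendsto (fun s : ℝ => ∑ C : ClassGroup (𝓞 K), classCoeff M (fun _ => 1) C s)
      (𝓝[>] 1) (𝓝 (∑ C : ClassGroup (𝓞 K), classCoeff M (fun _ => 1) C 1)) :=
    tendsto_nhdsWithin_of_tendsto_nhds (tendsto_finsetSum _ fun C _ =>
      (continuous_classCoeff M _ C).continuous.tendsto 1)
  set t : ℝ := (classNumber K : ℝ) * ((torsionOrder K : ℝ)⁻¹ *
    (Nat.card (𝓞 K ⧸ Ideal.span {(commonMod K M : 𝓞 K)}) : ℝ))
  have hc1 : (∑ C : ClassGroup (𝓞 K), classCoeff M (fun _ => 1) C 1) = (t : ℂ) := by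
    simp [classCoeff_one, t, classNumber]
  have ht : 0 < t := by
    refine mul_pos (Nat.cast_pos.mpr (classNumber_pos K))
      (mul_pos (inv_pos.mpr (Nat.cast_pos.mpr (torsionOrder_pos K))) (Nat.cast_pos.mpr ?_))
    exact Nat.card_pos
  rw [hc1] at hc
  refine ⟨dedekindZeta_residue K / t, div_pos (dedekindZeta_residue_pos K) ht, ?_⟩
  have hne : ((t : ℝ) : ℂ) ≠ 0 := Complex.ofReal_ne_zero.mpr ht.ne'
  rw [Complex.ofReal_div]
  refine (h2.div hc hne).congr' ?_
  filter_upwards [hc.eventually_ne hne] with s hs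
  rw [Pi.div_apply, mul_left_comm, mul_div_cancel_left₀ _ hs]

/-- If `(s - 1) L(s) → 0` then `L` has a finite limit at `1`. -/
theorem exists_tendsto_idealSum {M : ℕ} (hM : M ≠ 0) {w : ℕ → ℂ} (hw : IsEvenPeriodic M w)
    (h0 : Tendsto (fun s : ℝ => ((s - 1 : ℝ) : ℂ) * idealSum K w s) (𝓝[>] 1) (𝓝 0)) :
    ∃ L : ℂ, Tendsto (idealSum K w) (𝓝[>] 1) (𝓝 L) := by
  have := finite_residues (K := K) (commonMod_ne_zero (K := K) hM)
  have : Fintype (𝓞 K ⧸ Ideal.span {(commonMod K M : 𝓞 K)}) := Fintype.ofFinite _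
  obtain ⟨l, hl⟩ := exists_idealSum_decomp (K := K) hM hw
  obtain ⟨κ, hκ, hT⟩ := exists_tendsto_transSum (K := K) hM
  set c : ℝ → ℂ := fun s => ∑ C : ClassGroup (𝓞 K), classCoeff M w C s with hc
  have hcd : Differentiable ℝ c := Differentiable.fun_sum fun C _ => continuous_classCoeff M w C
  have h2 : Tendsto (fun s : ℝ => ((s - 1 : ℝ) : ℂ) *
      (c s * (transSum K (commonMod K M) 0 s : ℂ))) (𝓝[>] 1) (𝓝 0) := by
    refine tendsto_sub_one_mul_of_tendsto_sub (l := -l) ?_ h0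
    simpa [neg_sub, hc] using hl.neg
  have hc1 : c 1 = 0 := by
    have h3 : Tendsto (fun s : ℝ => c s * (((s - 1 : ℝ) : ℂ) *
        (transSum K (commonMod K M) 0 s : ℂ))) (𝓝[>] 1) (𝓝 (c 1 * (κ : ℂ))) :=
      (tendsto_nhdsWithin_of_tendsto_nhds (hcd.continuous.tendsto 1)).mul hT
    have := tendsto_nhds_unique (h3.congr fun s => by ring) h2
    exact (mul_eq_zero.mp this).resolve_right (Complex.ofReal_ne_zero.mpr hκ.ne')
  have hslope : Tendsto (slope c 1) (𝓝[>] 1) (𝓝 (deriv c 1)) :=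
    ((hasDerivAt_iff_tendsto_slope.mp (hcd 1).hasDerivAt)).mono_left
      (nhdsWithin_mono _ fun x hx => ne_of_gt hx)
  refine ⟨l + deriv c 1 * (κ : ℂ), (hl.add (hslope.mul hT)).congr' ?_⟩
  filter_upwards [self_mem_nhdsWithin] with s hs
  have hne : ((s - 1 : ℝ) : ℂ) ≠ 0 := Complex.ofReal_ne_zero.mpr (sub_ne_zero.mpr (ne_of_gt hs))
  rw [slope_def_module, hc1, sub_zero, Complex.real_smul, Complex.ofReal_inv, hc]
  field_simp
  ring

/-- For a nonnegative weight with `w 1 = 1` the sum has a simple pole at `1`. -/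
theorem exists_pos_tendsto_sub_one_mul_idealSum {M : ℕ} (hM : M ≠ 0) {w : ℕ → ℝ}
    (hw : IsEvenPeriodic M (fun n => (w n : ℂ))) (hw0 : ∀ n, 0 ≤ w n) (hw1 : w 1 = 1) :
    ∃ κ : ℝ, 0 < κ ∧ Tendsto (fun s : ℝ => ((s - 1 : ℝ) : ℂ) * idealSum K (fun n => (w n : ℂ)) s)
      (𝓝[>] 1) (𝓝 (κ : ℂ)) := by
  have := finite_residues (K := K) (commonMod_ne_zero (K := K) hM)
  have : Fintype (𝓞 K ⧸ Ideal.span {(commonMod K M : 𝓞 K)}) := Fintype.ofFinite _
  obtain ⟨l, hl⟩ := exists_idealSum_decomp (K := K) hM hw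
  obtain ⟨κ, hκ, hT⟩ := exists_tendsto_transSum (K := K) hM
  let S : ClassGroup (𝓞 K) → ℝ := fun C =>
    ∑ a : 𝓞 K ⧸ Ideal.span {(commonMod K M : 𝓞 K)},
      if Quotient.out a ∈ (invRep C : Ideal (𝓞 K)) then
        w ((Algebra.norm ℤ (Quotient.out a)).natAbs / Ideal.absNorm (invRep C : Ideal (𝓞 K)))
      else 0
  let t : ℝ := ∑ C : ClassGroup (𝓞 K),
    (torsionOrder K : ℝ)⁻¹ * ((Ideal.absNorm (invRep C : Ideal (𝓞 K)) : ℝ) * S C)
  have hS : ∀ C, 0 ≤ S C := fun C => Finset.sum_nonneg fun a _ => by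
    split_ifs
    · exact hw0 _
    · exact le_rfl
  have hterm : ∀ C, classCoeff M (fun n => (w n : ℂ)) C 1 =
      (((torsionOrder K : ℝ)⁻¹ *
        ((Ideal.absNorm (invRep C : Ideal (𝓞 K)) : ℝ) * S C) : ℝ) : ℂ) := fun C => by
    simp only [classCoeff, classWeight, S, Real.rpow_one, Complex.ofReal_mul, Complex.ofReal_inv,
      Complex.ofReal_natCast, Complex.ofReal_sum]
    congr 2
    exact Finset.sum_congr rfl fun a _ => by split_ifs <;> simp
  have ht : 0 < t := by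
    set C := (ClassGroup.mk0 (1 : (Ideal (𝓞 K))⁰))
    set J : Ideal (𝓞 K) := (invRep C : Ideal (𝓞 K))
    have hJ : J.IsPrincipal := by
      rw [← ClassGroup.mk0_eq_one_iff (invRep C).2]
      change ClassGroup.mk0 (invRep C) = 1
      rw [mk0_invRep, show C = 1 from map_one _, inv_one]
    obtain ⟨g, hg⟩ := hJ
    have hg' : J = Ideal.span {g} := hg
    set a := Ideal.Quotient.mk (Ideal.span {(commonMod K M : 𝓞 K)}) g
    have hag : Quotient.out a - g ∈ Ideal.span {(commonMod K M : 𝓞 K)} := by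
      rw [← Ideal.Quotient.eq]
      exact Ideal.Quotient.mk_out a
    obtain ⟨y, hy⟩ := Ideal.mem_span_singleton.mp hag
    have hout : Quotient.out a = g + (commonMod K M : 𝓞 K) * y := by rw [← hy]; ring
    have h1 : classWeight (fun n => (w n : ℂ)) C (Quotient.out a) = ((1 : ℝ) : ℂ) := by
      rw [hout, classWeight_add_mul hw, classWeight,
        if_pos (show g ∈ J from hg' ▸ Ideal.mem_span_singleton_self g),
        ← Ideal.absNorm_span_singleton, ← hg',
        Nat.div_self (Ideal.absNorm_pos_of_nonZeroDivisors (invRep C)), hw1]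
    have hpos : 0 < S C := by
      refine Finset.sum_pos' (fun b _ => ?_) ⟨a, Finset.mem_univ a, ?_⟩
      · split_ifs
        · exact hw0 _
        · exact le_rfl
      · unfold classWeight at h1
        split_ifs at h1 ⊢ with h
        · rw [Complex.ofReal_inj.mp h1]; exact zero_lt_one
        · exact absurd h1.symm (by simp)
    refine Finset.sum_pos' (fun D _ => ?_) ⟨C, Finset.mem_univ C, ?_⟩
    · exact mul_nonneg (inv_nonneg.mpr (Nat.cast_nonneg _)) (mul_nonneg (Nat.cast_nonneg _) (hS D))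
    · exact mul_pos (inv_pos.mpr (Nat.cast_pos.mpr (torsionOrder_pos K)))
        (mul_pos (Nat.cast_pos.mpr (Ideal.absNorm_pos_of_nonZeroDivisors _)) hpos)
  refine ⟨t * κ, mul_pos ht hκ, tendsto_sub_one_mul_of_tendsto_sub hl ?_⟩
  have hc : Tendsto (fun s : ℝ => ∑ C : ClassGroup (𝓞 K), classCoeff M (fun n => (w n : ℂ)) C s)
      (𝓝[>] 1) (𝓝 (∑ C : ClassGroup (𝓞 K), classCoeff M (fun n => (w n : ℂ)) C 1)) :=
    tendsto_nhdsWithin_of_tendsto_nhds (tendsto_finsetSum _ fun C _ =>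
      (continuous_classCoeff M _ C).continuous.tendsto 1)
  simp only [hterm, ← Complex.ofReal_sum] at hc
  rw [Complex.ofReal_mul]
  exact (hc.mul hT).congr fun s => by ring

/-- Any two ideal classes have the same sum, up to a function with a finite limit at `1`. -/
theorem exists_tendsto_classSum_sub_classSum (C D : ClassGroup (𝓞 K)) :
    ∃ l : ℂ, Tendsto (fun s => classSum K C (fun _ => 1) s - classSum K D (fun _ => 1) s)
      (𝓝[>] 1) (𝓝 l) := by
  have := finite_residues (K := K) (commonMod_ne_zero (K := K) one_ne_zero)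
  have : Fintype (𝓞 K ⧸ Ideal.span {(commonMod K 1 : 𝓞 K)}) := Fintype.ofFinite _
  have hw : IsEvenPeriodic 1 (fun _ => (1 : ℂ)) := ⟨fun _ => by simp, fun _ _ _ => rfl⟩
  obtain ⟨l₁, h₁⟩ := exists_tendsto_classSum_sub one_ne_zero hw C
  obtain ⟨l₂, h₂⟩ := exists_tendsto_classSum_sub one_ne_zero hw D
  obtain ⟨κ, -, hT⟩ := exists_tendsto_transSum (K := K) one_ne_zero
  let c : ℝ → ℂ := fun s => classCoeff 1 (fun _ => (1 : ℂ)) C s - classCoeff 1 (fun _ => 1) D s
  have hcd : Differentiable ℝ c :=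
    (continuous_classCoeff 1 _ C).sub (continuous_classCoeff 1 _ D)
  have hc1 : c 1 = 0 := by simp [c, classCoeff_one]
  have hslope : Tendsto (slope c 1) (𝓝[>] 1) (𝓝 (deriv c 1)) :=
    ((hasDerivAt_iff_tendsto_slope.mp (hcd 1).hasDerivAt)).mono_left
      (nhdsWithin_mono _ fun x hx => ne_of_gt hx)
  refine ⟨l₁ - l₂ + deriv c 1 * (κ : ℂ), ((h₁.sub h₂).add (hslope.mul hT)).congr' ?_⟩
  filter_upwards [self_mem_nhdsWithin] with s hs
  have hne : ((s - 1 : ℝ) : ℂ) ≠ 0 := Complex.ofReal_ne_zero.mpr (sub_ne_zero.mpr (ne_of_gt hs))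
  rw [slope_def_module, hc1, sub_zero, Complex.real_smul, Complex.ofReal_inv]
  simp only [c]
  field_simp
  ring

end Periodic

end FLTAgent.Density
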