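import Mathlib.NumberTheory.NumberField.CanonicalEmbedding.FundamentalCone
import Mathlib.Analysis.SpecialFunctions.Pow.Real
import Mathlib.Analysis.SpecialFunctions.Exp

/-!
# A Lipschitz partition of unity for the action of the units on the mixed space

For a number field `K` we define a weight on the mixed space whose sum over the translates by the
units is the torsion order, and show that the homogeneous function `weight v * (norm v) ^ (-s)`
changes by `O(‖v‖ ^ (-(d + 1)))` under translation by a fixed vector, uniformly in `s ∈ [1, 2]`.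
-/

set_option autoImplicit false

noncomputable section

open NumberField NumberField.mixedEmbedding NumberField.Units
open NumberField.Units.dirichletUnitTheorem Module
open scoped Classical

namespace FLTAgent.Density

/-- Product of tent functions. -/
def tentFun {n : ℕ} (z : Fin n → ℝ) : ℝ := ∏ i, max 0 (1 - |z i|)

theorem tentFun_nonneg {n : ℕ} (z : Fin n → ℝ) : 0 ≤ tentFun z :=
  Finset.prod_nonneg fun _ _ => le_max_left _ _

theorem tentFun_le_one {n : ℕ} (z : Fin n → ℝ) : tentFun z ≤ 1 :=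
  Finset.prod_le_one (fun _ _ => le_max_left _ _)
    fun _i _ => max_le zero_le_one (sub_le_self _ (abs_nonneg _))

theorem abs_lt_one_of_tentFun_ne_zero {n : ℕ} {z : Fin n → ℝ} (h : tentFun z ≠ 0) (i : Fin n) :
    |z i| < 1 := by
  by_contra hi
  refine h (Finset.prod_eq_zero (Finset.mem_univ i) (max_eq_left ?_))
  linarith [not_lt.mp hi]

theorem tent_sum_eq_one (t : ℝ) :
    ∑ k ∈ ({⌊-t⌋, ⌊-t⌋ + 1} : Finset ℤ), max 0 (1 - |t + k|) = 1 := by
  have h1 := Int.floor_le (-t)
  have h2 := Int.lt_floor_add_one (-t)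
  rw [Finset.sum_pair (by omega), Int.cast_add, Int.cast_one,
    abs_of_nonpos (show t + (⌊-t⌋ : ℝ) ≤ 0 by linarith),
    abs_of_nonneg (show 0 ≤ t + ((⌊-t⌋ : ℝ) + 1) by linarith), max_eq_right (by linarith),
    max_eq_right (by linarith)]
  ring

theorem tent_eq_zero {t : ℝ} {k : ℤ} (hk : k ∉ ({⌊-t⌋, ⌊-t⌋ + 1} : Finset ℤ)) :
    max 0 (1 - |t + k|) = 0 := by
  refine max_eq_left ?_
  have h1 := Int.floor_le (-t)
  have h2 := Int.lt_floor_add_one (-t)
  simp only [Finset.mem_insert, Finset.mem_singleton, not_or] at hk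
  rcases lt_or_gt_of_ne hk.1 with h | h
  · have h3 : (k : ℝ) ≤ (⌊-t⌋ : ℝ) - 1 := by exact_mod_cast Int.le_sub_one_of_lt h
    rw [abs_of_nonpos (by linarith)]
    linarith
  · have h3 : (⌊-t⌋ : ℝ) + 2 ≤ k := by exact_mod_cast (show ⌊-t⌋ + 2 ≤ k by omega)
    rw [abs_of_nonneg (by linarith)]
    linarith

/-- The integer translates of `tentFun` add up to `1`. -/
theorem hasSum_tentFun_add {n : ℕ} (z : Fin n → ℝ) :
    HasSum (fun e : Fin n → ℤ => tentFun (fun i => z i + e i)) 1 := by
  classical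
  let t : Fin n → Finset ℤ := fun i => {⌊-z i⌋, ⌊-z i⌋ + 1}
  have h1 : ∑ e ∈ Fintype.piFinset t, tentFun (fun i => z i + e i) = 1 := by
    unfold tentFun
    rw [← Finset.prod_univ_sum t (fun i k => max 0 (1 - |z i + (k : ℝ)|))]
    exact Finset.prod_eq_one fun i _ => tent_sum_eq_one (z i)
  rw [← h1]
  refine hasSum_sum_of_ne_finset_zero fun e he => ?_
  rw [Fintype.mem_piFinset, not_forall] at he
  obtain ⟨i, hi⟩ := he
  exact Finset.prod_eq_zero (Finset.mem_univ i) (tent_eq_zero hi)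

theorem abs_prod_sub_prod_le {ι : Type*} (s : Finset ι) (f g : ι → ℝ)
    (hf : ∀ i ∈ s, 0 ≤ f i ∧ f i ≤ 1) (hg : ∀ i ∈ s, 0 ≤ g i ∧ g i ≤ 1) :
    |∏ i ∈ s, f i - ∏ i ∈ s, g i| ≤ ∑ i ∈ s, |f i - g i| := by
  classical
  induction s using Finset.induction_on with
  | empty => simp
  | @insert a s ha ih =>
    rw [Finset.prod_insert ha, Finset.prod_insert ha, Finset.sum_insert ha]
    obtain ⟨hfa0, hfa1⟩ := hf a (Finset.mem_insert_self a s)
    have hg' : ∀ i ∈ s, 0 ≤ g i ∧ g i ≤ 1 := fun i hi => hg i (Finset.mem_insert_of_mem hi)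
    have hgs : |∏ i ∈ s, g i| ≤ 1 := by
      rw [abs_of_nonneg (Finset.prod_nonneg fun i hi => (hg' i hi).1)]
      exact Finset.prod_le_one (fun i hi => (hg' i hi).1) (fun i hi => (hg' i hi).2)
    have ih' := ih (fun i hi => hf i (Finset.mem_insert_of_mem hi)) hg'
    calc |f a * ∏ i ∈ s, f i - g a * ∏ i ∈ s, g i|
        = |f a * (∏ i ∈ s, f i - ∏ i ∈ s, g i) + (f a - g a) * ∏ i ∈ s, g i| := by ring_nf
      _ ≤ |f a * (∏ i ∈ s, f i - ∏ i ∈ s, g i)| + |(f a - g a) * ∏ i ∈ s, g i| := abs_add_le _ _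
      _ ≤ 1 * |∏ i ∈ s, f i - ∏ i ∈ s, g i| + |f a - g a| * 1 := by
          rw [abs_mul, abs_mul, abs_of_nonneg hfa0]
          gcongr
      _ ≤ |f a - g a| + ∑ i ∈ s, |f i - g i| := by linarith

theorem abs_tentFun_sub_le {n : ℕ} (x y : Fin n → ℝ) :
    |tentFun x - tentFun y| ≤ n * ‖x - y‖ := by
  have hb : ∀ z : Fin n → ℝ, ∀ i ∈ (Finset.univ : Finset (Fin n)),
      0 ≤ max 0 (1 - |z i|) ∧ max 0 (1 - |z i|) ≤ 1 :=
    fun z i _ => ⟨le_max_left _ _, max_le zero_le_one (sub_le_self _ (abs_nonneg _))⟩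
  refine (abs_prod_sub_prod_le _ _ _ (hb x) (hb y)).trans ?_
  calc ∑ i, |max 0 (1 - |x i|) - max 0 (1 - |y i|)| ≤ ∑ _i : Fin n, ‖x - y‖ := by
        refine Finset.sum_le_sum fun i _ => ?_
        refine le_trans ?_ (norm_le_pi_norm (x - y) i)
        rw [Pi.sub_apply, Real.norm_eq_abs]
        refine le_trans (abs_max_sub_max_le_max _ _ _ _) ?_
        rw [sub_self, abs_zero, max_eq_right (abs_nonneg _)]
        rw [show (1 - |x i|) - (1 - |y i|) = -(|x i| - |y i|) by ring, abs_neg]
        exact abs_abs_sub_abs_le_abs_sub _ _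
    _ = n * ‖x - y‖ := by simp

variable (K : Type*) [Field K] [NumberField K]

/-- Coordinates in the log space with respect to the unit lattice. -/
def unitCoord : logSpace K →L[ℝ] (Fin (rank K) → ℝ) :=
  LinearMap.toContinuousLinearMap
    ((basisUnitLattice K).ofZLatticeBasis ℝ (unitLattice K)).equivFun.toLinearMap

theorem unitCoord_apply (z : logSpace K) (i : Fin (rank K)) :
    unitCoord K z i = ((basisUnitLattice K).ofZLatticeBasis ℝ (unitLattice K)).repr z i := rfl

variable {K}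

/-- The weight: a partition of unity for the units modulo torsion. -/
def weight (v : mixedSpace K) : ℝ := tentFun (unitCoord K (logMap v))

/-- The homogeneous summand. -/
def phi (s : ℝ) (v : mixedSpace K) : ℝ := weight v * (mixedEmbedding.norm v) ^ (-s)

theorem weight_nonneg (v : mixedSpace K) : 0 ≤ weight v := tentFun_nonneg _

theorem weight_le_one (v : mixedSpace K) : weight v ≤ 1 := tentFun_le_one _

theorem phi_nonneg (s : ℝ) (v : mixedSpace K) : 0 ≤ phi s v :=
  mul_nonneg (weight_nonneg v) (Real.rpow_nonneg (mixedEmbedding.norm_nonneg v) _)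

theorem phi_zero {s : ℝ} (hs : s ≠ 0) : phi s (0 : mixedSpace K) = 0 := by
  rw [phi, map_zero, Real.zero_rpow (neg_ne_zero.mpr hs), mul_zero]

theorem phi_eq_zero_of_norm_eq_zero {s : ℝ} (hs : s ≠ 0) {v : mixedSpace K}
    (hv : mixedEmbedding.norm v = 0) : phi s v = 0 := by
  rw [phi, hv, Real.zero_rpow (neg_ne_zero.mpr hs), mul_zero]

/-- Units modulo torsion, through the fundamental system. -/
def unitParam : torsion K × (Fin (rank K) → ℤ) ≃ (𝓞 K)ˣ :=
  Equiv.ofBijective (fun ζe => (ζe.1 : (𝓞 K)ˣ) * ∏ i, fundSystem K i ^ ζe.2 i)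
    (Function.bijective_iff_existsUnique _ |>.mpr fun x => by
      obtain ⟨ζe, h1, h2⟩ := exist_unique_eq_mul_prod K x
      exact ⟨ζe, h1.symm, fun y hy => h2 y hy.symm⟩)

theorem unitCoord_logEmbedding (ζe : torsion K × (Fin (rank K) → ℤ)) (i : Fin (rank K)) :
    unitCoord K (logEmbedding K (Additive.ofMul (unitParam ζe))) i = ζe.2 i := by
  have hf := fun_eq_repr K (x := unitParam ζe) ζe.1.2 rfl
  have hmem : logEmbedding K (Additive.ofMul (unitParam ζe)) =
      ((logEmbeddingEquiv K (Additive.ofMul (QuotientGroup.mk (unitParam ζe)))) : logSpace K) := by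
    rw [logEmbeddingEquiv_apply]
  rw [hmem, unitCoord_apply, Basis.ofZLatticeBasis_repr_apply]
  rw [congrFun hf i]
  simp [basisUnitLattice]

theorem hasSum_weight_smul {v : mixedSpace K} (hv : mixedEmbedding.norm v ≠ 0) :
    HasSum (fun u : (𝓞 K)ˣ => weight (u • v)) (torsionOrder K) := by
  rw [← unitParam.hasSum_iff]
  let z := unitCoord K (logMap v)
  have hfun : ((fun u : (𝓞 K)ˣ => weight (u • v)) ∘ unitParam) =
      fun ζe : torsion K × (Fin (rank K) → ℤ) => tentFun (fun i => z i + ζe.2 i) := by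
    funext ζe
    simp only [Function.comp_apply, weight, logMap_unit_smul _ hv, map_add]
    congr 1
    funext i
    rw [Pi.add_apply, unitCoord_logEmbedding, add_comm]
  rw [hfun]
  have hsum : Summable fun ζe : torsion K × (Fin (rank K) → ℤ) =>
      tentFun (fun i => z i + ζe.2 i) := by
    refine (summable_prod_of_nonneg fun ζe => tentFun_nonneg _).mpr ⟨fun _ => ?_, .of_finite⟩
    exact (hasSum_tentFun_add z).summable
  convert hsum.hasSum
  rw [hsum.tsum_prod]
  simp only [(hasSum_tentFun_add z).tsum_eq]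
  rw [torsionOrder]
  simp

theorem sum_mult_mul_log {v : mixedSpace K} (hv : mixedEmbedding.norm v ≠ 0) :
    ∑ w : InfinitePlace K, (w.mult : ℝ) * Real.log (normAtPlace w v) =
      Real.log (mixedEmbedding.norm v) := by
  rw [mixedEmbedding.norm_apply, Real.log_prod]
  · simp [Real.log_pow]
  · exact fun w _ => pow_ne_zero _ (mixedEmbedding.norm_ne_zero_iff.mp hv w)

/-- On the support of the weight, all absolute values are comparable to the norm. -/
theorem exists_pos_mul_norm_le_normAtPlace :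
    ∃ c : ℝ, 0 < c ∧ ∀ v : mixedSpace K, mixedEmbedding.norm v ≠ 0 → weight v ≠ 0 →
      ∀ w, c * ‖v‖ ≤ normAtPlace w v := by
  let φ := ((basisUnitLattice K).ofZLatticeBasis ℝ (unitLattice K)).equivFun
  let ψ : (Fin (rank K) → ℝ) →L[ℝ] logSpace K :=
    LinearMap.toContinuousLinearMap φ.symm.toLinearMap
  let B : ℝ := ‖ψ‖
  let d : ℝ := finrank ℚ K
  have hd : (0 : ℝ) < d := Nat.cast_pos.mpr finrank_pos
  refine ⟨Real.exp (-(2 * (d + 1) * B)), Real.exp_pos _, fun v hv hw w => ?_⟩
  have hnorm : ‖logMap v‖ ≤ B := by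
    have hc : ‖unitCoord K (logMap v)‖ ≤ 1 := by
      refine (pi_norm_le_iff_of_nonneg zero_le_one).mpr fun i => ?_
      rw [Real.norm_eq_abs]
      exact (abs_lt_one_of_tentFun_ne_zero hw i).le
    have hψ : ψ (unitCoord K (logMap v)) = logMap v := φ.symm_apply_apply _
    rw [← hψ]
    exact (ψ.le_opNorm _).trans (mul_le_of_le_one_right (norm_nonneg _) hc)
  set l : InfinitePlace K → ℝ := fun w =>
    Real.log (normAtPlace w v) - Real.log (mixedEmbedding.norm v) * d⁻¹ with hl
  have hmult : ∀ w : InfinitePlace K, (1 : ℝ) ≤ w.mult := fun w => by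
    exact_mod_cast InfinitePlace.one_le_mult
  have hB : 0 ≤ B := norm_nonneg _
  have h1 : ∀ w : InfinitePlace K, w ≠ w₀ → |(w.mult : ℝ) * l w| ≤ B := fun w hw => by
    have := (norm_le_pi_norm (logMap v) ⟨w, hw⟩).trans hnorm
    rwa [Real.norm_eq_abs] at this
  have hsum : ∑ w : InfinitePlace K, (w.mult : ℝ) * l w = 0 := by
    simp only [hl, mul_sub, Finset.sum_sub_distrib, sum_mult_mul_log hv, ← Finset.sum_mul]
    rw [← Nat.cast_sum, InfinitePlace.sum_mult_eq]
    field_simp
    ring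
  have h2 : ∀ w : InfinitePlace K, |(w.mult : ℝ) * l w| ≤ (d + 1) * B := by
    intro w
    by_cases hw : w = w₀
    · subst hw
      classical
      rw [← Finset.add_sum_erase _ _ (Finset.mem_univ w₀)] at hsum
      rw [eq_neg_of_add_eq_zero_left hsum, abs_neg]
      refine (Finset.abs_sum_le_sum_abs _ _).trans ?_
      refine (Finset.sum_le_sum fun w hw => h1 w (Finset.ne_of_mem_erase hw)).trans ?_
      rw [Finset.sum_const, nsmul_eq_mul]
      refine mul_le_mul_of_nonneg_right ?_ hB
      calc (((Finset.univ.erase (w₀ : InfinitePlace K)).card : ℕ) : ℝ)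
          ≤ (Fintype.card (InfinitePlace K) : ℝ) := by
            exact_mod_cast Finset.card_le_univ _
        _ ≤ d := by
            simp only [d, ← InfinitePlace.sum_mult_eq (K := K)]
            push_cast
            calc (Fintype.card (InfinitePlace K) : ℝ) = ∑ _w : InfinitePlace K, (1 : ℝ) := by simp
              _ ≤ _ := Finset.sum_le_sum fun w _ => hmult w
        _ ≤ d + 1 := by linarith
    · refine (h1 w hw).trans ?_
      nlinarith
  have h3 : ∀ w : InfinitePlace K, |l w| ≤ (d + 1) * B := fun w => by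
    refine le_trans ?_ (h2 w)
    rw [abs_mul, Nat.abs_cast]
    exact le_mul_of_one_le_left (abs_nonneg _) (hmult w)
  obtain ⟨w', -, hw'⟩ := Finset.exists_mem_eq_sup' Finset.univ_nonempty
    (fun w : InfinitePlace K => normAtPlace w v)
  have hpos : ∀ w : InfinitePlace K, 0 < normAtPlace w v := fun w =>
    lt_of_le_of_ne (normAtPlace_nonneg w v) (Ne.symm (mixedEmbedding.norm_ne_zero_iff.mp hv w))
  rw [mixedEmbedding.norm_eq_sup'_normAtPlace v, hw', ← Real.exp_log (hpos w'), ← Real.exp_add,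
    ← Real.le_log_iff_exp_le (hpos w)]
  have ha := abs_le.mp (h3 w)
  have hb := abs_le.mp (h3 w')
  simp only [hl] at ha hb
  nlinarith

theorem abs_log_sub_log_le {x y b : ℝ} (hx : 0 < x) (hb : b ≤ x / 2) (h : |y - x| ≤ b) :
    |Real.log y - Real.log x| ≤ 2 * b / x := by
  obtain ⟨h1, h2⟩ := abs_le.mp h
  have hb0 : 0 ≤ b := (abs_nonneg _).trans h
  have hy : 0 < y := by linarith
  rw [abs_le]
  constructor
  · have := Real.log_le_sub_one_of_pos (show 0 < x / y by positivity)
    rw [Real.log_div hx.ne' hy.ne'] at this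
    have : x / y - 1 ≤ 2 * b / x := by
      rw [div_sub_one hy.ne', div_le_div_iff₀ hy hx]
      nlinarith
    linarith
  · have := Real.log_le_sub_one_of_pos (show 0 < y / x by positivity)
    rw [Real.log_div hy.ne' hx.ne'] at this
    have : y / x - 1 ≤ 2 * b / x := by
      rw [div_sub_one hx.ne']
      gcongr
      linarith
    linarith

theorem abs_normAtPlace_sub_le (w : InfinitePlace K) (x y : mixedSpace K) :
    |normAtPlace w (x + y) - normAtPlace w x| ≤ ‖y‖ := by
  have hy : ∀ z : mixedSpace K, normAtPlace w z ≤ ‖z‖ := fun z => by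
    rw [mixedEmbedding.norm_eq_sup'_normAtPlace z]
    exact Finset.le_sup' (fun w => normAtPlace w z) (Finset.mem_univ w)
  rw [abs_le]
  constructor
  · have := normAtPlace_add_le w (x + y) (-y)
    rw [add_neg_cancel_right, normAtPlace_neg] at this
    linarith [hy y]
  · linarith [normAtPlace_add_le w x y, hy y]

-- unfolding the product norm makes every failed comparison of norms expensive
seal Prod.toNorm in
/-- The main estimate. -/
theorem exists_abs_phi_add_sub_le (a : mixedSpace K) :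
    ∃ C R : ℝ, 0 < R ∧ ∀ v : mixedSpace K, R ≤ ‖v‖ → ∀ s ∈ Set.Icc (1 : ℝ) 2,
      |phi s (v + a) - phi s v| ≤ C / ‖v‖ ^ (finrank ℚ K + 1) := by
  obtain ⟨c, hc, hcone⟩ := exists_pos_mul_norm_le_normAtPlace (K := K)
  let d : ℕ := finrank ℚ K
  let A : ℝ := ‖a‖ + 1
  let c' : ℝ := c / 4
  let κ : ℝ := ‖unitCoord K‖
  let r : ℕ := rank K
  -- bound on the variation of logarithms: `δ = 2 A / (c' ‖v‖)`
  let E : ℝ := r * (κ * (2 * (1 + d * (d : ℝ)⁻¹))) + 2 * (2 * d)
  refine ⟨(c'⁻¹) ^ d * E * (2 * A / c'),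
    max (max (2 * A) (4 * A / c)) (max (1 / c') ((2 * A / c') * (2 * d + 1))) , by positivity, ?_⟩
  intro v hv s hs
  have hA : 0 < A := by positivity
  have hc' : 0 < c' := by positivity
  simp only [max_le_iff] at hv
  obtain ⟨⟨hv1, hv2⟩, hv3, hv4⟩ := hv
  have hvpos : 0 < ‖v‖ := lt_of_lt_of_le (by positivity) hv1
  rw [div_mul_eq_mul_div, div_le_iff₀' hc'] at hv4
  have hs0 : s ≠ 0 := by linarith [hs.1]
  have hnonneg : 0 ≤ (c'⁻¹) ^ d * E * (2 * A / c') / ‖v‖ ^ (d + 1) := by positivity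
  by_cases hsupp : (mixedEmbedding.norm v ≠ 0 ∧ weight v ≠ 0) ∨
      (mixedEmbedding.norm (v + a) ≠ 0 ∧ weight (v + a) ≠ 0)
  swap
  · have h0 : phi s v = 0 := by
      by_cases h : mixedEmbedding.norm v = 0
      · exact phi_eq_zero_of_norm_eq_zero hs0 h
      · rw [phi, show weight v = 0 from not_not.mp fun h' => hsupp (Or.inl ⟨h, h'⟩), zero_mul]
    have h1 : phi s (v + a) = 0 := by
      by_cases h : mixedEmbedding.norm (v + a) = 0
      · exact phi_eq_zero_of_norm_eq_zero hs0 h
      · rw [phi, show weight (v + a) = 0 from not_not.mp fun h' => hsupp (Or.inr ⟨h, h'⟩),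
          zero_mul]
    rw [h0, h1, sub_zero, abs_zero]
    exact hnonneg
  -- all absolute values of `v` are large
  have hbig : ∀ w, c' * ‖v‖ ≤ normAtPlace w v ∧ 2 * A ≤ c' * ‖v‖ := by
    intro w
    have hR : 2 * A ≤ c' * ‖v‖ := by
      have h : 0 ≤ 2 * A * (2 * (d : ℝ)) := by positivity
      linarith
    refine ⟨?_, hR⟩
    rcases hsupp with ⟨hN, hW⟩ | ⟨hN, hW⟩
    · refine le_trans ?_ (hcone v hN hW w)
      exact mul_le_mul_of_nonneg_right (by simp only [c']; linarith) hvpos.le
    · have h := hcone (v + a) hN hW w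
      have h5 := (abs_le.mp (abs_normAtPlace_sub_le w v a)).2
      have h6 : ‖v‖ ≤ ‖v + a‖ + ‖a‖ := by simpa using norm_sub_le (v + a) a
      have h7 : 4 * A ≤ c * ‖v‖ := by
        rw [div_le_iff₀ hc] at hv2
        linarith
      have h8 : ‖a‖ ≤ ‖v‖ / 2 := by simp only [A] at hv1; linarith
      have h9 : c * (‖v‖ / 2) ≤ c * ‖v + a‖ := by gcongr; linarith
      simp only [c', A] at h5 h7 h8 h9 ⊢
      linarith
  have hpos : ∀ w, 0 < normAtPlace w v := fun w =>
    lt_of_lt_of_le (mul_pos hc' hvpos) (hbig w).1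
  set δ : ℝ := 2 * A / (c' * ‖v‖) with hδ
  have hlog : ∀ w, |Real.log (normAtPlace w (v + a)) - Real.log (normAtPlace w v)| ≤ δ := by
    intro w
    have hb : A ≤ normAtPlace w v / 2 := by linarith [(hbig w).1, (hbig w).2]
    refine (abs_log_sub_log_le (hpos w) hb
      ((abs_normAtPlace_sub_le w v a).trans (by simp [A]))).trans ?_
    rw [hδ]
    gcongr
    exact (hbig w).1
  have hN : mixedEmbedding.norm v ≠ 0 := mixedEmbedding.norm_ne_zero_iff.mpr fun w => (hpos w).ne'
  have hN' : mixedEmbedding.norm (v + a) ≠ 0 := mixedEmbedding.norm_ne_zero_iff.mpr fun w => by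
    have h := (abs_le.mp (abs_normAtPlace_sub_le w v a)).1
    have := (hbig w)
    simp only [A] at this
    intro h0
    linarith
  have hδ0 : 0 ≤ δ := by positivity
  have hlogN : |Real.log (mixedEmbedding.norm (v + a)) - Real.log (mixedEmbedding.norm v)|
      ≤ d * δ := by
    rw [← sum_mult_mul_log hN', ← sum_mult_mul_log hN, ← Finset.sum_sub_distrib]
    refine (Finset.abs_sum_le_sum_abs _ _).trans ?_
    rw [show (d : ℝ) = ∑ w : InfinitePlace K, (w.mult : ℝ) by
      rw [← Nat.cast_sum, InfinitePlace.sum_mult_eq], Finset.sum_mul]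
    refine Finset.sum_le_sum fun w _ => ?_
    rw [← mul_sub, abs_mul, Nat.abs_cast]
    exact mul_le_mul_of_nonneg_left (hlog w) (Nat.cast_nonneg _)
  have hW : |weight (v + a) - weight v| ≤ r * (κ * (2 * (1 + d * (d : ℝ)⁻¹))) * δ := by
    refine (abs_tentFun_sub_le _ _).trans ?_
    rw [← map_sub, mul_assoc]
    refine mul_le_mul_of_nonneg_left ?_ (Nat.cast_nonneg _)
    refine ((unitCoord K).le_opNorm _).trans ?_
    rw [mul_assoc κ]
    refine mul_le_mul_of_nonneg_left ?_ (norm_nonneg _)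
    refine (pi_norm_le_iff_of_nonneg (by positivity)).mpr fun w => ?_
    rw [Pi.sub_apply, logMap_apply, logMap_apply, Real.norm_eq_abs, ← mul_sub, abs_mul,
      Nat.abs_cast, mul_assoc]
    refine mul_le_mul ?_ ?_ (abs_nonneg _) zero_le_two
    · exact_mod_cast (show w.1.mult ≤ 2 by unfold InfinitePlace.mult; split_ifs <;> norm_num)
    · rw [sub_sub_sub_comm, ← sub_mul]
      refine (abs_sub _ _).trans ?_
      rw [add_mul, one_mul, abs_mul, abs_of_nonneg (show 0 ≤ (finrank ℚ K : ℝ)⁻¹ by positivity),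
        mul_right_comm]
      exact add_le_add (hlog w.1) (mul_le_mul_of_nonneg_right hlogN (by positivity))
  have hNlow : (c' * ‖v‖) ^ d ≤ mixedEmbedding.norm v := by
    rw [mixedEmbedding.norm_apply,
      show d = ∑ w : InfinitePlace K, w.mult from (InfinitePlace.sum_mult_eq).symm,
      ← Finset.prod_pow_eq_pow_sum]
    exact Finset.prod_le_prod (fun w _ => by positivity)
      (fun w _ => pow_le_pow_left₀ (by positivity) (hbig w).1 _)
  have hc1 : 1 ≤ c' * ‖v‖ := by
    rw [div_le_iff₀' hc'] at hv3; exact hv3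
  set N := mixedEmbedding.norm v
  have hNpos : 0 < N := lt_of_lt_of_le (by positivity) hNlow
  have hN'pos : 0 < mixedEmbedding.norm (v + a) :=
    lt_of_le_of_ne (mixedEmbedding.norm_nonneg _) (Ne.symm hN')
  have hdδ : 2 * (d * δ) ≤ 1 := by
    rw [hδ, mul_div_assoc', mul_div_assoc', div_le_one (by positivity)]
    linarith
  have hpow : |(mixedEmbedding.norm (v + a)) ^ (-s) - N ^ (-s)| ≤ N ^ (-s) * (2 * (2 * d)) * δ := by
    set u := (Real.log (mixedEmbedding.norm (v + a)) - Real.log N) * (-s) with hu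
    have heq : (mixedEmbedding.norm (v + a)) ^ (-s) = N ^ (-s) * Real.exp u := by
      rw [Real.rpow_def_of_pos hN'pos, Real.rpow_def_of_pos hNpos, ← Real.exp_add, hu]
      ring_nf
    have hu2 : |u| ≤ 2 * (d * δ) := by
      rw [hu, abs_mul, abs_neg, abs_of_nonneg (show 0 ≤ s by linarith [hs.1]), mul_comm 2]
      exact mul_le_mul hlogN hs.2 (by linarith [hs.1]) (by positivity)
    rw [heq, show N ^ (-s) * Real.exp u - N ^ (-s) = N ^ (-s) * (Real.exp u - 1) by ring, abs_mul,
      abs_of_nonneg (Real.rpow_nonneg hNpos.le _), mul_assoc]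
    refine mul_le_mul_of_nonneg_left ?_ (Real.rpow_nonneg hNpos.le _)
    refine (Real.abs_exp_sub_one_le (hu2.trans hdδ)).trans ?_
    linarith [hu2]
  have hNs : N ^ (-s) ≤ (c'⁻¹) ^ d / ‖v‖ ^ d := by
    rw [Real.rpow_neg hNpos.le]
    calc (N ^ s)⁻¹ ≤ ((c' * ‖v‖) ^ d)⁻¹ := by
          refine inv_anti₀ (by positivity) (hNlow.trans ?_)
          exact Real.self_le_rpow_of_one_le ((one_le_pow₀ hc1).trans hNlow) hs.1
      _ = _ := by rw [mul_pow, mul_inv, inv_pow, ← div_eq_mul_inv]
  calc |phi s (v + a) - phi s v|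
      = |weight (v + a) * ((mixedEmbedding.norm (v + a)) ^ (-s) - N ^ (-s)) +
          (weight (v + a) - weight v) * N ^ (-s)| := by simp only [phi, N]; ring_nf
    _ ≤ 1 * (N ^ (-s) * (2 * (2 * d)) * δ) +
          r * (κ * (2 * (1 + d * (d : ℝ)⁻¹))) * δ * N ^ (-s) := by
        refine (abs_add_le _ _).trans (add_le_add ?_ ?_)
        · rw [abs_mul, abs_of_nonneg (weight_nonneg _)]
          exact mul_le_mul (weight_le_one _) hpow (abs_nonneg _) zero_le_one
        · rw [abs_mul, abs_of_nonneg (Real.rpow_nonneg hNpos.le _)]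
          exact mul_le_mul_of_nonneg_right hW (Real.rpow_nonneg hNpos.le _)
    _ = N ^ (-s) * (E * δ) := by simp only [E]; ring
    _ ≤ (c'⁻¹) ^ d / ‖v‖ ^ d * (E * δ) := mul_le_mul_of_nonneg_right hNs (by positivity)
    _ = (c'⁻¹) ^ d * E * (2 * A / c') / ‖v‖ ^ (d + 1) := by
        rw [hδ, pow_succ]; field_simp

end FLTAgent.Density
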