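import Fermat.Agent.Density.Growth
import Fermat.Agent.Density.FixedField
import Fermat.Agent.Density.Cyclotomic
import Mathlib.NumberTheory.DirichletCharacter.Orthogonality
import Mathlib.RingTheory.IntegralDomain

/-!
# Prime sums attached to a subgroup, twisted by the square of a Dirichlet character

`fixCount` counts the conjugates of a Frobenius element in a subgroup `D`: it has log density
`|D|` (`hasLogDensity_fixCount`), and after twisting by a character log density `|D|` or zero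
according as the character is trivial on `D` or not (`hasLogDensity_charAt_mul_fixCount`).
-/

set_option autoImplicit false

noncomputable section

open NumberField Module Filter Topology
open scoped Classical

namespace FLTAgent.Density

variable {G : Type} [Group G]

/-- The number of conjugates of `g` lying in `D`, counted with multiplicity. -/
def fixCount (D : Subgroup G) (g : G) : ℕ := Nat.card {x : G // x⁻¹ * g * x ∈ D}

theorem exists_of_fixCount_ne_zero {D : Subgroup G} {g : G} (h : fixCount D g ≠ 0) :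
    ∃ x : G, x⁻¹ * g * x ∈ D := by
  obtain ⟨⟨x, hx⟩⟩ := (Nat.card_ne_zero.mp h).1
  exact ⟨x, hx⟩

variable {π : GalQ →* G}

theorem eventually_fixCount_eq (hπ : GaloisFactorsThroughFiniteLevel π)
    (hs : Function.Surjective π) (D : Subgroup G) [NumberField (fixedFieldOf π D)] :
    ∀ᶠ q : Nat.Primes in cofinite,
      fixCount D (π (frob q)) = Nat.card D * idealCount (fixedFieldOf π D) q := by
  obtain ⟨n, hn, h⟩ := exists_forall_idealCount_eq (fixedFieldOf π D)
  filter_upwards [eventually_not_dvd hn] with q hq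
  rw [fixCount, card_fixed_mul hπ hs D, h q q.2 hq _ (frobPlace_liesOverPrime q) _
    (isFrobeniusAt_frob q)]

variable [Finite G]

omit [Finite G] in
theorem hasLogDensity_fixCount (hπ : GaloisFactorsThroughFiniteLevel π)
    (hs : Function.Surjective π) (D : Subgroup G) :
    HasLogDensity (fun q : Nat.Primes => (fixCount D (π (frob q)) : ℂ)) (Nat.card D : ℂ) := by
  have := numberField_fixedFieldOf hπ D
  refine (((hasLogDensity_idealCount (K := fixedFieldOf π D)).const_mul (Nat.card D : ℂ)).congr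
    ((eventually_fixCount_eq hπ hs D).mono fun q hq => ?_)).congr_density (mul_one _)
  rw [hq, Nat.cast_mul]

theorem primeSeries_finsetSum {ι : Type*} (t : Finset ι) {f : ι → Nat.Primes → ℂ}
    (hf : ∀ i ∈ t, IsBoundedOnPrimes (f i)) {s : ℝ} (hs : 1 < s) :
    primeSeries (fun q => ∑ i ∈ t, f i q) s = ∑ i ∈ t, primeSeries (f i) s := by
  unfold primeSeries
  simp only [Finset.sum_mul]
  exact Summable.tsum_finsetSum fun i hi => (hf i hi).summable hs

theorem re_lt_one_of_norm_le {z : ℂ} (h : ‖z‖ ≤ 1) (hne : z ≠ 1) : z.re < 1 := by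
  rcases lt_or_eq_of_le ((Complex.re_le_norm z).trans h) with h' | h'
  · exact h'
  · refine absurd ?_ hne
    have hsq := Complex.sq_norm z
    have h1 : ‖z‖ ^ 2 ≤ 1 := pow_le_one₀ (norm_nonneg z) h
    rw [hsq, Complex.normSq_apply] at h1
    rw [h'] at h1
    have him : z.im = 0 := mul_self_eq_zero.mp (le_antisymm (by linarith) (mul_self_nonneg _))
    exact Complex.ext (by simp [h']) (by simp [him])

variable {m : ℕ}

/-- A Dirichlet character of the square of the argument. -/
def sqChar (ψ : DirichletCharacter ℂ m) (n : ℕ) : ℂ := ψ ((n : ZMod m) ^ 2)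

theorem sqChar_periodic (ψ : DirichletCharacter ℂ m) (a b : ℤ) (h : (m : ℤ) ∣ a - b) :
    sqChar ψ a.natAbs = sqChar ψ b.natAbs := by
  have key : ∀ c : ℤ, ((c.natAbs : ℕ) : ZMod m) ^ 2 = (c : ZMod m) ^ 2 := by
    intro c
    rw [← Int.cast_natCast, ← Int.cast_pow, ← Int.cast_pow, Int.natAbs_sq]
  rw [sqChar, sqChar, key, key, (ZMod.intCast_eq_intCast_iff_dvd_sub b a m).mpr h]

variable [NeZero m]

/-- The value of a Dirichlet character on the image of a group element. -/
def charAt (ψ : DirichletCharacter ℂ m) (ε : G →* (ZMod m)ˣ) (g : G) : ℂ := ψ ((ε g : ZMod m))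

omit [Finite G] [NeZero m] in
theorem map_conj_eq (ε : G →* (ZMod m)ˣ) (x g : G) : ε (x⁻¹ * g * x) = ε g := by
  rw [map_mul, map_mul, mul_comm, ← mul_assoc, map_inv, mul_inv_cancel, one_mul]

omit [Finite G] [NeZero m] in
theorem charAt_conj (ψ : DirichletCharacter ℂ m) (ε : G →* (ZMod m)ˣ) (x g : G) :
    charAt ψ ε (x⁻¹ * g * x) = charAt ψ ε g := by
  rw [charAt, map_conj_eq, charAt]

/-- The character as a monoid homomorphism on the subgroup. -/
def charHom (ψ : DirichletCharacter ℂ m) (ε : G →* (ZMod m)ˣ) (D : Subgroup G) : D →* ℂ :=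
  ψ.toMonoidHom.comp ((Units.coeHom (ZMod m)).comp (ε.comp D.subtype))

/-- The prime counts of the fixed field of `D`, twisted by the square of `ψ`. -/
private def twistTerm (π : GalQ →* G) (D : Subgroup G) [NumberField (fixedFieldOf π D)]
    (ψ : DirichletCharacter ℂ m) : Nat.Primes → ℂ :=
  fun q => sqChar ψ q * (idealCount (fixedFieldOf π D) q : ℂ)

/-- The characters trivial on `D`. -/
private def trivialChars (ε : G →* (ZMod m)ˣ) (D : Subgroup G) :
    Finset (DirichletCharacter ℂ m) :=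
  Finset.univ.filter fun ψ => ∀ d ∈ D, charAt ψ ε d = 1

omit [Finite G] in
/-- The kernel of a homomorphism on `D`, as a subgroup of `G`. -/
private lemma mem_map_ker {M : Type*} [MulOneClass M] (D : Subgroup G) (f : D →* M) (g : G) :
    g ∈ f.ker.map D.subtype ↔ ∃ h : g ∈ D, f ⟨g, h⟩ = 1 := by
  simp only [Subgroup.mem_map, MonoidHom.mem_ker]
  constructor
  · rintro ⟨d, hd, rfl⟩
    exact ⟨d.2, hd⟩
  · exact fun ⟨h1, h2⟩ => ⟨⟨g, h1⟩, h2, rfl⟩

omit [Finite G] in
/-- No conjugate in `D` means a zero count. -/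
private lemma fixCount_eq_zero {D : Subgroup G} {g : G} (h : ∀ x : G, x⁻¹ * g * x ∉ D) :
    fixCount D g = 0 := by
  by_contra hne
  obtain ⟨x, hx⟩ := exists_of_fixCount_ne_zero hne
  exact h x hx

omit [Finite G] [NeZero m] in
/-- The twisted sums are bounded. -/
private lemma isBoundedOnPrimes_twistTerm (D : Subgroup G) [NumberField (fixedFieldOf π D)]
    (ψ : DirichletCharacter ℂ m) : IsBoundedOnPrimes (twistTerm π D ψ) :=
  ⟨finrank ℚ (fixedFieldOf π D), fun q => by
    simp only [twistTerm, norm_mul, Complex.norm_natCast]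
    exact (mul_le_of_le_one_left (Nat.cast_nonneg _) (DirichletCharacter.norm_le_one ψ _)).trans
      (by exact_mod_cast idealCount_prime_le q.2)⟩

omit [NeZero m] in
/-- Almost everywhere the twisted term is the average of `ψ` over fixed cosets. -/
private lemma eventually_twistTerm_eq (hπ : GaloisFactorsThroughFiniteLevel π)
    (hs : Function.Surjective π) (D : Subgroup G) [NumberField (fixedFieldOf π D)]
    {ε : G →* (ZMod m)ˣ}
    (hε : ∀ᶠ q : Nat.Primes in cofinite,
      (ε (π (frob q)) : ZMod m) = ((q : ℕ) : ZMod m) ^ 2) (ψ : DirichletCharacter ℂ m) :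
    ∀ᶠ q : Nat.Primes in cofinite, twistTerm π D ψ q =
      (Nat.card D : ℂ)⁻¹ * (charAt ψ ε (π (frob q)) * (fixCount D (π (frob q)) : ℂ)) :=
  ((eventually_fixCount_eq hπ hs D).and hε).mono fun q hq => by
    have hD0 : (Nat.card D : ℂ) ≠ 0 := Nat.cast_ne_zero.mpr Nat.card_pos.ne'
    simp only [twistTerm, sqChar, charAt, hq.2, hq.1, Nat.cast_mul]
    field_simp

omit [NeZero m] in
/-- Characters trivial on `D` give density one. -/
private lemma hasLogDensity_twistTerm_of_trivial (hπ : GaloisFactorsThroughFiniteLevel π)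
    (hs : Function.Surjective π) (D : Subgroup G) [NumberField (fixedFieldOf π D)]
    {ε : G →* (ZMod m)ˣ}
    (hε : ∀ᶠ q : Nat.Primes in cofinite,
      (ε (π (frob q)) : ZMod m) = ((q : ℕ) : ZMod m) ^ 2) {ψ : DirichletCharacter ℂ m}
    (hψ : ∀ d ∈ D, charAt ψ ε d = 1) : HasLogDensity (twistTerm π D ψ) 1 := by
  refine (((hasLogDensity_fixCount hπ hs D).const_mul (Nat.card D : ℂ)⁻¹).congr
    ((eventually_twistTerm_eq hπ hs D hε ψ).mono fun q hq => ?_)).congr_density
      (inv_mul_cancel₀ (Nat.cast_ne_zero.mpr Nat.card_pos.ne'))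
  rcases eq_or_ne (fixCount D (π (frob q))) 0 with h0 | h0
  · simp [hq, h0]
  · obtain ⟨x, hx⟩ := exists_of_fixCount_ne_zero h0
    rw [hq, ← charAt_conj ψ ε x, hψ _ hx, one_mul]

omit [NeZero m] in
/-- The values of `ψ` different from one on `D` have real part bounded away from one. -/
private lemma exists_re_bound {ψ : DirichletCharacter ℂ m} {ε : G →* (ZMod m)ˣ} {D : Subgroup G}
    (hψ : ¬ ∀ d ∈ D, charAt ψ ε d = 1) :
    ∃ r < 1, ∀ d ∈ D, charAt ψ ε d ≠ 1 → (charAt ψ ε d).re ≤ r := by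
  have : Fintype G := Fintype.ofFinite G
  push Not at hψ
  obtain ⟨d, hd1, hd2⟩ := hψ
  obtain ⟨d₀, hd₀, hmax⟩ := Finset.exists_max_image
    ((Finset.univ : Finset G).filter fun d => d ∈ D ∧ charAt ψ ε d ≠ 1)
    (fun d => (charAt ψ ε d).re) ⟨d, Finset.mem_filter.mpr ⟨Finset.mem_univ d, hd1, hd2⟩⟩
  exact ⟨_, re_lt_one_of_norm_le (DirichletCharacter.norm_le_one ψ _)
    (Finset.mem_filter.mp hd₀).2.2,
    fun d h1 h2 => hmax d (Finset.mem_filter.mpr ⟨Finset.mem_univ d, h1, h2⟩)⟩

omit [Finite G] [NeZero m] in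
/-- The twisted count is at most a convex combination of the counts of `D` and of the kernel. -/
private lemma re_charAt_mul_fixCount_le {ψ : DirichletCharacter ℂ m} {ε : G →* (ZMod m)ˣ}
    {D D' : Subgroup G} (hD' : ∀ g, g ∈ D' ↔ g ∈ D ∧ charAt ψ ε g = 1) {r : ℝ}
    (hr : ∀ d ∈ D, charAt ψ ε d ≠ 1 → (charAt ψ ε d).re ≤ r) (g : G) :
    (charAt ψ ε g).re * fixCount D g ≤ r * fixCount D g + (1 - r) * fixCount D' g := by
  rcases eq_or_ne (charAt ψ ε g) 1 with h1 | h1
  · have heq : fixCount D' g = fixCount D g :=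
      Nat.card_congr (Equiv.subtypeEquivRight fun y => by rw [hD', charAt_conj, and_iff_left h1])
    rw [h1, heq, Complex.one_re]
    linarith
  · rw [fixCount_eq_zero (D := D') fun y hy => h1 (charAt_conj ψ ε y g ▸ ((hD' _).mp hy).2),
      Nat.cast_zero, mul_zero, add_zero]
    rcases eq_or_ne (fixCount D g) 0 with h0 | h0
    · simp [h0]
    · obtain ⟨x, hx⟩ := exists_of_fixCount_ne_zero h0
      exact mul_le_mul_of_nonneg_right
        (charAt_conj ψ ε x g ▸ hr _ hx (by rwa [charAt_conj])) (Nat.cast_nonneg _)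

/-- Characters nontrivial on `D`: the twisted series is bounded above. -/
private lemma exists_re_twistTerm_le (hπ : GaloisFactorsThroughFiniteLevel π)
    (hs : Function.Surjective π) (D : Subgroup G) [NumberField (fixedFieldOf π D)]
    {ε : G →* (ZMod m)ˣ}
    (hε : ∀ᶠ q : Nat.Primes in cofinite,
      (ε (π (frob q)) : ZMod m) = ((q : ℕ) : ZMod m) ^ 2) {ψ : DirichletCharacter ℂ m}
    (hψ : ¬ ∀ d ∈ D, charAt ψ ε d = 1) :
    ∃ L : ℂ, ∃ C : ℝ, Tendsto (idealSum (fixedFieldOf π D)
        (twistWeight (sqChar ψ) (smallPrimeProd (fixedFieldOf π D)))) (𝓝[>] 1) (𝓝 L) ∧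
      ∀ᶠ s in 𝓝[>] (1 : ℝ), (primeSeries (twistTerm π D ψ) s).re ≤ C := by
  obtain ⟨r, hr, hle⟩ := exists_re_bound hψ
  let D' : Subgroup G := (charHom ψ ε D).ker.map D.subtype
  have hD' : ∀ g, g ∈ D' ↔ g ∈ D ∧ charAt ψ ε g = 1 := fun g =>
    (mem_map_ker D _ g).trans ⟨fun ⟨h, e⟩ => ⟨h, e⟩, fun ⟨h, e⟩ => ⟨h, e⟩⟩
  have hlt : (Nat.card D' : ℝ) < Nat.card D := by
    have hD'D : D' ≤ D := fun g hg => ((hD' g).mp hg).1
    refine Nat.cast_lt.mpr (lt_of_le_of_ne (Subgroup.card_le_of_le hD'D) fun h => hψ fun d hd => ?_)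
    have : D' = D := Subgroup.eq_of_le_of_card_ge hD'D h.ge
    exact ((hD' d).mp (this.symm ▸ hd)).2
  have hδ : 0 < (1 - r) * (1 - (Nat.card D' : ℝ) / Nat.card D) :=
    mul_pos (by linarith) (by rwa [sub_pos, div_lt_one (Nat.cast_pos.mpr Nat.card_pos)])
  have hg := ((hasLogDensity_fixCount hπ hs D).const_mul ((r : ℂ) * (Nat.card D : ℂ)⁻¹)).add
    ((hasLogDensity_fixCount hπ hs D').const_mul (((1 - r : ℝ) : ℂ) * (Nat.card D : ℂ)⁻¹))
  set δ := (1 - r) * (1 - (Nat.card D' : ℝ) / Nat.card D) with hδ_def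
  have hg' := hg.congr_density (b := ((1 - δ : ℝ) : ℂ)) (by
    have : (Nat.card D : ℂ) ≠ 0 := Nat.cast_ne_zero.mpr Nat.card_pos.ne'
    rw [hδ_def]; push_cast; field_simp; ring)
  obtain ⟨C₁, hC₁⟩ := exists_re_primeSeries_le (isBoundedOnPrimes_twistTerm D ψ) hg'.1
    ((eventually_twistTerm_eq hπ hs D hε ψ).mono fun q hq => by
      rw [hq]
      simp only [← Complex.ofReal_natCast, ← Complex.ofReal_inv, Complex.add_re,
        Complex.re_ofReal_mul, ← Complex.ofReal_mul, Complex.ofReal_re, Complex.re_mul_ofReal]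
      linarith [mul_le_mul_of_nonneg_left (re_charAt_mul_fixCount_le hD' hle (π (frob q)))
        (inv_nonneg.mpr (Nat.cast_nonneg (α := ℝ) (Nat.card D)))])
  obtain ⟨C₂, hC₂⟩ := hg'.exists_re_le
  have h : ∀ᶠ s in 𝓝[>] (1 : ℝ), (primeSeries (twistTerm π D ψ) s).re ≤
      (1 - δ) * Real.log (1 / (s - 1)) + (C₁ + C₂) := by
    filter_upwards [hC₁, hC₂] with s h1 h2
    linarith [(abs_le.mp h2).2]
  exact exists_re_twist_le (K := fixedFieldOf π D) (ψ := sqChar ψ) (by simp [sqChar])
    (fun a b => by simp [sqChar, mul_pow]) (fun n => DirichletCharacter.norm_le_one ψ _)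
    (NeZero.ne m) (sqChar_periodic ψ) hδ h

/-- The number of characters trivial on `D`, times `|D|`, is `φ(m) |ker ε ∩ D|`. -/
private lemma card_trivialChars_mul (ε : G →* (ZMod m)ˣ) (D : Subgroup G) :
    ((trivialChars ε D).card : ℂ) * (Nat.card D : ℂ) =
      (m.totient : ℂ) * (Nat.card {d : D // ε d = 1} : ℂ) := by
  have : Fintype D := Fintype.ofFinite D
  have h1 : ∀ ψ : DirichletCharacter ℂ m, ∑ d : D, charAt ψ ε d =
      if ψ ∈ trivialChars ε D then (Nat.card D : ℂ) else 0 := by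
    intro ψ
    split_ifs with h
    · rw [Finset.sum_congr rfl fun (d : D) _ => (Finset.mem_filter.mp h).2 d d.2]
      simp [Nat.card_eq_fintype_card]
    · refine sum_hom_units_eq_zero (charHom ψ ε D) fun h1 => h ?_
      exact Finset.mem_filter.mpr ⟨Finset.mem_univ ψ,
        fun d hd => DFunLike.congr_fun h1 ⟨d, hd⟩⟩
  have h2 : ∀ d : D, ∑ ψ : DirichletCharacter ℂ m, charAt ψ ε d =
      if ε d = 1 then (m.totient : ℂ) else 0 := by
    intro d
    simp only [charAt, DirichletCharacter.sum_characters_eq, Units.val_eq_one]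
  have := Finset.sum_congr rfl fun ψ (_ : ψ ∈ (Finset.univ : Finset (DirichletCharacter ℂ m))) =>
    h1 ψ
  rw [Finset.sum_comm, Finset.sum_congr rfl fun d _ => h2 d, ← Finset.sum_filter,
    ← Finset.sum_filter, Finset.sum_const, Finset.sum_const, nsmul_eq_mul, nsmul_eq_mul,
    Finset.filter_univ_mem] at this
  rw [← this, Nat.card_eq_fintype_card (α := {d : D // ε d = 1}), Fintype.card_subtype]
  exact mul_comm _ _

/-- By orthogonality, the sum over all characters has density the number of trivial ones. -/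
private lemma hasLogDensity_sum_twistTerm (hπ : GaloisFactorsThroughFiniteLevel π)
    (hs : Function.Surjective π) (D : Subgroup G) [NumberField (fixedFieldOf π D)]
    {ε : G →* (ZMod m)ˣ}
    (hε : ∀ᶠ q : Nat.Primes in cofinite,
      (ε (π (frob q)) : ZMod m) = ((q : ℕ) : ZMod m) ^ 2) :
    HasLogDensity (fun q => ∑ ψ : DirichletCharacter ℂ m, twistTerm π D ψ q)
      ((trivialChars ε D).card : ℂ) := by
  let D₁ : Subgroup G := ((ε.comp D.subtype).ker).map D.subtype
  have hD₁ : ∀ g, g ∈ D₁ ↔ g ∈ D ∧ ε g = 1 := fun g =>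
    (mem_map_ker D _ g).trans ⟨fun ⟨h, e⟩ => ⟨h, e⟩, fun ⟨h, e⟩ => ⟨h, e⟩⟩
  have hcard : Nat.card D₁ = Nat.card {d : D // ε d = 1} :=
    Nat.card_congr ((Equiv.subtypeEquivRight hD₁).trans
      (Equiv.subtypeSubtypeEquivSubtypeInter (fun g => g ∈ D) (fun g => ε g = 1)).symm)
  refine (((hasLogDensity_fixCount hπ hs D₁).const_mul
    ((m.totient : ℂ) * (Nat.card D : ℂ)⁻¹)).congr ?_).congr_density ?_
  · filter_upwards [eventually_all.mpr (eventually_twistTerm_eq hπ hs D hε)] with q hPq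
    rw [Finset.sum_congr rfl fun ψ _ => hPq ψ, ← Finset.mul_sum, ← Finset.sum_mul]
    simp only [charAt, DirichletCharacter.sum_characters_eq, Units.val_eq_one]
    split_ifs with h1
    · have heq : fixCount D₁ (π (frob q)) = fixCount D (π (frob q)) :=
        Nat.card_congr (Equiv.subtypeEquivRight fun y => by
          rw [hD₁, map_conj_eq, and_iff_left h1])
      rw [heq]
      ring
    · rw [fixCount_eq_zero (D := D₁) fun y hy => h1 (map_conj_eq ε y _ ▸ ((hD₁ _).mp hy).2)]
      simp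
  · rw [hcard, mul_right_comm, ← card_trivialChars_mul ε D, mul_assoc,
      mul_inv_cancel₀ (Nat.cast_ne_zero.mpr Nat.card_pos.ne'), mul_one]

/-- The characters nontrivial on `D` have total density zero. -/
private lemma hasLogDensity_sum_compl (hπ : GaloisFactorsThroughFiniteLevel π)
    (hs : Function.Surjective π) (D : Subgroup G) [NumberField (fixedFieldOf π D)]
    {ε : G →* (ZMod m)ˣ}
    (hε : ∀ᶠ q : Nat.Primes in cofinite,
      (ε (π (frob q)) : ZMod m) = ((q : ℕ) : ZMod m) ^ 2) :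
    HasLogDensity (fun q => ∑ ψ ∈ (trivialChars ε D)ᶜ, twistTerm π D ψ q) 0 := by
  have hsum := HasLogDensity.sum (trivialChars ε D) (f := twistTerm π D) (a := fun _ => 1)
    fun ψ hψ => hasLogDensity_twistTerm_of_trivial hπ hs D hε (Finset.mem_filter.mp hψ).2
  refine (((hasLogDensity_sum_twistTerm hπ hs D hε).add (hsum.const_mul (-1))).congr
    (Eventually.of_forall fun q => ?_)).congr_density (by simp)
  rw [← Finset.sum_add_sum_compl (trivialChars ε D)]
  ring

/-- Characters nontrivial on `D` give density zero. -/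
private lemma hasLogDensity_twistTerm_of_nontrivial (hπ : GaloisFactorsThroughFiniteLevel π)
    (hs : Function.Surjective π) (D : Subgroup G) [NumberField (fixedFieldOf π D)]
    {ε : G →* (ZMod m)ˣ}
    (hε : ∀ᶠ q : Nat.Primes in cofinite,
      (ε (π (frob q)) : ZMod m) = ((q : ℕ) : ZMod m) ^ 2) {ψ₀ : DirichletCharacter ℂ m}
    (hψ₀ : ¬ ∀ d ∈ D, charAt ψ₀ ε d = 1) : HasLogDensity (twistTerm π D ψ₀) 0 := by
  obtain ⟨L, -, hL, -⟩ := exists_re_twistTerm_le hπ hs D hε hψ₀
  set U := (trivialChars ε D)ᶜ with hUdef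
  have hmem : ψ₀ ∈ U := Finset.mem_compl.mpr fun hm => hψ₀ (Finset.mem_filter.mp hm).2
  have hb : ∀ ψ : DirichletCharacter ℂ m, ∃ C : ℝ,
      ψ ∈ U → ∀ᶠ s in 𝓝[>] (1 : ℝ), (primeSeries (twistTerm π D ψ) s).re ≤ C := by
    intro ψ
    by_cases hψ : ∀ d ∈ D, charAt ψ ε d = 1
    · exact ⟨0, fun hm => absurd (Finset.mem_filter.mpr ⟨Finset.mem_univ ψ, hψ⟩)
        (Finset.mem_compl.mp hm)⟩
    · obtain ⟨-, C, -, hC⟩ := exists_re_twistTerm_le hπ hs D hε hψ
      exact ⟨C, fun _ => hC⟩
  choose C hC using hb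
  obtain ⟨C', hC'⟩ :=
    ((hasLogDensity_sum_compl hπ hs D hε).congr_density Complex.ofReal_zero.symm).exists_re_le
  refine hasLogDensity_twist_zero (K := fixedFieldOf π D) (ψ := sqChar ψ₀) (by simp [sqChar])
    (fun a b => by simp [sqChar, mul_pow]) (fun n => DirichletCharacter.norm_le_one ψ₀ _)
    hL (C := -C' - ∑ ψ ∈ U.erase ψ₀, C ψ) ?_
  filter_upwards [hC', (Finset.eventually_all (U.erase ψ₀)).mpr
    (fun ψ hψ => hC ψ (Finset.mem_of_mem_erase hψ)), self_mem_nhdsWithin] with s h1 h2 hs'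
  rw [zero_mul, sub_zero, primeSeries_finsetSum U
      (fun ψ _ => isBoundedOnPrimes_twistTerm D ψ) hs',
    ← Finset.add_sum_erase _ _ hmem, Complex.add_re, Complex.re_sum] at h1
  have := Finset.sum_le_sum h2
  change _ ≤ (primeSeries (twistTerm π D ψ₀) s).re
  linarith [(abs_le.mp h1).1]

/-- Twisted degree-one sums have log density zero for characters nontrivial on `D`. -/
theorem hasLogDensity_charAt_mul_fixCount (hπ : GaloisFactorsThroughFiniteLevel π)
    (hs : Function.Surjective π) (D : Subgroup G) (ε : G →* (ZMod m)ˣ)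
    (hε : ∀ᶠ q : Nat.Primes in cofinite,
      (ε (π (frob q)) : ZMod m) = ((q : ℕ) : ZMod m) ^ 2)
    (ψ₀ : DirichletCharacter ℂ m) :
    HasLogDensity (fun q : Nat.Primes =>
        charAt ψ₀ ε (π (frob q)) * (fixCount D (π (frob q)) : ℂ))
      (if ∀ d ∈ D, charAt ψ₀ ε d = 1 then (Nat.card D : ℂ) else 0) := by
  have := numberField_fixedFieldOf hπ D
  have hfinal : HasLogDensity (twistTerm π D ψ₀)
      (if ∀ d ∈ D, charAt ψ₀ ε d = 1 then 1 else 0) := by
    split_ifs with h
    · exact hasLogDensity_twistTerm_of_trivial hπ hs D hε h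
    · exact hasLogDensity_twistTerm_of_nontrivial hπ hs D hε h
  refine ((hfinal.const_mul (Nat.card D : ℂ)).congr
    ((eventually_twistTerm_eq hπ hs D hε ψ₀).mono fun q hq => ?_)).congr_density
    (by split_ifs <;> simp)
  rw [hq, mul_inv_cancel_left₀ (Nat.cast_ne_zero.mpr Nat.card_pos.ne')]

end FLTAgent.Density
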